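import Mathlib
import Fermat.Prelude.Def_FLTPrelim_GaloisRep
/-
S51 helper, part (0): torsion structure of a Weierstrass curve over a field, in general
Weierstrass form. Duplication formula for the x-coordinate, characterisation of 3- and 5-torsion
by division polynomials, cardinality bounds, lines in the torsion modules, and nontriviality of
the 3- and 5-torsion over an algebraically closed field.
-/
set_option autoImplicit false
set_option linter.unusedSectionVars false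
namespace Fermat.Agent.S51
open WeierstrassCurve Polynomial

section Identities
variable {K : Type*} [Field K]

/-- `ψ₂²(x(2P)) · ψ₂²(x)³ = preΨ₄(x)²`, in terms of numerator `A` and denominator `B` of `x(2P)`. -/
theorem id_dupB_dup (h4 : (4 : K) ≠ 0) (b2 b4 b6 b8 x : K) (hb : 4 * b8 = b2 * b6 - b4 ^ 2) :
    4 * (x ^ 4 - b4 * x ^ 2 - 2 * b6 * x - b8) ^ 3
      + b2 * (x ^ 4 - b4 * x ^ 2 - 2 * b6 * x - b8) ^ 2 * (4 * x ^ 3 + b2 * x ^ 2 + 2 * b4 * x + b6)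
      + 2 * b4 * (x ^ 4 - b4 * x ^ 2 - 2 * b6 * x - b8) * (4 * x ^ 3 + b2 * x ^ 2 + 2 * b4 * x + b6) ^ 2
      + b6 * (4 * x ^ 3 + b2 * x ^ 2 + 2 * b4 * x + b6) ^ 3
    = (2 * x ^ 6 + b2 * x ^ 5 + 5 * b4 * x ^ 4 + 10 * b6 * x ^ 3 + 10 * b8 * x ^ 2
        + (b2 * b8 - b4 * b6) * x + (b4 * b8 - b6 ^ 2)) ^ 2 := by
  have h8 : b8 = (b2 * b6 - b4 ^ 2) / 4 := by
    field_simp
    linear_combination hb
  subst h8
  field_simp
  ring

theorem id_N (h4 : (4 : K) ≠ 0) (b2 b4 b6 b8 x A B : K) (hb : 4 * b8 = b2 * b6 - b4 ^ 2)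
    (hA : A = x ^ 4 - b4 * x ^ 2 - 2 * b6 * x - b8)
    (hB : B = 4 * x ^ 3 + b2 * x ^ 2 + 2 * b4 * x + b6) :
    A ^ 4 - b4 * A ^ 2 * B ^ 2 - 2 * b6 * A * B ^ 3 - b8 * B ^ 4
      - x * B * (4 * A ^ 3 + b2 * A ^ 2 * B + 2 * b4 * A * B ^ 2 + b6 * B ^ 3)
    = - (3 * x ^ 4 + b2 * x ^ 3 + 3 * b4 * x ^ 2 + 3 * b6 * x + b8) *
      ((2 * x ^ 6 + b2 * x ^ 5 + 5 * b4 * x ^ 4 + 10 * b6 * x ^ 3 + 10 * b8 * x ^ 2
        + (b2 * b8 - b4 * b6) * x + (b4 * b8 - b6 ^ 2)) * B ^ 2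
        - (3 * x ^ 4 + b2 * x ^ 3 + 3 * b4 * x ^ 2 + 3 * b6 * x + b8) ^ 3) := by
  have h8 : b8 = (b2 * b6 - b4 ^ 2) / 4 := by
    field_simp
    linear_combination hb
  subst h8 hA hB
  field_simp
  ring

theorem id_bezout (h4 : (4 : K) ≠ 0) (b2 b4 b6 b8 x : K) (hb : 4 * b8 = b2 * b6 - b4 ^ 2) :
    (-48 * x ^ 2 - 8 * b2 * x + b2 ^ 2 - 32 * b4) * (x ^ 4 - b4 * x ^ 2 - 2 * b6 * x - b8)
      + (12 * x ^ 3 - b2 * x ^ 2 - 10 * b4 * x + b2 * b4 - 27 * b6)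
        * (4 * x ^ 3 + b2 * x ^ 2 + 2 * b4 * x + b6)
    = -b2 ^ 2 * b8 - 8 * b4 ^ 3 - 27 * b6 ^ 2 + 9 * b2 * b4 * b6 := by
  have h8 : b8 = (b2 * b6 - b4 ^ 2) / 4 := by
    field_simp
    linear_combination hb
  subst h8
  field_simp
  ring

theorem alg_five (b2 b4 b6 b8 x x2 A B : K) (e1 : x2 * B = A)
    (e2 : x * (4 * x2 ^ 3 + b2 * x2 ^ 2 + 2 * b4 * x2 + b6)
      = x2 ^ 4 - b4 * x2 ^ 2 - 2 * b6 * x2 - b8) :
    A ^ 4 - b4 * A ^ 2 * B ^ 2 - 2 * b6 * A * B ^ 3 - b8 * B ^ 4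
      - x * B * (4 * A ^ 3 + b2 * A ^ 2 * B + 2 * b4 * A * B ^ 2 + b6 * B ^ 3) = 0 := by
  subst e1
  linear_combination (-B ^ 4) * e2

theorem alg_five' (b2 b4 b6 b8 x x2 A B : K) (e1 : x2 * B = A) :
    A ^ 4 - b4 * A ^ 2 * B ^ 2 - 2 * b6 * A * B ^ 3 - b8 * B ^ 4
      - x * B * (4 * A ^ 3 + b2 * A ^ 2 * B + 2 * b4 * A * B ^ 2 + b6 * B ^ 3)
    = B ^ 4 * ((x2 ^ 4 - b4 * x2 ^ 2 - 2 * b6 * x2 - b8)
      - x * (4 * x2 ^ 3 + b2 * x2 ^ 2 + 2 * b4 * x2 + b6)) := by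
  subst e1
  ring

theorem alg_dupB (b2 b4 b6 x2 A B : K) (e1 : x2 * B = A) :
    4 * A ^ 3 + b2 * A ^ 2 * B + 2 * b4 * A * B ^ 2 + b6 * B ^ 3
    = B ^ 3 * (4 * x2 ^ 3 + b2 * x2 ^ 2 + 2 * b4 * x2 + b6) := by
  subst e1
  ring

end Identities

section Points

variable {K : Type*} [Field K] [DecidableEq K] (E : WeierstrassCurve.Affine K)

/-- numerator of the x-coordinate duplication map -/
def dA (x : K) : K := x ^ 4 - E.b₄ * x ^ 2 - 2 * E.b₆ * x - E.b₈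
/-- denominator of the x-coordinate duplication map -/
def dB (x : K) : K := 4 * x ^ 3 + E.b₂ * x ^ 2 + 2 * E.b₄ * x + E.b₆

variable {E}

/-- the x-coordinate of a point, junk value `0` at the origin -/
def xc : E.Point → K
  | .zero => 0
  | .some x _ _ => x

@[simp] lemma xc_some {x y : K} (h : E.Nonsingular x y) : xc (Affine.Point.some x y h) = x := rfl

lemma xc_neg (P : E.Point) : xc (-P) = xc P := by
  cases P <;> rfl

lemma eq_or_eq_neg_of_xc_eq {P Q : E.Point} (hP : P ≠ 0) (hQ : Q ≠ 0) (h : xc P = xc Q) :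
    P = Q ∨ P = -Q := by
  match P, Q with
  | .zero, _ => exact absurd rfl hP
  | _, .zero => exact absurd rfl hQ
  | .some x₁ y₁ h₁, .some x₂ y₂ h₂ =>
    exact Affine.Point.X_eq_iff.mp h

lemma dB_eq_sq {x y : K} (h : E.Equation x y) : dB E x = (y - E.negY x y) ^ 2 := by
  rw [Affine.equation_iff] at h
  simp only [dB, Affine.negY, b₂, b₄, b₆]
  linear_combination (-4 : K) * h

lemma two_nsmul_some {x y : K} (h : E.Nonsingular x y) :
    (2 • Affine.Point.some x y h = 0 ↔ dB E x = 0) := by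
  rw [two_nsmul, dB_eq_sq h.1]
  constructor
  · intro h2
    by_contra hne
    have hy : y ≠ E.negY x y := fun e => hne (by rw [← e]; ring)
    rw [Affine.Point.add_self_of_Y_ne hy] at h2
    exact Affine.Point.some_ne_zero _ h2
  · intro h0
    have hy : y = E.negY x y := by
      have := pow_eq_zero_iff (two_ne_zero) |>.mp h0
      exact sub_eq_zero.mp this
    exact Affine.Point.add_self_of_Y_eq hy

lemma two_nsmul_eq_zero_iff {P : E.Point} (hP : P ≠ 0) : 2 • P = 0 ↔ dB E (xc P) = 0 := by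
  match P with
  | .zero => exact absurd rfl hP
  | .some x y h => exact two_nsmul_some h

lemma xc_two_nsmul {P : E.Point} (hP : P ≠ 0) (hB : dB E (xc P) ≠ 0) :
    xc (2 • P) * dB E (xc P) = dA E (xc P) := by
  match P with
  | .zero => exact absurd rfl hP
  | .some x y h =>
    have hne : (y - E.negY x y) ^ 2 ≠ 0 := by rwa [← dB_eq_sq h.1]
    have hy : y ≠ E.negY x y := fun e => hne (by rw [← e]; ring)
    have hd : y - E.negY x y ≠ 0 := sub_ne_zero.mpr hy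
    rw [two_nsmul, Affine.Point.add_self_of_Y_ne hy, xc_some, xc_some, dB_eq_sq h.1,
      Affine.slope_of_Y_ne rfl hy]
    have heq := h.1
    rw [Affine.equation_iff] at heq
    set ℓ := (3 * x ^ 2 + 2 * E.a₂ * x + E.a₄ - E.a₁ * y) / (y - E.negY x y) with hℓdef
    have hℓ : ℓ * (y - E.negY x y) = 3 * x ^ 2 + 2 * E.a₂ * x + E.a₄ - E.a₁ * y := by
      rw [hℓdef]; field_simp
    simp only [Affine.addX, dA, b₄, b₆, b₈]
    simp only [Affine.negY] at hℓ ⊢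
    linear_combination (ℓ * (y - (-y - E.a₁ * x - E.a₃)) + (3 * x ^ 2 + 2 * E.a₂ * x + E.a₄ - E.a₁ * y)
      + E.a₁ * (y - (-y - E.a₁ * x - E.a₃))) * hℓ + (-(E.a₁ ^ 2 + 4 * E.a₂ + 8 * x)) * heq

variable (E) in
/-- the 3-division polynomial as a function -/
def p3 (x : K) : K := 3 * x ^ 4 + E.b₂ * x ^ 3 + 3 * E.b₄ * x ^ 2 + 3 * E.b₆ * x + E.b₈

variable (E) in
/-- the reduced 4-division polynomial as a function -/
def p4 (x : K) : K := 2 * x ^ 6 + E.b₂ * x ^ 5 + 5 * E.b₄ * x ^ 4 + 10 * E.b₆ * x ^ 3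
  + 10 * E.b₈ * x ^ 2 + (E.b₂ * E.b₈ - E.b₄ * E.b₆) * x + (E.b₄ * E.b₈ - E.b₆ ^ 2)

variable (E) in
/-- the 5-division polynomial as a function -/
def p5 (x : K) : K := p4 E x * dB E x ^ 2 - p3 E x ^ 3

lemma p3_eq (x : K) : p3 E x = x * dB E x - dA E x := by
  simp only [p3, dA, dB]; ring

lemma three_nsmul_eq (P : E.Point) : 3 • P = 2 • P + P := by
  rw [show (3 : ℕ) = 2 + 1 from rfl, add_nsmul, one_nsmul]

theorem p3_eq_zero_of_three_nsmul {P : E.Point} (hP : P ≠ 0) (h3 : 3 • P = 0) :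
    p3 E (xc P) = 0 := by
  have h2 : 2 • P = -P := by
    rw [three_nsmul_eq] at h3
    exact eq_neg_of_add_eq_zero_left h3
  have h2ne : 2 • P ≠ 0 := by
    rw [h2]; exact neg_ne_zero.mpr hP
  have hB : dB E (xc P) ≠ 0 := fun h => h2ne ((two_nsmul_eq_zero_iff hP).mpr h)
  have hx := xc_two_nsmul hP hB
  rw [h2, xc_neg] at hx
  rw [p3_eq, hx, sub_self]

theorem dB_ne_zero_of_p3 (h2 : (2 : K) ≠ 0) (hΔ : E.Δ ≠ 0) {x : K} (h : p3 E x = 0) :
    dB E x ≠ 0 := by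
  intro hB
  have hA : dA E x = 0 := by
    have := p3_eq (E := E) x
    rw [h, hB, mul_zero, zero_sub] at this
    exact neg_eq_zero.mp this.symm
  have h4 : (4 : K) ≠ 0 := by
    have : (4 : K) = 2 * 2 := by norm_num
    rw [this]; exact mul_ne_zero h2 h2
  have := id_bezout h4 E.b₂ E.b₄ E.b₆ E.b₈ x E.b_relation
  simp only [dA, dB] at hA hB
  rw [hA, hB, mul_zero, mul_zero, add_zero] at this
  exact hΔ (by rw [Δ]; exact this.symm)

theorem three_nsmul_of_p3_eq_zero (h2 : (2 : K) ≠ 0) (hΔ : E.Δ ≠ 0) {P : E.Point} (hP : P ≠ 0)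
    (h : p3 E (xc P) = 0) : 3 • P = 0 := by
  have hB := dB_ne_zero_of_p3 h2 hΔ h
  have h2ne : 2 • P ≠ 0 := fun h0 => hB ((two_nsmul_eq_zero_iff hP).mp h0)
  have hx := xc_two_nsmul hP hB
  have hxx : xc (2 • P) = xc P := by
    have h3 := p3_eq (E := E) (xc P)
    rw [h] at h3
    have : dA E (xc P) = xc P * dB E (xc P) := by linear_combination h3
    rw [this] at hx
    exact mul_right_cancel₀ hB hx
  rcases eq_or_eq_neg_of_xc_eq h2ne hP hxx with h1 | h1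
  · exfalso
    rw [two_nsmul] at h1
    exact hP (by simpa using h1)
  · rw [three_nsmul_eq, h1, neg_add_cancel]

theorem p3_mul_p5_eq_zero_of_five_nsmul (h4 : (4 : K) ≠ 0) {P : E.Point} (hP : P ≠ 0)
    (h5 : 5 • P = 0) : p3 E (xc P) * p5 E (xc P) = 0 := by
  have h4P : 4 • P = -P := by
    have : 5 • P = 4 • P + P := by
      rw [show (5 : ℕ) = 4 + 1 from rfl, add_nsmul, one_nsmul]
    rw [this] at h5
    exact eq_neg_of_add_eq_zero_left h5
  have h22 : 2 • (2 • P) = 4 • P := by rw [← mul_nsmul]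
  have hQ : 2 • P ≠ 0 := by
    intro h0
    have : 4 • P = 0 := by rw [← h22, h0, nsmul_zero]
    rw [this] at h4P
    exact hP (neg_eq_zero.mp h4P.symm)
  have h4ne : 2 • (2 • P) ≠ 0 := by
    rw [h22, h4P]; exact neg_ne_zero.mpr hP
  have hB : dB E (xc P) ≠ 0 := fun h => hQ ((two_nsmul_eq_zero_iff hP).mpr h)
  have hB2 : dB E (xc (2 • P)) ≠ 0 := fun h => h4ne ((two_nsmul_eq_zero_iff hQ).mpr h)
  have e1 := xc_two_nsmul hP hB
  have e2 := xc_two_nsmul hQ hB2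
  rw [h22, h4P, xc_neg] at e2
  have hN := id_N h4 E.b₂ E.b₄ E.b₆ E.b₈ (xc P) (dA E (xc P)) (dB E (xc P)) E.b_relation rfl rfl
  have hN' := alg_five E.b₂ E.b₄ E.b₆ E.b₈ (xc P) (xc (2 • P)) (dA E (xc P)) (dB E (xc P)) e1 e2
  rw [hN] at hN'
  simp only [p5, p4, p3]
  linear_combination -hN'

theorem finite_and_ncard_le_of_roots (Q : K[X]) (hQ : Q ≠ 0) (S : Set E.Point)
    (hS : ∀ P ∈ S, P ≠ 0 → Q.eval (xc P) = 0) :
    S.Finite ∧ S.ncard ≤ 2 * Q.natDegree + 1 := by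
  classical
  let F : K → Finset E.Point := fun x =>
    if h : ∃ P : E.Point, P ≠ 0 ∧ xc P = x then {h.choose, -h.choose} else ∅
  have hF : ∀ x, (F x).card ≤ 2 := by
    intro x
    dsimp only [F]
    split_ifs
    · exact Finset.card_le_two
    · simp
  let T : Finset E.Point := insert 0 (Q.roots.toFinset.biUnion F)
  have hsub : S ⊆ ↑T := by
    intro P hP
    by_cases h0 : P = 0
    · simp [T, h0]
    · have hroot : xc P ∈ Q.roots.toFinset := by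
        rw [Multiset.mem_toFinset, Polynomial.mem_roots hQ]
        exact hS P hP h0
      have hex : ∃ P' : E.Point, P' ≠ 0 ∧ xc P' = xc P := ⟨P, h0, rfl⟩
      have hcases := eq_or_eq_neg_of_xc_eq h0 hex.choose_spec.1 hex.choose_spec.2.symm
      have hmem : P ∈ F (xc P) := by
        simp only [F, dif_pos hex, Finset.mem_insert, Finset.mem_singleton]
        exact hcases
      simp only [T, Finset.coe_insert, Set.mem_insert_iff, Finset.mem_coe, Finset.mem_biUnion]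
      exact Or.inr ⟨xc P, hroot, hmem⟩
  have hT : T.card ≤ 2 * Q.natDegree + 1 := by
    calc T.card ≤ (Q.roots.toFinset.biUnion F).card + 1 := Finset.card_insert_le _ _
      _ ≤ (∑ x ∈ Q.roots.toFinset, (F x).card) + 1 := by
          gcongr; exact Finset.card_biUnion_le
      _ ≤ (∑ _x ∈ Q.roots.toFinset, 2) + 1 := by
          gcongr with x _; exact hF x
      _ = Q.roots.toFinset.card * 2 + 1 := by simp
      _ ≤ Q.natDegree * 2 + 1 := by
          gcongr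
          exact (Multiset.toFinset_card_le _).trans (Polynomial.card_roots' Q)
      _ = _ := by ring
  refine ⟨T.finite_toSet.subset hsub, ?_⟩
  calc S.ncard ≤ (↑T : Set E.Point).ncard := Set.ncard_le_ncard hsub T.finite_toSet
    _ = T.card := Set.ncard_coe_finset T
    _ ≤ _ := hT


lemma eval_Ψ₃ (x : K) : (E.Ψ₃).eval x = p3 E x := by
  simp [Ψ₃, p3]

lemma preΨ'_five : E.preΨ' 5 = E.preΨ₄ * E.Ψ₂Sq ^ 2 - E.Ψ₃ ^ 3 := by
  have h := E.preΨ'_odd 0
  simpa using h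

lemma eval_preΨ'_five (x : K) : (E.preΨ' 5).eval x = p5 E x := by
  rw [preΨ'_five]
  simp [Ψ₃, preΨ₄, Ψ₂Sq, p5, p4, p3, dB]

theorem three_torsion_finite (h3 : (3 : K) ≠ 0) :
    {P : E.Point | 3 • P = 0}.Finite ∧ {P : E.Point | 3 • P = 0}.ncard ≤ 9 := by
  have hQ : E.Ψ₃ ≠ 0 := E.Ψ₃_ne_zero h3
  have := finite_and_ncard_le_of_roots (E := E) E.Ψ₃ hQ {P : E.Point | 3 • P = 0}
    (fun P hP h0 => by rw [eval_Ψ₃]; exact p3_eq_zero_of_three_nsmul h0 hP)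
  refine ⟨this.1, this.2.trans ?_⟩
  rw [E.natDegree_Ψ₃ h3]

theorem five_torsion_finite (h2 : (2 : K) ≠ 0) (h3 : (3 : K) ≠ 0) (h5 : (5 : K) ≠ 0) :
    {P : E.Point | 5 • P = 0}.Finite ∧ {P : E.Point | 5 • P = 0}.ncard ≤ 33 := by
  have h4 : (4 : K) ≠ 0 := by
    have : (4 : K) = 2 * 2 := by norm_num
    rw [this]; exact mul_ne_zero h2 h2
  have h5' : ((5 : ℕ) : K) ≠ 0 := by exact_mod_cast h5
  have hQ3 : E.Ψ₃ ≠ 0 := E.Ψ₃_ne_zero h3
  have hQ5 : E.preΨ' 5 ≠ 0 := E.preΨ'_ne_zero h5'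
  have hQ : E.Ψ₃ * E.preΨ' 5 ≠ 0 := mul_ne_zero hQ3 hQ5
  have := finite_and_ncard_le_of_roots (E := E) (E.Ψ₃ * E.preΨ' 5) hQ {P : E.Point | 5 • P = 0}
    (fun P hP h0 => by
      rw [eval_mul, eval_Ψ₃, eval_preΨ'_five]
      exact p3_mul_p5_eq_zero_of_five_nsmul h4 h0 hP)
  refine ⟨this.1, this.2.trans ?_⟩
  rw [natDegree_mul hQ3 hQ5, E.natDegree_Ψ₃ h3, E.natDegree_preΨ' h5']
  norm_num

section Exist

variable [IsAlgClosed K]

theorem exists_point_of_x (h2 : (2 : K) ≠ 0) (hΔ : E.Δ ≠ 0) (x : K) :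
    ∃ P : E.Point, P ≠ 0 ∧ xc P = x := by
  obtain ⟨z, hz⟩ := IsAlgClosed.exists_pow_nat_eq (dB E x) (n := 2) (by norm_num)
  have heq : E.Equation x ((z - E.a₁ * x - E.a₃) / 2) := by
    rw [Affine.equation_iff]
    simp only [dB, b₂, b₄, b₆] at hz
    field_simp
    linear_combination hz
  have hns := (Affine.equation_iff_nonsingular_of_Δ_ne_zero hΔ).mp heq
  exact ⟨.some x _ hns, Affine.Point.some_ne_zero _, rfl⟩

theorem exists_three_torsion (h2 : (2 : K) ≠ 0) (h3 : (3 : K) ≠ 0) (hΔ : E.Δ ≠ 0) :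
    ∃ P : E.Point, P ≠ 0 ∧ 3 • P = 0 := by
  have hdeg : E.Ψ₃.degree ≠ 0 := by
    rw [degree_eq_natDegree (E.Ψ₃_ne_zero h3), E.natDegree_Ψ₃ h3]
    norm_num
  obtain ⟨x, hx⟩ := IsAlgClosed.exists_root E.Ψ₃ hdeg
  obtain ⟨P, hP, rfl⟩ := exists_point_of_x h2 hΔ x
  rw [IsRoot.def, eval_Ψ₃] at hx
  exact ⟨P, hP, three_nsmul_of_p3_eq_zero h2 hΔ hP hx⟩

theorem five_nsmul_of_p5_eq_zero (h2 : (2 : K) ≠ 0) (hΔ : E.Δ ≠ 0) {P : E.Point} (hP : P ≠ 0)
    (h : p5 E (xc P) = 0) : 5 • P = 0 := by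
  have h4 : (4 : K) ≠ 0 := by
    have : (4 : K) = 2 * 2 := by norm_num
    rw [this]; exact mul_ne_zero h2 h2
  have h22 : 2 • (2 • P) = 4 • P := by rw [← mul_nsmul]
  have hp : p4 E (xc P) * dB E (xc P) ^ 2 = p3 E (xc P) ^ 3 := by
    simp only [p5] at h
    linear_combination h
  -- `B ≠ 0`
  have hB : dB E (xc P) ≠ 0 := by
    intro hB
    rw [hB] at hp
    have h3 : p3 E (xc P) = 0 := by
      have : p3 E (xc P) ^ 3 = 0 := by rw [← hp]; ring
      exact pow_eq_zero_iff (by norm_num) |>.mp this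
    exact dB_ne_zero_of_p3 h2 hΔ h3 hB
  have hQ : 2 • P ≠ 0 := fun h0 => hB ((two_nsmul_eq_zero_iff hP).mp h0)
  have e1 := xc_two_nsmul hP hB
  have hid := id_dupB_dup h4 E.b₂ E.b₄ E.b₆ E.b₈ (xc P) E.b_relation
  have hid2 := alg_dupB E.b₂ E.b₄ E.b₆ (xc (2 • P)) (dA E (xc P)) (dB E (xc P)) e1
  have hkey : dB E (xc P) ^ 3 * dB E (xc (2 • P)) = p4 E (xc P) ^ 2 := by
    simp only [dA, dB] at hid2
    simp only [dB, p4]
    rw [← hid2, hid]
  -- `dB (x2) ≠ 0`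
  have hB2 : dB E (xc (2 • P)) ≠ 0 := by
    intro hB2
    rw [hB2, mul_zero] at hkey
    have h40 : p4 E (xc P) = 0 := pow_eq_zero_iff (by norm_num) |>.mp hkey.symm
    rw [h40, zero_mul] at hp
    have h3 : p3 E (xc P) = 0 := pow_eq_zero_iff (by norm_num) |>.mp hp.symm
    have h3P := three_nsmul_of_p3_eq_zero h2 hΔ hP h3
    have h4P : 4 • P = 0 := by rw [← h22]; exact (two_nsmul_eq_zero_iff hQ).mpr hB2
    have : 4 • P = 3 • P + P := by
      rw [show (4 : ℕ) = 3 + 1 from rfl, add_nsmul, one_nsmul]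
    rw [h4P, h3P, zero_add] at this
    exact hP this.symm
  have hR : 2 • (2 • P) ≠ 0 := fun h0 => hB2 ((two_nsmul_eq_zero_iff hQ).mp h0)
  have e2 := xc_two_nsmul hQ hB2
  have hN := id_N h4 E.b₂ E.b₄ E.b₆ E.b₈ (xc P) (dA E (xc P)) (dB E (xc P)) E.b_relation rfl rfl
  have hN' := alg_five' E.b₂ E.b₄ E.b₆ E.b₈ (xc P) (xc (2 • P)) (dA E (xc P)) (dB E (xc P)) e1
  rw [hN] at hN'
  have hzero : dA E (xc (2 • P)) - xc P * dB E (xc (2 • P)) = 0 := by
    have hB4 : dB E (xc P) ^ 4 ≠ 0 := pow_ne_zero _ hB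
    apply mul_left_cancel₀ hB4
    rw [mul_zero]
    simp only [dA, dB] at hN' ⊢
    rw [← hN']
    simp only [p5, p4, p3, dB] at h
    rw [h]; ring
  have hxx : xc (2 • (2 • P)) = xc P := by
    have : xc (2 • (2 • P)) * dB E (xc (2 • P)) = xc P * dB E (xc (2 • P)) := by
      rw [e2]; linear_combination hzero
    exact mul_right_cancel₀ hB2 this
  rcases eq_or_eq_neg_of_xc_eq hR hP hxx with h1 | h1
  · -- `4P = P`, so `3P = 0`
    exfalso
    rw [h22] at h1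
    have h3P : 3 • P = 0 := by
      have : 4 • P = 3 • P + P := by
        rw [show (4 : ℕ) = 3 + 1 from rfl, add_nsmul, one_nsmul]
      rw [this] at h1
      exact add_eq_right.mp h1
    have h3 := p3_eq_zero_of_three_nsmul hP h3P
    rw [h3] at hp
    have h40 : p4 E (xc P) = 0 := by
      have : p4 E (xc P) * dB E (xc P) ^ 2 = 0 := by rw [hp]; ring
      rcases mul_eq_zero.mp this with h | h
      · exact h
      · exact absurd (pow_eq_zero_iff (by norm_num) |>.mp h) hB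
    rw [h40] at hkey
    have : dB E (xc P) ^ 3 * dB E (xc (2 • P)) = 0 := by rw [hkey]; ring
    rcases mul_eq_zero.mp this with h | h
    · exact hB (pow_eq_zero_iff (by norm_num) |>.mp h)
    · exact hB2 h
  · rw [h22] at h1
    rw [show (5 : ℕ) = 4 + 1 from rfl, add_nsmul, one_nsmul, h1, neg_add_cancel]

theorem exists_five_torsion (h2 : (2 : K) ≠ 0) (h5 : (5 : K) ≠ 0) (hΔ : E.Δ ≠ 0) :
    ∃ P : E.Point, P ≠ 0 ∧ 5 • P = 0 := by
  have h5' : ((5 : ℕ) : K) ≠ 0 := by exact_mod_cast h5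
  have hdeg : (E.preΨ' 5).degree ≠ 0 := by
    rw [degree_eq_natDegree (E.preΨ'_ne_zero h5'), E.natDegree_preΨ' h5']
    norm_num
  obtain ⟨x, hx⟩ := IsAlgClosed.exists_root (E.preΨ' 5) hdeg
  obtain ⟨P, hP, rfl⟩ := exists_point_of_x h2 hΔ x
  rw [IsRoot.def, eval_preΨ'_five] at hx
  exact ⟨P, hP, five_nsmul_of_p5_eq_zero h2 hΔ hP hx⟩

end Exist

end Points

section LinAlg

/-- In a `ZMod p`-module with fewer than `p ^ 3` elements, every proper nonzero submodule is a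
line. -/
theorem exists_generator_of_ne_bot_of_ne_top {p : ℕ} [Fact p.Prime] {T : Type*} [AddCommGroup T]
    [Module (ZMod p) T] [Finite T] (hcard : Nat.card T < p ^ 3)
    (N : Submodule (ZMod p) T) (h0 : N ≠ ⊥) (h1 : N ≠ ⊤) :
    ∃ P ∈ N, P ≠ 0 ∧ ∀ Q ∈ N, ∃ c : ZMod p, Q = c • P := by
  have hp : 1 < p := (Fact.out : p.Prime).one_lt
  have hfin : Module.finrank (ZMod p) T ≤ 2 := by
    have h := Module.natCard_eq_pow_finrank (K := ZMod p) (V := T)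
    rw [Nat.card_zmod] at h
    rw [h] at hcard
    have := (Nat.pow_lt_pow_iff_right hp).mp hcard
    omega
  have hN1 : Module.finrank (ZMod p) N < Module.finrank (ZMod p) T :=
    Submodule.finrank_lt h1
  have hN0 : 0 < Module.finrank (ZMod p) N := by
    rw [Module.finrank_pos_iff]
    exact (Submodule.nontrivial_iff_ne_bot).mpr h0
  have hN : Module.finrank (ZMod p) N = 1 := by omega
  obtain ⟨v, hv, hspan⟩ := finrank_eq_one_iff'.mp hN
  refine ⟨v.1, v.2, fun h => hv (Subtype.ext h), fun Q hQ => ?_⟩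
  obtain ⟨c, hc⟩ := hspan ⟨Q, hQ⟩
  exact ⟨c, by rw [← Subtype.coe_mk Q hQ, ← hc]; rfl⟩

end LinAlg
section Torsion

open WeierstrassCurve.Affine

variable {R : Type*} {K : Type*} [CommRing R] [Field K] [DecidableEq K] {W' : Affine R}
  [Algebra R K]

lemma mem_torsionBy_iff_nsmul (n : ℕ) (P : (W'⁄K).Point) :
    P ∈ Submodule.torsionBy ℤ (W'⁄K).Point n ↔ n • P = 0 := by
  rw [Submodule.mem_torsionBy_iff, natCast_zsmul]

theorem torsionBy_finite_of_finite (n : ℕ) (h : {P : (W'⁄K).Point | n • P = 0}.Finite) :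
    Finite (Submodule.torsionBy ℤ (W'⁄K).Point n) := by
  have : {P : (W'⁄K).Point | n • P = 0} = (Submodule.torsionBy ℤ (W'⁄K).Point n : Set _) := by
    ext P
    exact (mem_torsionBy_iff_nsmul n P).symm
  rw [this] at h
  exact h

theorem card_torsionBy_eq_ncard (n : ℕ) :
    Nat.card (Submodule.torsionBy ℤ (W'⁄K).Point n) = {P : (W'⁄K).Point | n • P = 0}.ncard := by
  have : {P : (W'⁄K).Point | n • P = 0} = (Submodule.torsionBy ℤ (W'⁄K).Point n : Set _) := by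
    ext P
    exact (mem_torsionBy_iff_nsmul n P).symm
  rw [this]
  rfl

/-- Every proper nonzero `ZMod 3`-submodule of the 3-torsion is a line. -/
theorem exists_generator_three (h3 : (3 : K) ≠ 0)
    (N : Submodule (ZMod 3) (Submodule.torsionBy ℤ (W'⁄K).Point (3 : ℕ)))
    (h0 : N ≠ ⊥) (h1 : N ≠ ⊤) :
    ∃ P ∈ N, P ≠ 0 ∧ ∀ Q ∈ N, ∃ c : ZMod 3, Q = c • P := by
  have : Fact (Nat.Prime 3) := ⟨by norm_num⟩
  obtain ⟨hfin, hcard⟩ := three_torsion_finite (E := W'⁄K) h3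
  have := torsionBy_finite_of_finite 3 hfin
  refine exists_generator_of_ne_bot_of_ne_top ?_ N h0 h1
  rw [card_torsionBy_eq_ncard]
  omega

/-- Every proper nonzero `ZMod 5`-submodule of the 5-torsion is a line. -/
theorem exists_generator_five (h2 : (2 : K) ≠ 0) (h3 : (3 : K) ≠ 0) (h5 : (5 : K) ≠ 0)
    (N : Submodule (ZMod 5) (Submodule.torsionBy ℤ (W'⁄K).Point (5 : ℕ)))
    (h0 : N ≠ ⊥) (h1 : N ≠ ⊤) :
    ∃ P ∈ N, P ≠ 0 ∧ ∀ Q ∈ N, ∃ c : ZMod 5, Q = c • P := by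
  have : Fact (Nat.Prime 5) := ⟨by norm_num⟩
  obtain ⟨hfin, hcard⟩ := five_torsion_finite (E := W'⁄K) h2 h3 h5
  have := torsionBy_finite_of_finite 5 hfin
  refine exists_generator_of_ne_bot_of_ne_top ?_ N h0 h1
  rw [card_torsionBy_eq_ncard]
  omega

theorem nontrivial_torsion_three [IsAlgClosed K] (h2 : (2 : K) ≠ 0) (h3 : (3 : K) ≠ 0)
    (hΔ : (W'⁄K).Δ ≠ 0) : Nontrivial (Submodule.torsionBy ℤ (W'⁄K).Point (3 : ℕ)) := by
  obtain ⟨P, hP, h⟩ := exists_three_torsion (E := W'⁄K) h2 h3 hΔ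
  refine ⟨⟨⟨P, (mem_torsionBy_iff_nsmul 3 P).mpr h⟩, 0, fun h0 => hP ?_⟩⟩
  exact congrArg Subtype.val h0

theorem nontrivial_torsion_five [IsAlgClosed K] (h2 : (2 : K) ≠ 0) (h5 : (5 : K) ≠ 0)
    (hΔ : (W'⁄K).Δ ≠ 0) : Nontrivial (Submodule.torsionBy ℤ (W'⁄K).Point (5 : ℕ)) := by
  obtain ⟨P, hP, h⟩ := exists_five_torsion (E := W'⁄K) h2 h5 hΔ
  refine ⟨⟨⟨P, (mem_torsionBy_iff_nsmul 5 P).mpr h⟩, 0, fun h0 => hP ?_⟩⟩
  exact congrArg Subtype.val h0

end Torsion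

end Fermat.Agent.S51
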