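-- S51, final step: the four noncuspidal rational points of X_0(15) are not semistable at 5.
import Fermat.Statements.S51

set_option autoImplicit false

namespace Fermat.Agent.S51.Final

open WeierstrassCurve

theorem five_dvd_of_eq (a b c D : ℤ) (ha : ¬ (5 : ℤ) ∣ a) (hb : ¬ (5 : ℤ) ∣ b)
    (h : a * c ^ 3 = 5 * b * D ∨ a * c ^ 3 = 25 * b * D) : (5 : ℤ) ∣ c ∧ (5 : ℤ) ∣ D := by
  have h5 : Prime (5 : ℤ) := by
    rw [Int.prime_iff_natAbs_prime]; norm_num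
  have hc : (5 : ℤ) ∣ c := by
    have h1 : (5 : ℤ) ∣ a * c ^ 3 := by
      rcases h with h | h
      · exact ⟨b * D, by rw [h]; ring⟩
      · exact ⟨5 * b * D, by rw [h]; ring⟩
    rcases h5.dvd_or_dvd h1 with h2 | h2
    · exact absurd h2 ha
    · exact h5.dvd_of_dvd_pow h2
  refine ⟨hc, ?_⟩
  obtain ⟨k, rfl⟩ := hc
  have h2 : (5 : ℤ) ∣ b * D := by
    rcases h with h | h
    · exact ⟨5 * a * k ^ 3, by linarith⟩
    · exact ⟨a * k ^ 3, by linarith⟩
  rcases h5.dvd_or_dvd h2 with h3 | h3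
  · exact absurd h3 hb
  · exact h3

theorem false_of_five_dvd (W : WeierstrassCurve ℤ) (hW : W.IsSemistableModel)
    (h : (5 : ℤ) ∣ W.c₄ ∧ (5 : ℤ) ∣ W.Δ) : False :=
  hW 5 (by norm_num) (by exact_mod_cast h.2) (by exact_mod_cast h.1)

theorem false_of_params (W : WeierstrassCurve ℤ) (hW : W.IsSemistableModel)
    (s : ℚ) (hs : s = -10 ∨ s = -25 / 2 ∨ s = -25 / 8 ∨ s = -40)
    (h : (W.c₄ : ℚ) ^ 3 * s = (W.Δ : ℚ) * (s ^ 2 + 10 * s + 5) ^ 3) : False := by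
  apply false_of_five_dvd W hW
  rcases hs with rfl | rfl | rfl | rfl
  · apply five_dvd_of_eq (-2) 1 W.c₄ W.Δ (by norm_num) (by norm_num)
    right
    have : ((-2 * W.c₄ ^ 3 : ℤ) : ℚ) = ((25 * 1 * W.Δ : ℤ) : ℚ) := by
      push_cast; linarith
    exact_mod_cast this
  · apply five_dvd_of_eq (-32) 24389 W.c₄ W.Δ (by norm_num) (by norm_num)
    left
    have : ((-32 * W.c₄ ^ 3 : ℤ) : ℚ) = ((5 * 24389 * W.Δ : ℤ) : ℚ) := by
      push_cast; linarith
    exact_mod_cast this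
  · apply five_dvd_of_eq 32768 9393931 W.c₄ W.Δ (by norm_num) (by norm_num)
    left
    have : ((32768 * W.c₄ ^ 3 : ℤ) : ℚ) = ((5 * 9393931 * W.Δ : ℤ) : ℚ) := by
      push_cast; linarith
    exact_mod_cast this
  · apply five_dvd_of_eq (-8) 13997521 W.c₄ W.Δ (by norm_num) (by norm_num)
    right
    have : ((-8 * W.c₄ ^ 3 : ℤ) : ℚ) = ((25 * 13997521 * W.Δ : ℤ) : ℚ) := by
      push_cast; linarith
    exact_mod_cast this

end Fermat.Agent.S51.Final
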