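import Mathlib

set_option autoImplicit false

namespace Fermat.Agent.S51.FiveAlg

variable {K : Type*} [Field K] [CharZero K]

/-- Pure algebra behind the parametrisation of curves with a cyclic subgroup of order five.
`x1`, `x2` play the role of the two `x`-coordinates of the nonzero points of the subgroup,
`h1`, `h2` are the duplication relations. -/
theorem key_identities (b2 b4 b6 b8 x1 x2 : K)
    (hb8 : 4 * b8 = b2 * b6 - b4 ^ 2) (hne : x1 ≠ x2)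
    (h1 : x1 ^ 4 - b4 * x1 ^ 2 - 2 * b6 * x1 - b8
        = x2 * (4 * x1 ^ 3 + b2 * x1 ^ 2 + 2 * b4 * x1 + b6))
    (h2 : x2 ^ 4 - b4 * x2 ^ 2 - 2 * b6 * x2 - b8
        = x1 * (4 * x2 ^ 3 + b2 * x2 ^ 2 + 2 * b4 * x2 + b6)) :
    (b2 ^ 2 - 24 * b4) * (x1 - x2) ^ 2
      = (3 * (x1 + x2 + b2 / 6) ^ 2 - (b2 ^ 2 - 24 * b4) / 12) ^ 2
        - 10 * (3 * (x1 + x2 + b2 / 6) ^ 2 - (b2 ^ 2 - 24 * b4) / 12) * (x1 - x2) ^ 2
        + 5 * ((x1 - x2) ^ 2) ^ 2 ∧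
    (-b2 ^ 2 * b8 - 8 * b4 ^ 3 - 27 * b6 ^ 2 + 9 * b2 * b4 * b6)
      = ((x1 - x2) ^ 2) ^ 2 * ((3 * (x1 + x2 + b2 / 6) ^ 2 - (b2 ^ 2 - 24 * b4) / 12)
          - 10 * (x1 - x2) ^ 2) := by
  have hb8' : b8 = (b2 * b6 - b4 ^ 2) / 4 := by
    linear_combination (1 / 4 : K) * hb8
  -- the difference of the two relations, divided by `x1 - x2`
  have hE : x1 ^ 3 - 3 * x1 ^ 2 * x2 - 3 * x1 * x2 ^ 2 + x2 ^ 3 - b2 * x1 * x2
      - b4 * (x1 + x2) - b6 = 0 := by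
    have hsub : x1 - x2 ≠ 0 := sub_ne_zero.mpr hne
    have : (x1 - x2) * (x1 ^ 3 - 3 * x1 ^ 2 * x2 - 3 * x1 * x2 ^ 2 + x2 ^ 3 - b2 * x1 * x2
      - b4 * (x1 + x2) - b6) = 0 := by
      linear_combination h1 - h2
    rcases mul_eq_zero.mp this with h | h
    · exact absurd h hsub
    · exact h
  subst hb8'
  constructor
  · linear_combination (-16 : K) * h1 + (4 * b2 + 32 * x1 + 16 * x2) * hE
  · linear_combination (b2 ^ 2 - 4 * b2 * x1 - 4 * b2 * x2 - 32 * b4 + 20 * x1 ^ 2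
        - 88 * x1 * x2 + 20 * x2 ^ 2) * h1
      + (-b2 ^ 2 * x1 - b2 * b4 + 3 * b2 * x1 ^ 2 + 7 * b2 * x1 * x2 - b2 * x2 ^ 2
        + 37 * b4 * x1 + 5 * b4 * x2 + 27 * b6 - 13 * x1 ^ 3 + 75 * x1 ^ 2 * x2
        - 33 * x1 * x2 ^ 2 + 7 * x2 ^ 3) * hE


/-- From the two polynomial identities to the parametrisation `j = (s^2+10s+5)^3/s`. -/
theorem param_of_identities {F : Type*} [Field F] (c4 Δ D N : F) (hD : D ≠ 0) (hΔ : Δ ≠ 0)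
    (hI1 : c4 * D = N ^ 2 - 10 * N * D + 5 * D ^ 2)
    (hI2 : Δ = D ^ 2 * (N - 10 * D)) :
    (N / D - 10) ≠ 0 ∧
      c4 ^ 3 * (N / D - 10) = Δ * ((N / D - 10) ^ 2 + 10 * (N / D - 10) + 5) ^ 3 := by
  have hs : N / D - 10 = (N - 10 * D) / D := by field_simp
  have hc4 : c4 = D * ((N / D - 10) ^ 2 + 10 * (N / D - 10) + 5) := by
    have : c4 * D = D * ((N / D - 10) ^ 2 + 10 * (N / D - 10) + 5) * D := by
      rw [hI1]; field_simp; ring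
    exact mul_right_cancel₀ hD this
  have hΔ' : Δ = D ^ 3 * (N / D - 10) := by
    rw [hI2, hs]; field_simp
  constructor
  · intro h0
    apply hΔ
    rw [hΔ', h0, mul_zero]
  · rw [hc4] 
    conv_rhs => rw [hΔ']
    ring

/-- Rational version: the data `x1 + x2`, `x1 * x2` and the `b`-invariants are rational, the
`x`-coordinates themselves live in an extension field `K`. -/
theorem exists_s {K : Type*} [Field K] (f : ℚ →+* K) (b2 b4 b6 b8 σ1 σ2 : ℚ) (x1 x2 : K)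
    (hσ1 : f σ1 = x1 + x2) (hσ2 : f σ2 = x1 * x2)
    (hb8 : 4 * b8 = b2 * b6 - b4 ^ 2) (hne : x1 ≠ x2)
    (h1 : x1 ^ 4 - f b4 * x1 ^ 2 - 2 * f b6 * x1 - f b8
        = x2 * (4 * x1 ^ 3 + f b2 * x1 ^ 2 + 2 * f b4 * x1 + f b6))
    (h2 : x2 ^ 4 - f b4 * x2 ^ 2 - 2 * f b6 * x2 - f b8
        = x1 * (4 * x2 ^ 3 + f b2 * x2 ^ 2 + 2 * f b4 * x2 + f b6))
    (hΔ : -b2 ^ 2 * b8 - 8 * b4 ^ 3 - 27 * b6 ^ 2 + 9 * b2 * b4 * b6 ≠ 0) :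
    ∃ s : ℚ, s ≠ 0 ∧ (b2 ^ 2 - 24 * b4) ^ 3 * s
      = (-b2 ^ 2 * b8 - 8 * b4 ^ 3 - 27 * b6 ^ 2 + 9 * b2 * b4 * b6) * (s ^ 2 + 10 * s + 5) ^ 3 := by
  have : CharZero K := charZero_of_injective_ringHom f.injective
  have hfb8 : 4 * f b8 = f b2 * f b6 - f b4 ^ 2 := by
    have := congrArg f hb8
    simpa only [map_mul, map_sub, map_pow, map_ofNat] using this
  obtain ⟨k1, k2⟩ := key_identities (f b2) (f b4) (f b6) (f b8) x1 x2 hfb8 hne h1 h2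
  set D : ℚ := σ1 ^ 2 - 4 * σ2 with hDdef
  set N : ℚ := 3 * (σ1 + b2 / 6) ^ 2 - (b2 ^ 2 - 24 * b4) / 12 with hNdef
  have hfD : f D = (x1 - x2) ^ 2 := by
    rw [hDdef]
    simp only [map_sub, map_mul, map_pow, map_ofNat, hσ1, hσ2]
    ring
  have hfN : f N = 3 * (x1 + x2 + f b2 / 6) ^ 2 - (f b2 ^ 2 - 24 * f b4) / 12 := by
    rw [hNdef]
    simp only [map_sub, map_mul, map_pow, map_ofNat, map_add, map_div₀, hσ1]
  have hD : D ≠ 0 := by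
    intro h0
    have : (x1 - x2) ^ 2 = 0 := by rw [← hfD, h0, map_zero]
    exact hne (sub_eq_zero.mp (pow_eq_zero_iff (two_ne_zero)|>.mp this))
  have hI1 : (b2 ^ 2 - 24 * b4) * D = N ^ 2 - 10 * N * D + 5 * D ^ 2 := by
    apply f.injective
    simp only [map_sub, map_mul, map_pow, map_ofNat, map_add, hfD, hfN]
    exact k1
  have hI2 : (-b2 ^ 2 * b8 - 8 * b4 ^ 3 - 27 * b6 ^ 2 + 9 * b2 * b4 * b6)
      = D ^ 2 * (N - 10 * D) := by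
    apply f.injective
    simp only [map_sub, map_mul, map_pow, map_ofNat, map_add, map_neg, hfD, hfN]
    exact k2
  exact ⟨N / D - 10, param_of_identities _ _ D N hD hΔ hI1 hI2⟩


open WeierstrassCurve in
/-- Version for an integral Weierstrass curve: `x1`, `x2` are the `x`-coordinates (in an
extension `K` of `ℚ`) of `Q` and `2Q` for a point `Q` of order five generating a subgroup
whose symmetric functions `x1 + x2`, `x1 * x2` are rational. -/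
theorem exists_s_of_curve (W : WeierstrassCurve ℤ) (hΔ : W.Δ ≠ 0) {K : Type*} [Field K]
    [Algebra ℚ K] (x1 x2 : K) (σ1 σ2 : ℚ)
    (hσ1 : algebraMap ℚ K σ1 = x1 + x2) (hσ2 : algebraMap ℚ K σ2 = x1 * x2) (hne : x1 ≠ x2)
    (h1 : x1 ^ 4 - ((W.map (Int.castRingHom ℚ))⁄K).b₄ * x1 ^ 2
          - 2 * ((W.map (Int.castRingHom ℚ))⁄K).b₆ * x1 - ((W.map (Int.castRingHom ℚ))⁄K).b₈
        = x2 * (4 * x1 ^ 3 + ((W.map (Int.castRingHom ℚ))⁄K).b₂ * x1 ^ 2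
          + 2 * ((W.map (Int.castRingHom ℚ))⁄K).b₄ * x1 + ((W.map (Int.castRingHom ℚ))⁄K).b₆))
    (h2 : x2 ^ 4 - ((W.map (Int.castRingHom ℚ))⁄K).b₄ * x2 ^ 2
          - 2 * ((W.map (Int.castRingHom ℚ))⁄K).b₆ * x2 - ((W.map (Int.castRingHom ℚ))⁄K).b₈
        = x1 * (4 * x2 ^ 3 + ((W.map (Int.castRingHom ℚ))⁄K).b₂ * x2 ^ 2
          + 2 * ((W.map (Int.castRingHom ℚ))⁄K).b₄ * x2 + ((W.map (Int.castRingHom ℚ))⁄K).b₆)) :
    ∃ s : ℚ, s ≠ 0 ∧ (W.c₄ : ℚ) ^ 3 * s = (W.Δ : ℚ) * (s ^ 2 + 10 * s + 5) ^ 3 := by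
  set E : WeierstrassCurve ℚ := W.map (Int.castRingHom ℚ) with hE
  simp only [baseChange, map_b₂, map_b₄, map_b₆, map_b₈] at h1 h2
  have hΔE : E.Δ ≠ 0 := by
    rw [hE, map_Δ]
    simpa using hΔ
  have hΔE' : -E.b₂ ^ 2 * E.b₈ - 8 * E.b₄ ^ 3 - 27 * E.b₆ ^ 2 + 9 * E.b₂ * E.b₄ * E.b₆ ≠ 0 := by
    rw [← WeierstrassCurve.Δ]; exact hΔE
  obtain ⟨s, hs0, hs⟩ := exists_s (algebraMap ℚ K) E.b₂ E.b₄ E.b₆ E.b₈ σ1 σ2 x1 x2 hσ1 hσ2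
    E.b_relation hne h1 h2 hΔE'
  refine ⟨s, hs0, ?_⟩
  have hc4 : (W.c₄ : ℚ) = E.b₂ ^ 2 - 24 * E.b₄ := by
    rw [← WeierstrassCurve.c₄, hE, map_c₄]; simp
  have hD : (W.Δ : ℚ) = -E.b₂ ^ 2 * E.b₈ - 8 * E.b₄ ^ 3 - 27 * E.b₆ ^ 2 + 9 * E.b₂ * E.b₄ * E.b₆ := by
    rw [← WeierstrassCurve.Δ, hE, map_Δ]; simp
  rw [hc4, hD]
  exact hs

end Fermat.Agent.S51.FiveAlg
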