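import Fermat.Agent.S51.ThreeTorsion
import Fermat.Prelude.Def_FLTPrelim_ModularRep

set_option autoImplicit false

open WeierstrassCurve WeierstrassCurve.Affine WeierstrassCurve.Affine.Point Polynomial

namespace Fermat.Agent.S51.Three

local notation "Qbar" => AlgebraicClosure ℚ

theorem isGalois_Qbar_aux (inst : Algebra ℚ Qbar) : @IsGalois ℚ _ Qbar _ inst := by
  have h : inst = AlgebraicClosure.instAlgebra ℚ := Subsingleton.elim _ _
  subst h
  have h1 : @IsSepClosure ℚ _ Qbar _ (AlgebraicClosure.instAlgebra ℚ) :=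
    @IsSepClosure.of_isAlgClosure_of_perfectField ℚ _ Qbar _ (AlgebraicClosure.instAlgebra ℚ) _ _
  exact @IsSepClosure.isGalois ℚ _ Qbar _ (AlgebraicClosure.instAlgebra ℚ) h1

theorem isGalois_Qbar : IsGalois ℚ Qbar := isGalois_Qbar_aux _

theorem mem_range_of_fixed (x : Qbar) (h : ∀ σ : Qbar ≃ₐ[ℚ] Qbar, σ x = x) :
    x ∈ Set.range (algebraMap ℚ Qbar) :=
  haveI := isGalois_Qbar
  (InfiniteGalois.mem_range_algebraMap_iff_fixed x).mpr h

variable (E : Affine ℚ)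

/-- The frozen torsion module. -/
abbrev TT : Type := ↥(Submodule.torsionBy ℤ (E⁄Qbar).Point ((3 : ℕ) : ℤ))

lemma Delta_baseChange : (E⁄Qbar).Δ = algebraMap ℚ Qbar E.Δ :=
  WeierstrassCurve.map_Δ _ _

lemma Delta_baseChange_ne_zero (hΔ : E.Δ ≠ 0) : (E⁄Qbar).Δ ≠ 0 := by
  rw [Delta_baseChange]
  exact (map_ne_zero_iff _ (algebraMap ℚ Qbar).injective).mpr hΔ

lemma nontrivial_TT (hΔ : E.Δ ≠ 0) : Nontrivial (TT E) := by
  obtain ⟨P, hP, hP0⟩ := exists_ne_zero_mem_T3 (E⁄Qbar) (Delta_baseChange_ne_zero E hΔ)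
  exact ⟨⟨⟨P, hP⟩, 0, fun h => hP0 (congrArg Subtype.val h)⟩⟩

lemma finite_TT (hΔ : E.Δ ≠ 0) : Finite (TT E) :=
  finite_T3 (E⁄Qbar) (Delta_baseChange_ne_zero E hΔ)

lemma card_TT_le (hΔ : E.Δ ≠ 0) : Nat.card (TT E) ≤ 9 :=
  card_T3_le (E⁄Qbar) (Delta_baseChange_ne_zero E hΔ)

lemma card_line (hΔ : E.Δ ≠ 0) (N : Submodule (ZMod 3) (TT E)) (h0 : N ≠ ⊥) (h1 : N ≠ ⊤) :
    Nat.card N = 3 := by
  have := finite_TT E hΔ
  have : Fact (Nat.Prime 3) := ⟨Nat.prime_three⟩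
  have : Module.Finite (ZMod 3) (TT E) := Module.Finite.of_finite
  have hT := Module.natCard_eq_pow_finrank (K := ZMod 3) (V := TT E)
  have hN := Module.natCard_eq_pow_finrank (K := ZMod 3) (V := N)
  rw [Nat.card_zmod] at hT hN
  have hle := card_TT_le E hΔ
  have h2 : Module.finrank (ZMod 3) (TT E) ≤ 2 := by
    by_contra hcon
    have hcon' : 3 ≤ Module.finrank (ZMod 3) (TT E) := by omega
    have : 3 ^ 3 ≤ 3 ^ Module.finrank (ZMod 3) (TT E) := Nat.pow_le_pow_right (by norm_num) hcon'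
    omega
  have h3 : Module.finrank (ZMod 3) N < Module.finrank (ZMod 3) (TT E) := Submodule.finrank_lt h1
  have h4 : 1 ≤ Module.finrank (ZMod 3) N := Submodule.one_le_finrank_iff.mpr h0
  have h5 : Module.finrank (ZMod 3) N = 1 := by omega
  rw [hN, h5]; norm_num

/-- In the `3`-torsion, `P = -P` forces `P = 0`. -/
lemma eq_zero_of_eq_neg (P : TT E) (h : P = -P) : P = 0 := by
  have h2 : P + P = 0 := by
    nth_rewrite 1 [h]; exact neg_add_cancel P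
  have h3 : ((3 : ℕ) : ℤ) • P = 0 := Submodule.smul_torsionBy _ P
  have h3' : P + P + P = 0 := by
    have : ((3 : ℕ) : ℤ) • P = P + P + P := by
      rw [natCast_zsmul, succ_nsmul, succ_nsmul, one_nsmul]
    rw [← this]; exact h3
  rw [h2, zero_add] at h3'
  exact h3'

lemma line_eq (hΔ : E.Δ ≠ 0) (N : Submodule (ZMod 3) (TT E)) (h0 : N ≠ ⊥) (h1 : N ≠ ⊤)
    {P : TT E} (hP : P ∈ N) (hP0 : P ≠ 0) {Q : TT E} (hQ : Q ∈ N) :
    Q = 0 ∨ Q = P ∨ Q = -P := by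
  classical
  have hfin := finite_TT E hΔ
  have hcard := card_line E hΔ N h0 h1
  have hNfin : Finite N := inferInstance
  let _ : Fintype N := Fintype.ofFinite N
  let P' : N := ⟨P, hP⟩
  let S : Finset N := {0, P', -P'}
  have hP'0 : P' ≠ 0 := fun h => hP0 (congrArg Subtype.val h)
  have hnP'0 : -P' ≠ 0 := fun h => hP'0 (neg_eq_zero.mp h)
  have hPnP : P' ≠ -P' := by
    intro h
    apply hP0
    apply eq_zero_of_eq_neg E P
    exact congrArg Subtype.val h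
  have hS : S.card = 3 := by
    rw [Finset.card_insert_of_notMem, Finset.card_insert_of_notMem, Finset.card_singleton]
    · simp only [Finset.mem_singleton]; exact hPnP
    · simp only [Finset.mem_insert, Finset.mem_singleton, not_or]
      exact ⟨fun h => hP'0 h.symm, fun h => hnP'0 h.symm⟩
  have hSuniv : S = Finset.univ := by
    apply Finset.eq_univ_of_card
    have hc : Fintype.card N = 3 := by rw [← Nat.card_eq_fintype_card]; exact hcard
    rw [hS, hc]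
  have hQS : (⟨Q, hQ⟩ : N) ∈ S := by rw [hSuniv]; exact Finset.mem_univ _
  simp only [S, Finset.mem_insert, Finset.mem_singleton] at hQS
  rcases hQS with h | h | h
  · left; exact congrArg Subtype.val h
  · right; left; exact congrArg Subtype.val h
  · right; right; exact congrArg Subtype.val h


/-- The `x`-coordinate (junk value `0` at infinity). -/
noncomputable def xOf : (E⁄Qbar).Point → Qbar
  | .zero => 0
  | .some x _ _ => x

lemma xOf_neg (Q : (E⁄Qbar).Point) : xOf E (-Q) = xOf E Q := by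
  rcases Q with _ | ⟨x, y, h⟩
  · rfl
  · rfl

lemma xOf_smul (σ : Qbar ≃ₐ[ℚ] Qbar) (Q : (E⁄Qbar).Point) : xOf E (σ • Q) = σ (xOf E Q) := by
  rcases Q with _ | ⟨x, y, h⟩
  · show xOf E (Point.map σ.toAlgHom (0 : (E⁄Qbar).Point)) = σ 0
    rw [Point.map_zero, _root_.map_zero]; rfl
  · show xOf E (Point.map σ.toAlgHom (Point.some x y h)) = σ x
    rw [map_some]; rfl

lemma Psi3_baseChange_eval (x₀ : ℚ) :
    (E⁄Qbar).Ψ₃.eval (algebraMap ℚ Qbar x₀) = algebraMap ℚ Qbar (E.Ψ₃.eval x₀) := by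
  have : (E⁄Qbar).Ψ₃ = E.Ψ₃.map (algebraMap ℚ Qbar) := WeierstrassCurve.map_Ψ₃ _ _
  rw [this, eval_map_apply]


theorem exists_root_of_reducible (hΔ : E.Δ ≠ 0)
    (h : ¬ GaloisRepIsIrreducible (K := Qbar) ℚ E 3) : ∃ x₀ : ℚ, E.Ψ₃.eval x₀ = 0 := by
  unfold GaloisRepIsIrreducible at h
  have hnt := nontrivial_TT E hΔ
  have h' : ¬ ∀ N : Submodule (ZMod 3) (TT E), IsGaloisStable ℚ N → N = ⊥ ∨ N = ⊤ :=
    fun hall => h ⟨hnt, hall⟩
  obtain ⟨N, hN⟩ := not_forall.mp h'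
  obtain ⟨hst, hN2⟩ := Classical.not_imp.mp hN
  have h0 : N ≠ ⊥ := fun h0 => hN2 (Or.inl h0)
  have h1 : N ≠ ⊤ := fun h1 => hN2 (Or.inr h1)
  obtain ⟨P, hP, hP0⟩ := Submodule.exists_mem_ne_zero_of_ne_bot h0
  -- the x-coordinate is Galois-fixed
  have hfix : ∀ σ : Qbar ≃ₐ[ℚ] Qbar, σ (xOf E P.1) = xOf E P.1 := by
    intro σ
    have hσP : σ • P ∈ N := hst σ P hP
    have hσP0 : σ • P ≠ 0 := fun h => hP0 ((smul_eq_zero_iff_eq σ).mp h)
    have hval : (σ • P : TT E).1 = σ • P.1 := rfl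
    rw [← xOf_smul, ← hval]
    rcases line_eq E hΔ N h0 h1 hP hP0 hσP with h | h | h
    · exact absurd h hσP0
    · rw [h]
    · rw [h]; exact xOf_neg E P.1
  obtain ⟨x₀, hx₀⟩ := mem_range_of_fixed _ hfix
  refine ⟨x₀, ?_⟩
  have hP3 : (3 : ℤ) • P.1 = 0 := (mem_T3_iff _ _).mp P.2
  have hPne : P.1 ≠ 0 := fun h => hP0 (Subtype.ext h)
  rcases hPv : P.1 with _ | ⟨x, y, hxy⟩
  · exact absurd hPv hPne
  · rw [hPv] at hP3 hx₀
    have h3 := (three_zsmul_some_eq_zero_iff (E⁄Qbar) (Delta_baseChange_ne_zero E hΔ) hxy).mp hP3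
    have hx : algebraMap ℚ Qbar x₀ = x := hx₀
    rw [← hx, Psi3_baseChange_eval] at h3
    exact (map_eq_zero_iff _ (algebraMap ℚ Qbar).injective).mp h3


theorem exists_t_of_reducible_three (W : WeierstrassCurve ℤ) (hD : W.Δ ≠ 0)
    (h : ¬ W.ModRepIsIrreducible 3) :
    ∃ t : ℚ, t ≠ 0 ∧ (W.c₄ : ℚ) ^ 3 * t = (W.Δ : ℚ) * ((t + 27) * (t + 3) ^ 3) := by
  have hΔ : (W.map (Int.castRingHom ℚ)).Δ = (W.Δ : ℚ) := by
    rw [WeierstrassCurve.map_Δ]; rfl
  have hc₄ : (W.map (Int.castRingHom ℚ)).c₄ = (W.c₄ : ℚ) := by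
    rw [WeierstrassCurve.map_c₄]; rfl
  have hΔ0 : (W.map (Int.castRingHom ℚ)).Δ ≠ 0 := by
    rw [hΔ]; exact_mod_cast hD
  obtain ⟨x₀, hx₀⟩ := exists_root_of_reducible (W.map (Int.castRingHom ℚ)) hΔ0 h
  obtain ⟨t, ht0, ht⟩ := exists_t_of_root (W.map (Int.castRingHom ℚ)) hΔ0 hx₀
  refine ⟨t, ht0, ?_⟩
  rw [hΔ, hc₄] at ht
  rw [ht]; ring

end Fermat.Agent.S51.Three
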