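import Fermat.Agent.S51.Torsion
import Fermat.Agent.S51.FiveAlg
import Fermat.Agent.S51.Three
import Fermat.Prelude.Def_FLTPrelim_ModularRep
/-
S51 helper, mod-5 side: a reducible mod-5 representation gives a rational parameter `s`
with `c₄³ s = Δ (s² + 10 s + 5)³`.
-/
set_option autoImplicit false
set_option linter.unusedSectionVars false

open WeierstrassCurve WeierstrassCurve.Affine WeierstrassCurve.Affine.Point

namespace Fermat.Agent.S51.Five

local notation "Qbar" => AlgebraicClosure ℚ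

section General

variable {K : Type*} [Field K] [DecidableEq K] {E : WeierstrassCurve.Affine K}

/-- multiples of a point of order five, reduced mod 5 -/
lemma nsmul_mod_five {P : E.Point} (h5 : 5 • P = 0) (k : ℕ) : k • P = (k % 5) • P := by
  conv_lhs => rw [← Nat.mod_add_div k 5]
  rw [add_nsmul, mul_nsmul, h5, nsmul_zero, add_zero]

/-- The x-coordinates of `k • P`, `2 • k • P` for a point `P` of order five are `x(P), x(2P)`
up to order. -/
theorem xc_pair_cases {P : E.Point} (h5 : 5 • P = 0) (k : ℕ) (hk : k % 5 ≠ 0) :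
    (xc (k • P) = xc P ∧ xc (2 • k • P) = xc (2 • P)) ∨
      (xc (k • P) = xc (2 • P) ∧ xc (2 • k • P) = xc P) := by
  have h4 : 4 • P = -P := by
    have : 5 • P = 4 • P + P := by
      rw [show (5 : ℕ) = 4 + 1 from rfl, add_nsmul, one_nsmul]
    rw [this] at h5
    exact eq_neg_of_add_eq_zero_left h5
  have h3 : 3 • P = -(2 • P : E.Point) := by
    have : 5 • P = 3 • P + 2 • P := by
      rw [show (5 : ℕ) = 3 + 2 from rfl, add_nsmul]
    rw [this] at h5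
    exact eq_neg_of_add_eq_zero_left h5
  have hk1 : k • P = (k % 5) • P := nsmul_mod_five h5 k
  have hk2 : 2 • k • P = ((2 * (k % 5)) % 5) • P := by
    rw [← mul_nsmul', nsmul_mod_five h5 (2 * k)]
    congr 1
    omega
  rw [hk2, hk1]
  have hlt : k % 5 < 5 := Nat.mod_lt _ (by norm_num)
  generalize k % 5 = r at hk hlt
  clear hk1 hk2
  interval_cases r
  · exact absurd rfl hk
  · left
    exact ⟨by rw [one_nsmul], by norm_num⟩
  · right
    refine ⟨rfl, ?_⟩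
    norm_num
    rw [h4, xc_neg]
  · right
    refine ⟨by rw [h3, xc_neg], ?_⟩
    norm_num
  · left
    refine ⟨by rw [h4, xc_neg], ?_⟩
    norm_num
    rw [h3, xc_neg]

/-- The basic relations between `x(P)` and `x(2P)` for a point of order five. -/
theorem five_torsion_relations {P : E.Point} (hP : P ≠ 0) (h5 : 5 • P = 0) :
    xc P ≠ xc (2 • P) ∧
      dA E (xc P) = xc (2 • P) * dB E (xc P) ∧
      dA E (xc (2 • P)) = xc P * dB E (xc (2 • P)) := by
  have h4P : 4 • P = -P := by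
    have : 5 • P = 4 • P + P := by
      rw [show (5 : ℕ) = 4 + 1 from rfl, add_nsmul, one_nsmul]
    rw [this] at h5
    exact eq_neg_of_add_eq_zero_left h5
  have h22 : 2 • (2 • P) = 4 • P := by rw [← mul_nsmul]
  have hQ : 2 • P ≠ 0 := by
    intro h0
    have : 4 • P = 0 := by rw [← h22, h0, nsmul_zero]
    rw [this] at h4P
    exact hP (neg_eq_zero.mp h4P.symm)
  have h4ne : 2 • (2 • P) ≠ 0 := by
    rw [h22, h4P]; exact neg_ne_zero.mpr hP
  have hB : dB E (xc P) ≠ 0 := fun h => hQ ((two_nsmul_eq_zero_iff hP).mpr h)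
  have hB2 : dB E (xc (2 • P)) ≠ 0 := fun h => h4ne ((two_nsmul_eq_zero_iff hQ).mpr h)
  have e1 := xc_two_nsmul hP hB
  have e2 := xc_two_nsmul hQ hB2
  rw [h22, h4P, xc_neg] at e2
  refine ⟨?_, e1.symm, e2.symm⟩
  intro hx
  rcases eq_or_eq_neg_of_xc_eq hP hQ hx with h | h
  · -- `P = 2P`
    rw [two_nsmul] at h
    exact hP (by simpa using h)
  · -- `P = -2P`, so `3P = 0`, hence `P = 6P - 5P = 0`
    have h3 : 3 • P = 0 := by
      rw [show (3 : ℕ) = 2 + 1 from rfl, add_nsmul, one_nsmul]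
      nth_rewrite 2 [h]
      exact add_neg_cancel _
    have h6 : 6 • P = 0 := by
      rw [show (6 : ℕ) = 2 * 3 from rfl, mul_nsmul', h3, nsmul_zero]
    have : 6 • P = 5 • P + P := by
      rw [show (6 : ℕ) = 5 + 1 from rfl, add_nsmul, one_nsmul]
    rw [h6, h5, zero_add] at this
    exact hP this.symm

end General

variable (E : Affine ℚ)

/-- The frozen torsion module. -/
abbrev T5 : Type := ↥(Submodule.torsionBy ℤ (E⁄Qbar).Point ((5 : ℕ) : ℤ))

lemma xc_smul (σ : Qbar ≃ₐ[ℚ] Qbar) (Q : (E⁄Qbar).Point) : xc (σ • Q) = σ (xc Q) := by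
  rcases Q with _ | ⟨x, y, h⟩
  · show xc (Point.map σ.toAlgHom (0 : (E⁄Qbar).Point)) = σ 0
    rw [Point.map_zero, _root_.map_zero]; rfl
  · show xc (Point.map σ.toAlgHom (Point.some x y h)) = σ x
    rw [map_some]; rfl

lemma zmod_smul_val (c : ZMod 5) (P : T5 E) : ((c • P : T5 E) : (E⁄Qbar).Point) = c.val • P.1 := by
  have h1 : c • P = (c.val : ZMod 5) • P := by rw [ZMod.natCast_zmod_val]
  rw [h1, Nat.cast_smul_eq_nsmul]
  rfl

theorem exists_sums_of_reducible (hΔ : E.Δ ≠ 0)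
    (h : ¬ GaloisRepIsIrreducible (K := Qbar) ℚ E 5) :
    ∃ (x1 x2 : Qbar) (s1 s2 : ℚ), algebraMap ℚ Qbar s1 = x1 + x2 ∧ algebraMap ℚ Qbar s2 = x1 * x2 ∧
      x1 ≠ x2 ∧ dA (E⁄Qbar) x1 = x2 * dB (E⁄Qbar) x1 ∧ dA (E⁄Qbar) x2 = x1 * dB (E⁄Qbar) x2 := by
  unfold GaloisRepIsIrreducible at h
  have hΔ' : (E⁄Qbar).Δ ≠ 0 := Three.Delta_baseChange_ne_zero E hΔ
  have h2 : (2 : Qbar) ≠ 0 := two_ne_zero
  have h3 : (3 : Qbar) ≠ 0 := three_ne_zero
  have h5 : (5 : Qbar) ≠ 0 := by norm_num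
  have hnt : Nontrivial (T5 E) := nontrivial_torsion_five (W' := E) (K := Qbar) h2 h5 hΔ'
  have h' : ¬ ∀ N : Submodule (ZMod 5) (T5 E), IsGaloisStable ℚ N → N = ⊥ ∨ N = ⊤ :=
    fun hall => h ⟨hnt, hall⟩
  obtain ⟨N, hN⟩ := not_forall.mp h'
  obtain ⟨hst, hN2⟩ := Classical.not_imp.mp hN
  have h0 : N ≠ ⊥ := fun h0 => hN2 (Or.inl h0)
  have h1 : N ≠ ⊤ := fun h1 => hN2 (Or.inr h1)
  obtain ⟨P, hPN, hP0, hgen⟩ := exists_generator_five (W' := E) (K := Qbar) h2 h3 h5 N h0 h1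
  have hP0' : P.1 ≠ 0 := fun h => hP0 (Subtype.ext h)
  have h5P : 5 • P.1 = 0 := (mem_torsionBy_iff_nsmul 5 P.1).mp P.2
  obtain ⟨hne, hr1, hr2⟩ := five_torsion_relations hP0' h5P
  -- Galois permutes the two x-coordinates
  have hperm : ∀ σ : Qbar ≃ₐ[ℚ] Qbar,
      (σ (xc P.1) = xc P.1 ∧ σ (xc (2 • P.1)) = xc (2 • P.1)) ∨
        (σ (xc P.1) = xc (2 • P.1) ∧ σ (xc (2 • P.1)) = xc P.1) := by
    intro σ
    have hσP : σ • P ∈ N := hst σ P hPN
    have hσP0 : σ • P ≠ 0 := fun h => hP0 ((smul_eq_zero_iff_eq σ).mp h)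
    obtain ⟨c, hc⟩ := hgen _ hσP
    have hval : (σ • P : T5 E).1 = σ • P.1 := rfl
    have hc' : σ • P.1 = c.val • P.1 := by
      rw [← hval, hc, zmod_smul_val]
    have hcne : c.val % 5 ≠ 0 := by
      intro h0
      apply hσP0
      apply Subtype.ext
      rw [hval, hc', nsmul_mod_five h5P, h0, zero_nsmul]
      rfl
    have h2σ : 2 • (σ • P.1) = σ • (2 • P.1) := by
      rw [two_nsmul, two_nsmul, smul_add]
    have := xc_pair_cases h5P c.val hcne
    rw [← hc', h2σ, xc_smul, xc_smul] at this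
    exact this
  have hfix1 : ∀ σ : Qbar ≃ₐ[ℚ] Qbar, σ (xc P.1 + xc (2 • P.1)) = xc P.1 + xc (2 • P.1) := by
    intro σ
    rw [map_add]
    rcases hperm σ with ⟨ha, hb⟩ | ⟨ha, hb⟩
    · rw [ha, hb]
    · rw [ha, hb, add_comm]
  have hfix2 : ∀ σ : Qbar ≃ₐ[ℚ] Qbar, σ (xc P.1 * xc (2 • P.1)) = xc P.1 * xc (2 • P.1) := by
    intro σ
    rw [map_mul]
    rcases hperm σ with ⟨ha, hb⟩ | ⟨ha, hb⟩
    · rw [ha, hb]
    · rw [ha, hb, mul_comm]
  obtain ⟨s1, hs1⟩ := Three.mem_range_of_fixed _ hfix1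
  obtain ⟨s2, hs2⟩ := Three.mem_range_of_fixed _ hfix2
  exact ⟨xc P.1, xc (2 • P.1), s1, s2, hs1, hs2, hne, hr1, hr2⟩

theorem exists_s_of_reducible_five (W : WeierstrassCurve ℤ) (hD : W.Δ ≠ 0)
    (h : ¬ W.ModRepIsIrreducible 5) :
    ∃ s : ℚ, s ≠ 0 ∧ (W.c₄ : ℚ) ^ 3 * s = (W.Δ : ℚ) * (s ^ 2 + 10 * s + 5) ^ 3 := by
  have hΔ : (W.map (Int.castRingHom ℚ)).Δ = (W.Δ : ℚ) := by
    rw [WeierstrassCurve.map_Δ]; rfl
  have hΔ0 : (W.map (Int.castRingHom ℚ)).Δ ≠ 0 := by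
    rw [hΔ]; exact_mod_cast hD
  obtain ⟨x1, x2, s1, s2, hs1, hs2, hne, h1, h2⟩ :=
    exists_sums_of_reducible (W.map (Int.castRingHom ℚ)) hΔ0 h
  exact FiveAlg.exists_s_of_curve W hD x1 x2 s1 s2 hs1 hs2 hne h1 h2

end Fermat.Agent.S51.Five
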