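-- S51 helper: the elliptic curves 15a1, 15a2 have rank 0 over Q (full 2-descent and height descent).
import Mathlib

set_option autoImplicit false

namespace Fermat.Agent.S51.RankZero

/-- naive height of a rational number -/
def ht (x : ℚ) : ℕ := max x.num.natAbs x.den

theorem ht_div_le (p q : ℤ) (hq : q ≠ 0) : ht ((p : ℚ) / (q : ℚ)) ≤ max p.natAbs q.natAbs := by
  rw [← Rat.divInt_eq_div]
  unfold ht
  apply max_le_max
  · by_cases hp : p = 0
    · subst hp
      simp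
    · exact Int.natAbs_le_of_dvd_ne_zero (Rat.num_dvd p hq) hp
  · have h := Rat.den_dvd p q
    have := Int.natAbs_le_of_dvd_ne_zero h hq
    simpa using this

theorem halving (p1 p2 p3 q : ℤ) (hq : q ≠ 0) (h12 : p1^2 - p2^2 = q^2)
    (h13 : p1^2 - p3^2 = 81*q^2) :
    ∃ x y : ℚ, y ≠ 0 ∧ y^2 = x*(x-1)*(x-81) ∧
      ht x ≤ max (p1+p3).natAbs (p1-p2).natAbs := by
  have hq' : (q : ℚ) ≠ 0 := by exact_mod_cast hq
  have h12' : ((p1:ℚ) - p2) * (p1 + p2) = q^2 := by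
    have := congrArg (fun z : ℤ => (z : ℚ)) h12
    push_cast at this
    linear_combination this
  have h13' : ((p1:ℚ) - p3) * (p1 + p3) = 81*q^2 := by
    have := congrArg (fun z : ℤ => (z : ℚ)) h13
    push_cast at this
    linear_combination this
  have h23' : ((p2:ℚ) - p3) * (p2 + p3) = 80*q^2 := by
    linear_combination h13' - h12'
  have hq2 : (q:ℚ)^2 ≠ 0 := pow_ne_zero 2 hq'
  have hd : ((p1:ℚ) - p2) ≠ 0 := by
    intro h; rw [h, zero_mul] at h12'; exact hq2 h12'.symm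
  have hs12 : ((p1:ℚ) + p2) ≠ 0 := by
    intro h; rw [h, mul_zero] at h12'; exact hq2 h12'.symm
  have hs13 : ((p1:ℚ) + p3) ≠ 0 := by
    intro h; rw [h, mul_zero] at h13'
    have : (81:ℚ) * q^2 ≠ 0 := mul_ne_zero (by norm_num) hq2
    exact this h13'.symm
  have hs23 : ((p2:ℚ) + p3) ≠ 0 := by
    intro h; rw [h, mul_zero] at h23'
    have : (80:ℚ) * q^2 ≠ 0 := mul_ne_zero (by norm_num) hq2
    exact this h23'.symm
  have hdZ : p1 - p2 ≠ 0 := by
    intro h; apply hd; have := congrArg (fun z : ℤ => (z : ℚ)) h; push_cast at this; exact this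
  refine ⟨((p1 + p3 : ℤ) : ℚ) / ((p1 - p2 : ℤ) : ℚ),
    ((p1:ℚ) + p2) * (p1 + p3) * (p2 + p3) / q^3, ?_, ?_, ht_div_le _ _ hdZ⟩
  · exact div_ne_zero (mul_ne_zero (mul_ne_zero hs12 hs13) hs23) (pow_ne_zero 3 hq')
  · push_cast
    have hx : ((p1:ℚ) + p3) / (p1 - p2) = (p1 + p2) * (p1 + p3) / q^2 := by
      rw [div_eq_div_iff hd hq2]
      linear_combination (-(p1:ℚ) - p3) * h12'
    rw [hx]
    have e1 : ((p1:ℚ) + p2) * (p1 + p3) / q^2 - 1 = (p2 + p1) * (p2 + p3) / q^2 := by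
      field_simp
      linear_combination h12'
    have e2 : ((p1:ℚ) + p2) * (p1 + p3) / q^2 - 81 = (p3 + p1) * (p3 + p2) / q^2 := by
      field_simp
      linear_combination h13'
    rw [e1, e2]
    field_simp
    ring

theorem step1 (a b : ℤ) (y : ℚ) (hb : 0 < b) (hy : y ≠ 0)
    (h : y^2 = ((a:ℚ)/b) * ((a:ℚ)/b - 1) * ((a:ℚ)/b - 81)) :
    ∃ c : ℤ, c ≠ 0 ∧ b * (a*(a-b)*(a-81*b)) = c^2 := by
  have hb' : (b:ℚ) ≠ 0 := by exact_mod_cast hb.ne'
  have key : ((b * (a*(a-b)*(a-81*b)) : ℤ) : ℚ) = (y * b^2) * (y * b^2) := by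
    push_cast
    have : (y * b^2) * (y * b^2) = y^2 * b^4 := by ring
    rw [this, h]
    field_simp
  have hsq : IsSquare ((b * (a*(a-b)*(a-81*b)) : ℤ) : ℚ) := ⟨_, key⟩
  rw [Rat.isSquare_intCast_iff] at hsq
  obtain ⟨c, hc⟩ := hsq
  refine ⟨c, ?_, by rw [hc]; ring⟩
  rintro rfl
  have : (y * b^2) * (y * b^2) = 0 := by
    rw [← key, hc]; simp
  have h2 : y * b^2 = 0 := by simpa using this
  rcases mul_eq_zero.mp h2 with h3 | h3
  · exact hy h3
  · exact hb' (pow_eq_zero_iff (two_ne_zero) |>.mp h3)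

theorem step2 (a b c : ℤ) (hb : 0 < b) (hcop : IsCoprime a b) (hc : c ≠ 0)
    (h : b * (a*(a-b)*(a-81*b)) = c^2) :
    ∃ e m : ℤ, 0 < e ∧ b = e^2 ∧ m ≠ 0 ∧ a*(a-b)*(a-81*b) = m^2 := by
  have h1 : IsCoprime b a := hcop.symm
  have h2 : IsCoprime b (a - b) := by
    have := h1.add_mul_left_right (-1)
    simpa [sub_eq_add_neg] using this
  have h3 : IsCoprime b (a - 81*b) := by
    have := h1.add_mul_left_right (-81)
    have e : a - 81*b = a + b * (-81) := by ring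
    rw [e]; exact this
  have h4 : IsCoprime b (a*(a-b)*(a-81*b)) := (h1.mul_right h2).mul_right h3
  obtain ⟨e0, he0⟩ := Int.sq_of_isCoprime h4 h
  have hbe : b = e0^2 := by
    rcases he0 with h5 | h5
    · exact h5
    · exfalso; have := sq_nonneg e0; omega
  have he0ne : e0 ≠ 0 := by
    rintro rfl; simp at hbe; omega
  refine ⟨|e0|, c / |e0|, abs_pos.mpr he0ne, by rw [sq_abs]; exact hbe, ?_, ?_⟩
  · have hdvd : |e0| ∣ c := by
      rw [← Int.pow_dvd_pow_iff (two_ne_zero), sq_abs, ← hbe, ← h]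
      exact Dvd.intro _ rfl
    intro h0
    have := Int.ediv_mul_cancel hdvd
    rw [h0, zero_mul] at this
    exact hc this.symm
  · have hdvd : |e0| ∣ c := by
      rw [← Int.pow_dvd_pow_iff (two_ne_zero), sq_abs, ← hbe, ← h]
      exact Dvd.intro _ rfl
    obtain ⟨k, hk⟩ := hdvd
    have hane : |e0| ≠ 0 := abs_ne_zero.mpr he0ne
    rw [hk, Int.mul_ediv_cancel_left _ hane]
    have h6 : b * (a*(a-b)*(a-81*b)) = b * k^2 := by
      rw [h, hk, mul_pow, sq_abs, ← hbe]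
    exact mul_left_cancel₀ hb.ne' h6

theorem step3_cop (a b m : ℤ) (hcop : IsCoprime a b) (h81 : IsCoprime a 81)
    (h : a*((a-b)*(a-81*b)) = m^2) : ∃ u : ℤ, a = u^2 ∨ a = -u^2 := by
  have h1 : IsCoprime a (a - b) := by
    have := (hcop.neg_right).add_mul_left_right 1
    have e : a - b = -b + a * 1 := by ring
    rw [e]; exact this
  have h2 : IsCoprime a (a - 81*b) := by
    have := ((h81.mul_right hcop).neg_right).add_mul_left_right 1
    have e : a - 81*b = -(81*b) + a * 1 := by ring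
    rw [e]; exact this
  exact Int.sq_of_isCoprime (h1.mul_right h2) h

theorem zmod3_aux : ∀ m e a : ZMod 3, e ≠ 0 → a ≠ 0 → m^2 ≠ -(e^2 * a^2) := by decide

theorem step3_mid (a' b m K t : ℤ) (hKt : K * t = 81) (hK3 : (3:ℤ) ∣ K) (ht3 : (3:ℤ) ∣ t)
    (hK0 : K ≠ 0) (e : ℤ) (hb : b = e^2) (he : ¬ (3:ℤ) ∣ e) (ha' : ¬ (3:ℤ) ∣ a')
    (h : (K*a')*((K*a'-b)*(K*a'-81*b)) = m^2) : False := by
  have e1 : K*a' - 81*b = K * (a' - t*b) := by rw [← hKt]; ring
  rw [e1] at h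
  have h2 : K^2 * (a' * ((K*a'-b)*(a' - t*b))) = m^2 := by rw [← h]; ring
  have hKm : K ∣ m := by
    rw [← Int.pow_dvd_pow_iff (two_ne_zero), ← h2]; exact Dvd.intro _ rfl
  obtain ⟨m', rfl⟩ := hKm
  have h3 : a' * ((K*a'-b)*(a' - t*b)) = m'^2 := by
    have : K^2 * (a' * ((K*a'-b)*(a' - t*b))) = K^2 * m'^2 := by rw [h2]; ring
    exact mul_left_cancel₀ (pow_ne_zero 2 hK0) this
  have h4 := congrArg (fun z : ℤ => (z : ZMod 3)) h3
  simp only [Int.cast_mul, Int.cast_sub, Int.cast_pow] at h4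
  have hK : (K : ZMod 3) = 0 := (ZMod.intCast_zmod_eq_zero_iff_dvd K 3).mpr hK3
  have ht : (t : ZMod 3) = 0 := (ZMod.intCast_zmod_eq_zero_iff_dvd t 3).mpr ht3
  have hez : (e : ZMod 3) ≠ 0 := fun h0 => he ((ZMod.intCast_zmod_eq_zero_iff_dvd e 3).mp h0)
  have haz : (a' : ZMod 3) ≠ 0 := fun h0 => ha' ((ZMod.intCast_zmod_eq_zero_iff_dvd a' 3).mp h0)
  rw [hK, ht, hb] at h4
  simp only [Int.cast_pow, zero_mul, zero_sub, sub_zero] at h4
  apply zmod3_aux (m' : ZMod 3) (e : ZMod 3) (a' : ZMod 3) hez haz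
  rw [← h4]; ring

theorem step3_top (a4 b m : ℤ) (hcop : IsCoprime (81*a4) b)
    (h : (81*a4)*((81*a4-b)*(81*a4-81*b)) = m^2) : ∃ u : ℤ, 81*a4 = u^2 ∨ 81*a4 = -u^2 := by
  have h2 : (81:ℤ)^2 * (a4 * ((81*a4-b)*(a4 - b))) = m^2 := by rw [← h]; ring
  have hKm : (81:ℤ) ∣ m := by
    rw [← Int.pow_dvd_pow_iff (two_ne_zero), ← h2]; exact Dvd.intro _ rfl
  obtain ⟨m', rfl⟩ := hKm
  have h3 : a4 * ((81*a4-b)*(a4 - b)) = m'^2 := by
    have : (81:ℤ)^2 * (a4 * ((81*a4-b)*(a4 - b))) = 81^2 * m'^2 := by rw [h2]; ring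
    exact mul_left_cancel₀ (by norm_num) this
  have hc : IsCoprime a4 b := hcop.of_mul_left_right
  have h1 : IsCoprime a4 (81*a4 - b) := by
    have := (hc.neg_right).add_mul_left_right 81
    have e : 81*a4 - b = -b + a4 * 81 := by ring
    rw [e]; exact this
  have h4 : IsCoprime a4 (a4 - b) := by
    have := (hc.neg_right).add_mul_left_right 1
    have e : a4 - b = -b + a4 * 1 := by ring
    rw [e]; exact this
  obtain ⟨u, hu⟩ := Int.sq_of_isCoprime (h1.mul_right h4) h3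
  refine ⟨9*u, ?_⟩
  rcases hu with hu | hu
  · left; rw [hu]; ring
  · right; rw [hu]; ring

theorem step3 (a e m : ℤ) (he : 0 < e) (hcop : IsCoprime a (e^2)) (hm : m ≠ 0)
    (h : a*(a-e^2)*(a-81*e^2) = m^2) : ∃ u : ℤ, 0 < u ∧ a = u^2 := by
  have h' : a*((a-e^2)*(a-81*e^2)) = m^2 := by rw [← h]; ring
  have key : ∃ u : ℤ, a = u^2 ∨ a = -u^2 := by
    by_cases h3 : (3:ℤ) ∣ a
    · have he3 : ¬ (3:ℤ) ∣ e := by
        intro h3e
        have : (3:ℤ) ∣ e^2 := Dvd.dvd.pow h3e two_ne_zero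
        have h1 := hcop.isUnit_of_dvd' h3 this
        rw [Int.isUnit_iff] at h1; omega
      obtain ⟨a1, rfl⟩ := h3
      by_cases h31 : (3:ℤ) ∣ a1
      · obtain ⟨a2, rfl⟩ := h31
        by_cases h32 : (3:ℤ) ∣ a2
        · obtain ⟨a3, rfl⟩ := h32
          by_cases h33 : (3:ℤ) ∣ a3
          · obtain ⟨a4, rfl⟩ := h33
            have e1 : 3 * (3 * (3 * (3 * a4))) = 81 * a4 := by ring
            rw [e1] at h' hcop ⊢
            exact step3_top a4 (e^2) m hcop h'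
          · exfalso
            have e1 : 3 * (3 * (3 * a3)) = 27 * a3 := by ring
            rw [e1] at h'
            exact step3_mid a3 (e^2) m 27 3 (by norm_num) (by norm_num) (by norm_num) (by norm_num)
              e rfl he3 h33 h'
        · exfalso
          have e1 : 3 * (3 * a2) = 9 * a2 := by ring
          rw [e1] at h'
          exact step3_mid a2 (e^2) m 9 9 (by norm_num) (by norm_num) (by norm_num) (by norm_num)
            e rfl he3 h32 h'
      · exfalso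
        exact step3_mid a1 (e^2) m 3 27 (by norm_num) (by norm_num) (by norm_num) (by norm_num)
          e rfl he3 h31 h'
    · have h81 : IsCoprime a 81 := by
        have h3p : Prime (3:ℤ) := Int.prime_three
        have : IsCoprime a 3 := (h3p.coprime_iff_not_dvd.mpr h3).symm
        have := this.pow_right (n := 4)
        norm_num at this
        exact this
      exact step3_cop a (e^2) m hcop h81 h'
  obtain ⟨u, hu⟩ := key
  have hepos : 0 < e^2 := by positivity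
  have ha0 : a ≠ 0 := by
    rintro rfl
    simp at h
    exact hm (by simpa using h.symm)
  have hpos : a = u^2 := by
    rcases hu with hu | hu
    · exact hu
    · exfalso
      have hu2 : 0 ≤ u^2 := sq_nonneg u
      have ha : a < 0 := by omega
      have h1 : a - e^2 < 0 := by omega
      have h2 : a - 81*e^2 < 0 := by omega
      have h3 : 0 < a * (a - e^2) := mul_pos_of_neg_of_neg ha h1
      have h4 : a * (a - e^2) * (a - 81*e^2) < 0 := mul_neg_of_pos_of_neg h3 h2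
      have := sq_nonneg m
      omega
  have hu0 : u ≠ 0 := by
    rintro rfl; simp at hpos; exact ha0 hpos
  exact ⟨|u|, abs_pos.mpr hu0, by rw [sq_abs]; exact hpos⟩

theorem sq_mod8_of_odd (z : ℤ) (hz : z % 2 = 1) : z^2 % 8 = 1 := by
  have : z % 8 = 1 ∨ z % 8 = 3 ∨ z % 8 = 5 ∨ z % 8 = 7 := by omega
  rcases this with h | h | h | h <;> simp [pow_two, Int.mul_emod, h]

theorem sq_mod4_of_even (z : ℤ) (hz : z % 2 = 0) : z^2 % 4 = 0 := by
  have : z % 4 = 0 ∨ z % 4 = 2 := by omega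
  rcases this with h | h <;> simp [pow_two, Int.mul_emod, h]

theorem sq_mod4 (z : ℤ) : z^2 % 4 = 0 ∨ z^2 % 4 = 1 := by
  have : z % 4 = 0 ∨ z % 4 = 1 ∨ z % 4 = 2 ∨ z % 4 = 3 := by omega
  rcases this with h | h | h | h <;> simp [pow_two, Int.mul_emod, h]

theorem even_of_sq_mod4 (z : ℤ) (hz : z^2 % 4 = 0) : z % 2 = 0 := by
  by_contra hne
  have h1 : z % 2 = 1 := by omega
  have := sq_mod8_of_odd z h1
  omega

theorem dvd80 (g : ℕ) (hg : g ∣ 80) :
    ∃ k δ₀ : ℕ, g = k^2 * δ₀ ∧ (δ₀ = 1 ∨ δ₀ = 2 ∨ δ₀ = 5 ∨ δ₀ = 10) := by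
  have hmem : g ∈ Nat.divisors 80 := by simp [hg]
  have hd : Nat.divisors 80 = {1,2,4,5,8,10,16,20,40,80} := by decide
  rw [hd] at hmem
  simp only [Finset.mem_insert, Finset.mem_singleton] at hmem
  rcases hmem with rfl | rfl | rfl | rfl | rfl | rfl | rfl | rfl | rfl | rfl
  · exact ⟨1, 1, by norm_num, by simp⟩
  · exact ⟨1, 2, by norm_num, by simp⟩
  · exact ⟨2, 1, by norm_num, by simp⟩
  · exact ⟨1, 5, by norm_num, by simp⟩
  · exact ⟨2, 2, by norm_num, by simp⟩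
  · exact ⟨1, 10, by norm_num, by simp⟩
  · exact ⟨4, 1, by norm_num, by simp⟩
  · exact ⟨2, 5, by norm_num, by simp⟩
  · exact ⟨2, 10, by norm_num, by simp⟩
  · exact ⟨4, 5, by norm_num, by simp⟩

theorem step4 (u e n : ℤ) (hcop : IsCoprime u e) (hn : n ≠ 0)
    (h : (u^2 - e^2)*(u^2 - 81*e^2) = n^2) :
    ∃ δ v w : ℤ, (δ = 1 ∨ δ = -1 ∨ δ = 2 ∨ δ = -2 ∨ δ = 5 ∨ δ = -5 ∨ δ = 10 ∨ δ = -10) ∧
      u^2 - e^2 = δ*v^2 ∧ u^2 - 81*e^2 = δ*w^2 := by
  set A := u^2 - e^2 with hA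
  set B := u^2 - 81*e^2 with hB
  have hA0 : A ≠ 0 := by
    rintro h0; rw [h0, zero_mul] at h; exact hn (pow_eq_zero_iff two_ne_zero |>.mp h.symm)
  have hgpos : 0 < Int.gcd A B := Int.gcd_pos_of_ne_zero_left _ hA0
  obtain ⟨A1, B1, hg1, hA1, hB1⟩ := Int.exists_gcd_one hgpos
  set g : ℕ := Int.gcd A B with hg
  have hgA : (g:ℤ) ∣ A := Int.gcd_dvd_left _ _
  have hgB : (g:ℤ) ∣ B := Int.gcd_dvd_right _ _
  have hcopA : IsCoprime A (e^2) := by
    have h1 : IsCoprime (u^2) (e^2) := hcop.pow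
    have := h1.add_mul_right_left (-1)
    have e1 : A = u^2 + -1 * e^2 := by rw [hA]; ring
    rw [e1]; exact this
  have hcopg : IsCoprime (g:ℤ) (e^2) := IsCoprime.of_isCoprime_of_dvd_left hcopA hgA
  have hg80 : (g:ℤ) ∣ 80 := by
    have h1 : (g:ℤ) ∣ A - B := dvd_sub hgA hgB
    have e1 : A - B = 80 * e^2 := by rw [hA, hB]; ring
    rw [e1] at h1
    exact hcopg.dvd_of_dvd_mul_right h1
  have hg80' : g ∣ 80 := by exact_mod_cast hg80
  obtain ⟨k, δ₀, hgk, hδ₀⟩ := dvd80 g hg80'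
  have hg0 : (g:ℤ) ≠ 0 := by exact_mod_cast hgpos.ne'
  -- A1 * B1 is a square
  have h2 : (g:ℤ)^2 * (A1 * B1) = n^2 := by
    rw [← h]
    calc (g:ℤ)^2 * (A1 * B1) = (A1 * g) * (B1 * g) := by ring
      _ = A * B := by rw [← hA1, ← hB1]
  have hgn : (g:ℤ) ∣ n := by
    rw [← Int.pow_dvd_pow_iff (two_ne_zero), ← h2]; exact Dvd.intro _ rfl
  obtain ⟨n1, rfl⟩ := hgn
  have h3 : A1 * B1 = n1^2 := by
    have : (g:ℤ)^2 * (A1 * B1) = (g:ℤ)^2 * n1^2 := by rw [h2]; ring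
    exact mul_left_cancel₀ (pow_ne_zero 2 hg0) this
  have hn1 : n1 ≠ 0 := by
    rintro rfl; simp at hn
  obtain ⟨v1, hv1⟩ := Int.sq_of_gcd_eq_one hg1 h3
  have hg1' : Int.gcd B1 A1 = 1 := by rw [Int.gcd_comm]; exact hg1
  obtain ⟨w1, hw1⟩ := Int.sq_of_gcd_eq_one hg1' (by rw [mul_comm]; exact h3)
  have hn1sq : 0 < n1^2 := by positivity
  have hkδ : (g:ℤ) = (k:ℤ)^2 * (δ₀:ℤ) := by exact_mod_cast hgk
  have hδ₀' : (δ₀:ℤ) = 1 ∨ (δ₀:ℤ) = 2 ∨ (δ₀:ℤ) = 5 ∨ (δ₀:ℤ) = 10 := by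
    rcases hδ₀ with h | h | h | h <;> simp [h]
  rcases hv1 with hv1 | hv1 <;> rcases hw1 with hw1 | hw1
  · refine ⟨δ₀, k * v1, k * w1, ?_, ?_, ?_⟩
    · rcases hδ₀' with h | h | h | h <;> simp [h]
    · rw [hA1, hv1, hkδ]; ring
    · rw [hB1, hw1, hkδ]; ring
  · exfalso
    rw [hv1, hw1] at h3
    have : 0 ≤ v1^2 * w1^2 := by positivity
    nlinarith
  · exfalso
    rw [hv1, hw1] at h3
    have : 0 ≤ v1^2 * w1^2 := by positivity
    nlinarith
  · refine ⟨-δ₀, k * v1, k * w1, ?_, ?_, ?_⟩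
    · rcases hδ₀' with h | h | h | h <;> simp [h]
    · rw [hA1, hv1, hkδ]; ring
    · rw [hB1, hw1, hkδ]; ring

theorem step5 (u e v w δ' : ℤ) (hcop : IsCoprime u e)
    (hδ' : δ' = 1 ∨ δ' = -1 ∨ δ' = 5 ∨ δ' = -5)
    (h1 : u^2 - e^2 = 2*δ'*v^2) (h2 : u^2 - 81*e^2 = 2*δ'*w^2) : False := by
  have hu2 := Int.emod_two_eq_zero_or_one u
  have he2 := Int.emod_two_eq_zero_or_one e
  have hodd : u % 2 = 1 ∧ e % 2 = 1 := by
    rcases hu2 with hu | hu <;> rcases he2 with he | he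
    · exfalso
      have hu' : (2:ℤ) ∣ u := Int.dvd_of_emod_eq_zero hu
      have he' : (2:ℤ) ∣ e := Int.dvd_of_emod_eq_zero he
      have := hcop.isUnit_of_dvd' hu' he'
      rw [Int.isUnit_iff] at this; omega
    · exfalso
      have a1 := sq_mod4_of_even u hu
      have a2 := sq_mod8_of_odd e he
      rcases hδ' with rfl | rfl | rfl | rfl <;> omega
    · exfalso
      have a1 := sq_mod8_of_odd u hu
      have a2 := sq_mod4_of_even e he
      rcases hδ' with rfl | rfl | rfl | rfl <;> omega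
    · exact ⟨hu, he⟩
  obtain ⟨hu, he⟩ := hodd
  have a1 := sq_mod8_of_odd u hu
  have a2 := sq_mod8_of_odd e he
  have hv4 : v^2 % 4 = 0 := by
    rcases sq_mod4 v with h | h
    · exact h
    · exfalso; rcases hδ' with rfl | rfl | rfl | rfl <;> omega
  have hw4 : w^2 % 4 = 0 := by
    rcases sq_mod4 w with h | h
    · exact h
    · exfalso; rcases hδ' with rfl | rfl | rfl | rfl <;> omega
  have hv := even_of_sq_mod4 v hv4
  have hw := even_of_sq_mod4 w hw4
  obtain ⟨v', rfl⟩ : (2:ℤ) ∣ v := Int.dvd_of_emod_eq_zero hv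
  obtain ⟨w', rfl⟩ : (2:ℤ) ∣ w := Int.dvd_of_emod_eq_zero hw
  have h3 : 10 * e^2 = δ' * (v'^2 - w'^2) := by nlinarith
  have b1 := sq_mod4 v'
  have b2 := sq_mod4 w'
  rcases hδ' with rfl | rfl | rfl | rfl <;> omega

theorem class_analysis (x y : ℚ) (hy : y ≠ 0) (h : y^2 = x*(x-1)*(x-81)) :
    ∃ (u e v w δ : ℤ), 0 < u ∧ 0 < e ∧ x.num = u^2 ∧ (x.den : ℤ) = e^2 ∧
      (δ = 1 ∨ δ = -1 ∨ δ = 5 ∨ δ = -5) ∧ u^2 - e^2 = δ * v^2 ∧ u^2 - 81*e^2 = δ * w^2 ∧
      0 < v ∧ 0 < w := by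
  have hb : (0:ℤ) < (x.den : ℤ) := by exact_mod_cast x.den_pos
  have hcop : IsCoprime x.num (x.den : ℤ) := Rat.isCoprime_num_den x
  have hx : x = (x.num : ℚ) / ((x.den : ℤ) : ℚ) := by
    rw [Int.cast_natCast]; exact (Rat.num_div_den x).symm
  rw [hx] at h
  generalize x.num = a at *
  generalize (x.den : ℤ) = b at *
  obtain ⟨c, hc0, hc⟩ := step1 a b y hb hy h
  obtain ⟨e, m, he, rfl, hm0, hm⟩ := step2 a b c hb hcop hc0 hc
  obtain ⟨u, hu, rfl⟩ := step3 a e m he hcop hm0 hm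
  have hcop' : IsCoprime u e := (IsCoprime.pow_iff (by norm_num) (by norm_num)).mp hcop
  have hum : u ∣ m := by
    rw [← Int.pow_dvd_pow_iff (two_ne_zero), ← hm]
    exact ⟨(u^2 - e^2) * (u^2 - 81*e^2), by ring⟩
  obtain ⟨n, rfl⟩ := hum
  have hn0 : n ≠ 0 := by
    rintro rfl; simp at hm0
  have hn : (u^2 - e^2)*(u^2 - 81*e^2) = n^2 := by
    have : u^2 * ((u^2 - e^2)*(u^2 - 81*e^2)) = u^2 * n^2 := by rw [← mul_pow, ← hm]; ring
    exact mul_left_cancel₀ (pow_ne_zero 2 hu.ne') this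
  have hA0 : u^2 - e^2 ≠ 0 := by
    intro h0; rw [h0, zero_mul] at hn; exact hn0 (pow_eq_zero_iff two_ne_zero |>.mp hn.symm)
  have hB0 : u^2 - 81*e^2 ≠ 0 := by
    intro h0; rw [h0, mul_zero] at hn; exact hn0 (pow_eq_zero_iff two_ne_zero |>.mp hn.symm)
  obtain ⟨δ, v, w, hδ, hv, hw⟩ := step4 u e n hcop' hn0 hn
  have hv0 : v ≠ 0 := by
    rintro rfl; apply hA0; rw [hv]; ring
  have hw0 : w ≠ 0 := by
    rintro rfl; apply hB0; rw [hw]; ring
  have fin : ∀ δ : ℤ, (δ = 1 ∨ δ = -1 ∨ δ = 5 ∨ δ = -5) → u^2 - e^2 = δ * v^2 →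
      u^2 - 81*e^2 = δ * w^2 → ∃ (u' e' v' w' δ' : ℤ), 0 < u' ∧ 0 < e' ∧ u^2 = u'^2 ∧ e^2 = e'^2 ∧
      (δ' = 1 ∨ δ' = -1 ∨ δ' = 5 ∨ δ' = -5) ∧ u'^2 - e'^2 = δ' * v'^2 ∧
      u'^2 - 81*e'^2 = δ' * w'^2 ∧ 0 < v' ∧ 0 < w' := by
    intro δ hδ hv hw
    exact ⟨u, e, |v|, |w|, δ, hu, he, rfl, rfl, hδ, by rw [sq_abs]; exact hv,
      by rw [sq_abs]; exact hw, abs_pos.mpr hv0, abs_pos.mpr hw0⟩
  rcases hδ with rfl | rfl | rfl | rfl | rfl | rfl | rfl | rfl
  · exact fin 1 (by simp) hv hw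
  · exact fin (-1) (by simp) hv hw
  · exfalso; exact step5 u e v w 1 hcop' (by simp) (by rw [hv]; ring) (by rw [hw]; ring)
  · exfalso; exact step5 u e v w (-1) hcop' (by simp) (by rw [hv]; ring) (by rw [hw]; ring)
  · exact fin 5 (by simp) hv hw
  · exact fin (-5) (by simp) hv hw
  · exfalso; exact step5 u e v w 5 hcop' (by simp) (by rw [hv]; ring) (by rw [hw]; ring)
  · exfalso; exact step5 u e v w (-5) hcop' (by simp) (by rw [hv]; ring) (by rw [hw]; ring)

theorem natAbs_lt_of (z : ℤ) (n : ℕ) (B : ℤ) (hB : (n:ℤ) = B) (h1 : -B < z) (h2 : z < B) :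
    z.natAbs < n := by omega

theorem ht_eq (x : ℚ) (u e : ℤ) (hnum : x.num = u^2) (hden : (x.den : ℤ) = e^2) :
    (ht x : ℤ) = max (u^2) (e^2) := by
  have h1 : (x.num.natAbs : ℤ) = u^2 := by
    rw [hnum, Int.natCast_natAbs, abs_pow, sq_abs]
  unfold ht
  rw [Nat.cast_max, h1, hden]

/-- descent step: from a rational point with `y ≠ 0` produce one of smaller height. -/
theorem descent_step (x y : ℚ) (hy : y ≠ 0) (h : y^2 = x*(x-1)*(x-81)) :
    ∃ x' y' : ℚ, y' ≠ 0 ∧ y'^2 = x'*(x'-1)*(x'-81) ∧ ht x' < ht x := by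
  obtain ⟨u, e, v, w, δ, hu, he, hnum, hden, hδ, hv, hw, hv0, hw0⟩ := class_analysis x y hy h
  have hht := ht_eq x u e hnum hden
  rcases hδ with rfl | rfl | rfl | rfl
  · -- δ = 1
    have h12 : u^2 - v^2 = e^2 := by linarith
    have h13 : u^2 - (-w)^2 = 81*e^2 := by rw [neg_sq]; linarith
    obtain ⟨x', y', hy', heq, hle⟩ := halving u v (-w) e he.ne' h12 h13
    refine ⟨x', y', hy', heq, lt_of_le_of_lt hle ?_⟩
    have hvu : v < u := by nlinarith
    have hwu : w < u := by nlinarith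
    have hu9 : 9 ≤ u := by nlinarith
    have hueq : (ht x : ℤ) = u^2 := by
      have : e^2 < u^2 := by nlinarith
      omega
    have huu : u < u^2 := by nlinarith
    have a1 := natAbs_lt_of (u + -w) (ht x) (u^2) hueq (by linarith) (by linarith)
    have a2 := natAbs_lt_of (u - v) (ht x) (u^2) hueq (by linarith) (by linarith)
    omega
  · -- δ = -1
    have h12 : (9*e)^2 - w^2 = u^2 := by linarith
    have h13 : (9*e)^2 - (-(9*v))^2 = 81*u^2 := by rw [neg_sq]; linarith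
    obtain ⟨x', y', hy', heq, hle⟩ := halving (9*e) w (-(9*v)) u hu.ne' h12 h13
    refine ⟨x', y', hy', heq, lt_of_le_of_lt hle ?_⟩
    have hve : v < e := by nlinarith
    have hue : u < e := by nlinarith
    have hw9e : w < 9*e := by nlinarith
    have hueq : (ht x : ℤ) = e^2 := by
      have : u^2 < e^2 := by nlinarith
      omega
    by_cases he9 : 9 < e
    · have hee : 9*e < e^2 := by nlinarith
      have a1 := natAbs_lt_of (9*e + -(9*v)) (ht x) (e^2) hueq (by linarith) (by linarith)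
      have a2 := natAbs_lt_of (9*e - w) (ht x) (e^2) hueq (by linarith) (by linarith)
      omega
    · exfalso
      have he9' : e ≤ 9 := by omega
      have hv9 : v ≤ 9 := by omega
      have hu9 : u ≤ 9 := by omega
      have hw81 : w ≤ 81 := by omega
      interval_cases e <;> interval_cases u <;> interval_cases v <;> first | omega | (interval_cases w <;> omega)
  · -- δ = 5
    have h12 : (9*v)^2 - (4*u)^2 = w^2 := by linarith
    have h13 : (9*v)^2 - (-(36*e))^2 = 81*w^2 := by rw [neg_sq]; linarith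
    obtain ⟨x', y', hy', heq, hle⟩ := halving (9*v) (4*u) (-(36*e)) w hw0.ne' h12 h13
    refine ⟨x', y', hy', heq, lt_of_le_of_lt hle ?_⟩
    have h9eu : 9*e < u := by nlinarith
    have h9v : 9*v < 5*u := by nlinarith
    have hueq : (ht x : ℤ) = u^2 := by
      have : e^2 < u^2 := by nlinarith
      omega
    have huu : 5*u < u^2 := by nlinarith
    have a1 := natAbs_lt_of (9*v + -(36*e)) (ht x) (u^2) hueq (by linarith) (by linarith)
    have a2 := natAbs_lt_of (9*v - 4*u) (ht x) (u^2) hueq (by linarith) (by linarith)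
    omega
  · -- δ = -5
    have h12 : w^2 - (4*e)^2 = v^2 := by linarith
    have h13 : w^2 - (-(4*u))^2 = 81*v^2 := by rw [neg_sq]; linarith
    obtain ⟨x', y', hy', heq, hle⟩ := halving w (4*e) (-(4*u)) v hv0.ne' h12 h13
    refine ⟨x', y', hy', heq, lt_of_le_of_lt hle ?_⟩
    have hue : u < e := by nlinarith
    have hw5e : w < 5*e := by nlinarith
    have hueq : (ht x : ℤ) = e^2 := by
      have : u^2 < e^2 := by nlinarith
      omega
    by_cases he5 : 5 < e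
    · have hee : 5*e < e^2 := by nlinarith
      have a1 := natAbs_lt_of (w + -(4*u)) (ht x) (e^2) hueq (by linarith) (by linarith)
      have a2 := natAbs_lt_of (w - 4*e) (ht x) (e^2) hueq (by linarith) (by linarith)
      omega
    · exfalso
      have he5' : e ≤ 5 := by omega
      have hu5 : u ≤ 5 := by omega
      have hv5 : v ≤ 5 := by nlinarith
      have hw25 : w ≤ 25 := by omega
      interval_cases e <;> interval_cases u <;> interval_cases v <;> first | omega | (interval_cases w <;> omega)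

/-- The curve `y^2 = x (x-1) (x-81)` (15a2) has no rational points with `y ≠ 0`. -/
theorem rat_points_15a2 (x y : ℚ) (h : y^2 = x*(x-1)*(x-81)) : y = 0 := by
  by_contra hy
  have key : ∀ n : ℕ, ∀ x y : ℚ, ht x = n → y ≠ 0 → y^2 = x*(x-1)*(x-81) → False := by
    intro n
    induction n using Nat.strong_induction_on with
    | _ n ih =>
      intro x y hn hy h
      obtain ⟨x', y', hy', h', hlt⟩ := descent_step x y hy h
      exact ih (ht x') (hn ▸ hlt) x' y' rfl hy' h'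
  exact key (ht x) x y rfl hy h

/-- The curve `y^2 = x (x+16) (x+25)` (15a1 = X_0(15)) has exactly the rational points
with `y = 0` and `x = ± 20`. -/
theorem rat_points_15a1 (x y : ℚ) (h : y^2 = x*(x+16)*(x+25)) : y = 0 ∨ x = 20 ∨ x = -20 := by
  by_cases hx : x = 0
  · left
    rw [hx] at h
    simpa using h
  · have hY : (y * (400 - x^2) / x^2)^2 =
        ((x+16)*(x+25)/x) * ((x+16)*(x+25)/x - 1) * ((x+16)*(x+25)/x - 81) := by
      rw [div_pow, mul_pow, h]
      field_simp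
      ring
    have h0 := rat_points_15a2 _ _ hY
    have hx2 : x^2 ≠ 0 := pow_ne_zero 2 hx
    rw [div_eq_zero_iff] at h0
    rcases h0 with h0 | h0
    · rcases mul_eq_zero.mp h0 with h1 | h1
      · left; exact h1
      · right
        have : (x - 20) * (x + 20) = 0 := by linear_combination -h1
        rcases mul_eq_zero.mp this with h2 | h2
        · left; linarith
        · right; linarith
    · exact absurd h0 hx2


/-- Exact list of rational points of `y^2 = x (x+16) (x+25)`. -/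
theorem rat_points_15a (x y : ℚ) (h : y^2 = x*(x+16)*(x+25)) :
    y = 0 ∨ (x = 20 ∧ (y = 180 ∨ y = -180)) ∨ (x = -20 ∧ (y = 20 ∨ y = -20)) := by
  rcases rat_points_15a1 x y h with h0 | h0 | h0
  · exact Or.inl h0
  · right; left
    refine ⟨h0, ?_⟩
    rw [h0] at h
    have : (y - 180) * (y + 180) = 0 := by linear_combination h
    rcases mul_eq_zero.mp this with h' | h'
    · left; linarith
    · right; linarith
  · right; right
    refine ⟨h0, ?_⟩
    rw [h0] at h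
    have : (y - 20) * (y + 20) = 0 := by linear_combination h
    rcases mul_eq_zero.mp this with h' | h'
    · left; linarith
    · right; linarith

end Fermat.Agent.S51.RankZero
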