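import Mathlib

set_option autoImplicit false

namespace Fermat.Agent.S51.X015

/-- numerator of the `x`-coordinate map from the `(t,s)`-model of `X_0(15)` to `y^2=x(x+16)(x+25)` -/
def numX (t s : ℚ) : ℚ :=
  8*t^3*s + 4*t^2*s^3 + 40*t^2*s^2 + 284*t^2*s + 4*t*s^5 + 80*t*s^4 + 560*t*s^3 + 1600*t*s^2 + 2068*t*s
      - 16*s^6 - 384*s^5 - 3060*s^4 - 8716*s^3 - 5760*s^2 - 36*s - 500

/-- numerator of the `y`-coordinate map -/
def numY (t s : ℚ) : ℚ :=
  8*t^3*s^2 + 32*t^3*s + 20*t^2*s^3 + 464*t^2*s^2 + 1156*t^2*s + 12*t*s^5 + 240*t*s^4 + 1920*t*s^3 + 8568*t*s^2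
      + 8772*t*s + 72*s^5 + 1260*s^4 + 5940*s^3 + 5544*s^2 - 324*s - 4500

/-- common denominator `(s^2+4s-1)(s^2+10s+5)^2` -/
def den (s : ℚ) : ℚ :=
  s^6 + 24*s^5 + 189*s^4 + 520*s^3 + 315*s^2 - 25

lemma den_eq (s : ℚ) : den s = (s ^ 2 + 4 * s - 1) * (s ^ 2 + 10 * s + 5) ^ 2 := by
  unfold den; ring

lemma not_isSquare_five : ¬ IsSquare (5 : ℚ) := by
  rw [show (5 : ℚ) = ((5 : ℕ) : ℚ) by norm_num, Rat.isSquare_natCast_iff]
  intro ⟨r, hr⟩
  have h1 : r < 3 := by nlinarith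
  interval_cases r <;> omega

lemma not_isSquare_twenty : ¬ IsSquare (20 : ℚ) := by
  rw [show (20 : ℚ) = ((20 : ℕ) : ℚ) by norm_num, Rat.isSquare_natCast_iff]
  intro ⟨r, hr⟩
  have h1 : r < 5 := by nlinarith
  interval_cases r <;> omega

lemma quad1_ne_zero (s : ℚ) : s ^ 2 + 4 * s - 1 ≠ 0 := by
  intro h
  exact not_isSquare_five ⟨s + 2, by linear_combination -h⟩

lemma quad2_ne_zero (s : ℚ) : s ^ 2 + 10 * s + 5 ≠ 0 := by
  intro h
  exact not_isSquare_twenty ⟨s + 5, by linear_combination -h⟩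

lemma den_ne_zero (s : ℚ) : den s ≠ 0 := by
  rw [den_eq]
  exact mul_ne_zero (quad1_ne_zero s) (pow_ne_zero _ (quad2_ne_zero s))

section identities

variable (t s : ℚ) (h : (t + 27) * (t + 3) ^ 3 * s = (s ^ 2 + 10 * s + 5) ^ 3 * t)
include h

lemma identA : numY t s ^ 2 * den s =
    numX t s * (numX t s + 16 * den s) * (numX t s + 25 * den s) := by
  unfold numX numY den
  linear_combination
    (-512*t^5*s^2 - 768*t^4*s^4 - 7680*t^4*s^3 - 36096*t^4*s^2 - 1152*t^3*s^6 - 23040*t^3*s^5 - 172800*t^3*s^4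
      - 576000*t^3*s^3 - 895104*t^3*s^2 + 64*t^2*s^9 + 1216*t^2*s^8 + 384*t^2*s^7 - 156992*t^2*s^6 - 1569920*t^2*s^5
      - 6668736*t^2*s^4 - 12856960*t^2*s^3 - 9130432*t^2*s^2 + 72000*t^2*s - 256*t*s^10 - 9280*t*s^9
      - 152960*t*s^8 - 1523200*t*s^7 - 9667072*t*s^6 - 37216640*t*s^5 - 79510400*t*s^4 - 82304000*t*s^3
      - 32123392*t*s^2 + 2520000*t*s - 576*s^11 - 23616*s^10 - 397440*s^9 - 3599424*s^8 - 19420416*s^7
      - 64262592*s^6 - 121259520*s^5 - 103531968*s^4 - 20537280*s^3 + 27915264*s^2 + 17712000*s) * h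

lemma identB : 8 * s * (numX t s + 16 * den s) * den s =
    (numX t s + 12 * den s) * numY t s - (3 * numX t s + 100 * den s) * (numX t s + 16 * den s) := by
  unfold numX numY den
  linear_combination
    (-64*t^2*s^2 - 64*t^2*s - 32*t*s^4 - 416*t*s^3 - 3040*t*s^2 - 2400*t*s - 32*s^6 - 704*s^5 - 5664*s^4
      - 21472*s^3 - 42624*s^2 - 19744*s) * h

lemma identC : 32 * t * (numX t s + 20 * den s) * den s ^ 2 =
    (numX t s + 16 * den s) ^ 2 * (numY t s - 5 * numX t s - 80 * den s) := by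
  unfold numX numY den
  linear_combination
    (-512*t^5*s^3 + 512*t^5*s^2 - 512*t^4*s^5 - 4608*t^4*s^4 - 29696*t^4*s^3 + 34816*t^4*s^2 - 640*t^3*s^7
      - 11648*t^3*s^6 - 78080*t^3*s^5 - 213760*t^3*s^4 - 383104*t^3*s^3 + 818304*t^3*s^2 - 256*t^2*s^9
      - 7424*t^2*s^8 - 95104*t^2*s^7 - 651904*t^2*s^6 - 2189312*t^2*s^5 - 2192896*t^2*s^4 + 2293888*t^2*s^3
      + 7743872*t^2*s^2 - 51200*t^2*s - 128*t*s^11 - 4864*t*s^10 - 75520*t*s^9 - 612352*t*s^8 - 2755200*t*s^7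
      - 6556288*t*s^6 - 4888320*t*s^5 + 13111040*t*s^4 + 32094208*t*s^3 + 26302592*t*s^2 - 1696000*t*s
      - 128*s^12 - 5376*s^11 - 91008*s^10 - 794752*s^9 - 3816192*s^8 - 10118784*s^7 - 15428224*s^6 - 18435840*s^5
      - 23772288*s^4 - 18425216*s^3 - 9356544*s^2 - 10147200*s + 160000) * h

end identities

/-- Rational points of the `(t,s)`-model of `X_0(15)` away from the cusps, assuming the list of
rational points of `y^2 = x(x+16)(x+25)`. -/
theorem x015_rational_of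
    (hE : ∀ x y : ℚ, y ^ 2 = x * (x + 16) * (x + 25) →
      y = 0 ∨ (x = 20 ∧ (y = 180 ∨ y = -180)) ∨ (x = -20 ∧ (y = 20 ∨ y = -20)))
    (t s : ℚ) (ht : t ≠ 0) (hs : s ≠ 0)
    (h : (t + 27) * (t + 3) ^ 3 * s = (s ^ 2 + 10 * s + 5) ^ 3 * t) :
    s = -10 ∨ s = -25 / 2 ∨ s = -25 / 8 ∨ s = -40 := by
  have hD : den s ≠ 0 := den_ne_zero s
  set D := den s with hDdef
  set N := numX t s with hNdef
  set M := numY t s with hMdef
  have hA : M ^ 2 * D = N * (N + 16 * D) * (N + 25 * D) := identA t s h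
  have hB : 8 * s * (N + 16 * D) * D = (N + 12 * D) * M - (3 * N + 100 * D) * (N + 16 * D) :=
    identB t s h
  have hC : 32 * t * (N + 20 * D) * D ^ 2 = (N + 16 * D) ^ 2 * (M - 5 * N - 80 * D) :=
    identC t s h
  -- the point (x,y) = (N/D, M/D)
  obtain ⟨x, hx⟩ : ∃ x : ℚ, N = x * D := ⟨N / D, by field_simp⟩
  obtain ⟨y, hy⟩ : ∃ y : ℚ, M = y * D := ⟨M / D, by field_simp⟩
  have hxy : y ^ 2 = x * (x + 16) * (x + 25) := by
    have h3 : D ^ 3 ≠ 0 := pow_ne_zero _ hD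
    apply mul_right_cancel₀ h3
    rw [hx, hy] at hA
    linear_combination hA
  have hB' : 8 * s * (x + 16) = (x + 12) * y - (3 * x + 100) * (x + 16) := by
    have h2 : D ^ 2 ≠ 0 := pow_ne_zero _ hD
    apply mul_right_cancel₀ h2
    rw [hx, hy] at hB
    linear_combination hB
  have hC' : 32 * t * (x + 20) = (x + 16) ^ 2 * (y - 5 * x - 80) := by
    have h3 : D ^ 3 ≠ 0 := pow_ne_zero _ hD
    apply mul_right_cancel₀ h3
    rw [hx, hy] at hC
    linear_combination hC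
  rcases hE x y hxy with h0 | ⟨hx20, hy180 | hy180⟩ | ⟨hx20, hy20 | hy20⟩
  · -- y = 0 : x ∈ {0,-16,-25}
    subst h0
    have : x * (x + 16) * (x + 25) = 0 := by linear_combination -hxy
    rcases mul_eq_zero.mp this with h1 | h1
    · rcases mul_eq_zero.mp h1 with h2 | h2
      · -- x = 0
        subst h2
        right; left
        linarith
      · -- x = -16 : forces t = 0
        have hx16 : x = -16 := by linarith
        subst hx16
        exfalso; apply ht
        have : 32 * t * 4 = 0 := by linear_combination hC'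
        linarith
    · have hx25 : x = -25 := by linarith
      subst hx25
      right; right; left
      linarith
  · subst hx20; subst hy180
    exfalso; apply hs; linarith
  · subst hx20; subst hy180
    right; right; right; linarith
  · subst hx20; subst hy20
    exfalso; apply hs; linarith
  · subst hx20; subst hy20
    left; linarith

end Fermat.Agent.S51.X015
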