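/-
S51, descent part D2 (helper75).  Rational points on `y^2 = x(x-1)(x-81)` (a curve of conductor 15
with torsion Z/2 x Z/2) and on `y^2 = x(x+16)(x+25)` (the curve 15a1).
Infinite descent; the measure is the denominator of the x-coordinate of the double.
The Selmer-group half of the descent is isolated as the proposition `SelmerProp`.
-/
import Mathlib

set_option autoImplicit false

namespace Fermat.Agent.S51.Descent

/-- x-coordinate of the double of a point on `y^2 = x(x-1)(x-81)`. -/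
def dup (x : ℚ) : ℚ := (x ^ 2 - 81) ^ 2 / (4 * (x * (x - 1) * (x - 81)))

theorem dup_T1 {x : ℚ} (h0 : x ≠ 0) (h1 : x ≠ 1) (h81 : x ≠ 81) : dup (81 / x) = dup x := by
  unfold dup
  have h1' : x - 1 ≠ 0 := sub_ne_zero.mpr h1
  have h81' : x - 81 ≠ 0 := sub_ne_zero.mpr h81
  have e1 : 81 / x - 1 = (81 - x) / x := by field_simp
  have e2 : 81 / x - 81 = 81 * (1 - x) / x := by field_simp
  have e3 : (81 / x) ^ 2 - 81 = 81 * (81 - x ^ 2) / x ^ 2 := by field_simp
  have h2 : (81 : ℚ) - x ≠ 0 := fun h => h81' (by linarith)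
  have h3 : (1 : ℚ) - x ≠ 0 := fun h => h1' (by linarith)
  rw [e1, e2, e3]
  field_simp
  ring

theorem dup_T2 {x : ℚ} (h0 : x ≠ 0) (h1 : x ≠ 1) (h81 : x ≠ 81) :
    dup ((x - 81) / (x - 1)) = dup x := by
  unfold dup
  have h1' : x - 1 ≠ 0 := sub_ne_zero.mpr h1
  have h81' : x - 81 ≠ 0 := sub_ne_zero.mpr h81
  have e1 : (x - 81) / (x - 1) - 1 = (-80) / (x - 1) := by field_simp; ring
  have e2 : (x - 81) / (x - 1) - 81 = (-80) * x / (x - 1) := by field_simp; ring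
  have e3 : ((x - 81) / (x - 1)) ^ 2 - 81 = (-80) * (x ^ 2 - 81) / (x - 1) ^ 2 := by
    field_simp; ring
  rw [e1, e2, e3]
  field_simp

theorem dup_T3 {x : ℚ} (h0 : x ≠ 0) (h1 : x ≠ 1) (h81 : x ≠ 81) :
    dup (81 * (x - 1) / (x - 81)) = dup x := by
  unfold dup
  have h1' : x - 1 ≠ 0 := sub_ne_zero.mpr h1
  have h81' : x - 81 ≠ 0 := sub_ne_zero.mpr h81
  have e1 : 81 * (x - 1) / (x - 81) - 1 = 80 * x / (x - 81) := by field_simp; ring
  have e2 : 81 * (x - 1) / (x - 81) - 81 = 6480 / (x - 81) := by field_simp; ring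
  have e3 : (81 * (x - 1) / (x - 81)) ^ 2 - 81 = 6480 * (x ^ 2 - 81) / (x - 81) ^ 2 := by
    field_simp; ring
  rw [e1, e2, e3]
  field_simp
  ring

/-- A rational number whose square is an integer is an integer. -/
theorem exists_int_of_sq_eq_int {q : ℚ} {n : ℤ} (h : q ^ 2 = (n : ℚ)) : ∃ m : ℤ, q = (m : ℚ) := by
  have hden : (q ^ 2).den = 1 := by rw [h]; exact Rat.den_intCast n
  rw [Rat.den_pow] at hden
  have hd1 : q.den = 1 := by
    have := Nat.pow_eq_one.mp hden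
    rcases this with h1 | h1
    · exact h1
    · exact absurd h1 (by norm_num)
  exact ⟨q.num, by
    conv_lhs => rw [← Rat.num_div_den q]
    rw [hd1]; simp⟩

theorem coprime_aux {u d : ℤ} (h : IsCoprime u d) : IsCoprime d (u ^ 4 - 81 * d ^ 4) := by
  have h1 : IsCoprime d (u ^ 4) := h.symm.pow_right
  have : u ^ 4 - 81 * d ^ 4 = u ^ 4 + d * (-81 * d ^ 3) := by ring
  rw [this]
  exact h1.add_mul_left_right _

theorem no_small {u d v w : ℤ} (hd : 0 < d) (hcop : IsCoprime u d) (hv : v ^ 2 = u ^ 2 - d ^ 2)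
    (hw : w ^ 2 = u ^ 2 - 81 * d ^ 2) (hw0 : w ≠ 0) (hu : u ∣ u ^ 4 - 81 * d ^ 4) : False := by
  have hu81 : u ∣ 81 := by
    have h1 : u ∣ 81 * d ^ 4 := by
      have h2 : u ∣ u ^ 4 := dvd_pow_self u (by norm_num)
      have := dvd_sub h2 hu
      simpa using this
    exact (hcop.pow_right (n := 4)).dvd_of_dvd_mul_right h1
  have hw2 : 0 < w ^ 2 := by positivity
  have hule : |u| ≤ 81 := by
    have := Int.le_of_dvd (by norm_num) ((abs_dvd u 81).mpr hu81)
    simpa using this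
  set a := |u| with ha
  set b := |v| with hb
  have ha2 : a ^ 2 = u ^ 2 := sq_abs u
  have hb2 : b ^ 2 = v ^ 2 := sq_abs v
  have ha0 : 0 ≤ a := abs_nonneg u
  have hb0 : 0 ≤ b := abs_nonneg v
  have hd1 : 1 ≤ d := hd
  have hba : b < a := by
    have : b ^ 2 < a ^ 2 := by rw [ha2, hb2, hv]; nlinarith
    exact lt_of_pow_lt_pow_left₀ 2 ha0 this
  have hba1 : b + 1 ≤ a := hba
  nlinarith

/-- Strict growth of denominators under duplication, for points in the trivial Selmer class. -/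
theorem den_lt_den_dup {r1 r2 r3 : ℚ} (h2 : r2 ^ 2 = r1 ^ 2 - 1) (h3 : r3 ^ 2 = r1 ^ 2 - 81)
    (hr3 : r3 ≠ 0) : (r1 ^ 2).den < (dup (r1 ^ 2)).den := by
  have hr1 : r1 ≠ 0 := by
    intro h
    have : r3 ^ 2 = -81 := by rw [h3, h]; norm_num
    nlinarith [sq_nonneg r3]
  have hr2 : r2 ≠ 0 := by
    intro h
    have : r3 ^ 2 = -80 := by
      have : r1 ^ 2 = 1 := by rw [h] at h2; linarith
      rw [h3, this]; norm_num
    nlinarith [sq_nonneg r3]
  set u : ℤ := r1.num with hu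
  set d : ℤ := (r1.den : ℤ) with hd
  have hdpos : 0 < d := by simp [hd, Rat.den_pos]
  have hdQ : (d : ℚ) ≠ 0 := by exact_mod_cast hdpos.ne'
  have hr1d : r1 * (d : ℚ) = (u : ℚ) := by
    rw [hd, hu]; exact_mod_cast Rat.mul_den_eq_num r1
  have hcop : IsCoprime u d := Rat.isCoprime_num_den r1
  -- r2 * d and r3 * d are integers
  obtain ⟨v, hv⟩ : ∃ v : ℤ, r2 * d = (v : ℚ) := by
    apply exists_int_of_sq_eq_int (n := u ^ 2 - d ^ 2)
    push_cast
    rw [mul_pow, h2, ← hr1d]; ring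
  obtain ⟨w, hw⟩ : ∃ w : ℤ, r3 * d = (w : ℚ) := by
    apply exists_int_of_sq_eq_int (n := u ^ 2 - 81 * d ^ 2)
    push_cast
    rw [mul_pow, h3, ← hr1d]; ring
  have hvZ : v ^ 2 = u ^ 2 - d ^ 2 := by
    have : ((v ^ 2 : ℤ) : ℚ) = ((u ^ 2 - d ^ 2 : ℤ) : ℚ) := by
      push_cast
      rw [← hv, mul_pow, h2, ← hr1d]; ring
    exact_mod_cast this
  have hwZ : w ^ 2 = u ^ 2 - 81 * d ^ 2 := by
    have : ((w ^ 2 : ℤ) : ℚ) = ((u ^ 2 - 81 * d ^ 2 : ℤ) : ℚ) := by
      push_cast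
      rw [← hw, mul_pow, h3, ← hr1d]; ring
    exact_mod_cast this
  have hw0 : w ≠ 0 := by
    intro h
    rw [h] at hw
    have : r3 * d = 0 := by simpa using hw
    rcases mul_eq_zero.mp this with h' | h'
    · exact hr3 h'
    · exact hdQ h'
  -- the square root of dup
  set z : ℚ := (r1 ^ 4 - 81) / (2 * r1 * r2 * r3) with hz
  have hdupz : dup (r1 ^ 2) = z ^ 2 := by
    unfold dup
    rw [hz, div_pow]
    congr 1
    · ring
    · rw [show r1 ^ 2 - 1 = r2 ^ 2 from h2.symm, show r1 ^ 2 - 81 = r3 ^ 2 from h3.symm]; ring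
  have hzN : z * (2 * d * u * v * w : ℤ) = ((u ^ 4 - 81 * d ^ 4 : ℤ) : ℚ) := by
    push_cast
    rw [hz, ← hv, ← hw, ← hr1d]
    field_simp
  -- integer relation
  have hrel : z.num * (2 * d * u * v * w) = (u ^ 4 - 81 * d ^ 4) * (z.den : ℤ) := by
    have h1 : (z.num : ℚ) = z * (z.den : ℚ) := (Rat.mul_den_eq_num z).symm
    have : ((z.num * (2 * d * u * v * w) : ℤ) : ℚ) = (((u ^ 4 - 81 * d ^ 4) * (z.den : ℤ) : ℤ) : ℚ) := by
      rw [Int.cast_mul, Int.cast_mul (u ^ 4 - 81 * d ^ 4), ← hzN, h1]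
      push_cast; ring
    exact_mod_cast this
  have hddvd : d ∣ (z.den : ℤ) := by
    have : d ∣ (u ^ 4 - 81 * d ^ 4) * (z.den : ℤ) := by
      rw [← hrel]
      exact ⟨z.num * (2 * u * v * w), by ring⟩
    exact (coprime_aux hcop).dvd_of_dvd_mul_left this
  obtain ⟨k, hk⟩ := hddvd
  have hzdpos : (0 : ℤ) < (z.den : ℤ) := by exact_mod_cast z.den_pos
  have hkpos : 0 < k := by
    by_contra hcon
    have hcon := not_lt.mp hcon
    have : d * k ≤ 0 := mul_nonpos_of_nonneg_of_nonpos hdpos.le hcon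
    omega
  have hk1 : k ≠ 1 := by
    intro hk1
    rw [hk1, mul_one] at hk
    rw [hk] at hrel
    have : u ∣ u ^ 4 - 81 * d ^ 4 := by
      have h5 : d * (z.num * (2 * u * v * w)) = d * (u ^ 4 - 81 * d ^ 4) := by
        linear_combination hrel
      have h6 := mul_left_cancel₀ hdpos.ne' h5
      exact ⟨z.num * (2 * v * w), by rw [← h6]; ring⟩
    exact no_small hdpos hcop hvZ hwZ hw0 this
  have hk2 : 2 ≤ k := by omega
  have hlt : d < (z.den : ℤ) := by rw [hk]; nlinarith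
  rw [hdupz, Rat.den_pow, Rat.den_pow]
  have hlt' : r1.den < z.den := by
    rw [hd] at hlt
    exact_mod_cast hlt
  exact Nat.pow_lt_pow_left hlt' (by norm_num)

/-- Halving on `y^2 = x(x-1)(x-81)` for a point in the trivial Selmer class. -/
theorem halving {r1 r2 r3 : ℚ} (h2 : r2 ^ 2 = r1 ^ 2 - 1) (h3 : r3 ^ 2 = r1 ^ 2 - 81)
    (h12 : r1 + r2 ≠ 0) (h13 : r1 + r3 ≠ 0) (h23 : r2 + r3 ≠ 0) :
    (r1 + r2) * (r1 + r3) - 1 = (r1 + r2) * (r2 + r3) ∧
    (r1 + r2) * (r1 + r3) - 81 = (r1 + r3) * (r2 + r3) ∧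
    dup ((r1 + r2) * (r1 + r3)) = r1 ^ 2 := by
  have e1 : (r1 + r2) * (r1 + r3) - 1 = (r1 + r2) * (r2 + r3) := by
    linear_combination (-1 : ℚ) * h2
  have e2 : (r1 + r2) * (r1 + r3) - 81 = (r1 + r3) * (r2 + r3) := by
    linear_combination (-1 : ℚ) * h3
  refine ⟨e1, e2, ?_⟩
  unfold dup
  have hden : (4 : ℚ) * ((r1 + r2) * (r1 + r3) * ((r1 + r2) * (r1 + r3) - 1) *
      ((r1 + r2) * (r1 + r3) - 81)) ≠ 0 := by
    rw [e1, e2]
    have := mul_ne_zero h12 (mul_ne_zero h13 h23)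
    positivity
  rw [div_eq_iff hden]
  linear_combination ((-5)*r1^6 + (-8)*r1^5*r3 + 1*r1^4*r2^2 + 4*r1^4*r2*r3 + 6*r1^4*r3^2 + 327*r1^4 + 4*r1^3*r2^2*r3 + 12*r1^3*r2*r3^2 + 16*r1^3*r3^3 + 652*r1^3*r3 + 6*r1^2*r2^2*r3^2 + 12*r1^2*r2*r3^3 + 7*r1^2*r3^4 + 322*r1^2*r3^2 + (-162)*r1^2 + 4*r1*r2^2*r3^3 + 4*r1*r2*r3^4 + (-4)*r1*r3^3 + (-324)*r1*r3 + 1*r2^2*r3^4 + (-1)*r3^4 + (-162)*r3^2) * h2 + (8*r1^6 + 8*r1^5*r2 + 16*r1^5*r3 + 16*r1^4*r2*r3 + 8*r1^4*r3^2 + (-12)*r1^4 + 8*r1^3*r2*r3^2 + (-8)*r1^3*r2 + (-20)*r1^3*r3 + (-12)*r1^2*r2*r3 + (-8)*r1^2*r3^2 + 3*r1^2 + (-4)*r1*r2*r3^2 + 4*r1*r3 + 1*r3^2 + 81) * h3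

/-- The Selmer-group input (first half of the descent), isolated as a proposition. -/
def SelmerProp : Prop :=
  ∀ x y : ℚ, y ≠ 0 → y ^ 2 = x * (x - 1) * (x - 81) →
    ∃ x1 : ℚ, (x1 = x ∨ x1 = 81 / x ∨ x1 = (x - 81) / (x - 1) ∨ x1 = 81 * (x - 1) / (x - 81)) ∧
      IsSquare x1 ∧ IsSquare (x1 - 1) ∧ IsSquare (x1 - 81)

theorem no_points_Ebar_aux (hS : SelmerProp) :
    ∀ n : ℕ, ∀ x y : ℚ, (dup x).den = n → y ^ 2 = x * (x - 1) * (x - 81) → y = 0 := by
  intro n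
  induction n using Nat.strong_induction_on with
  | _ n ih =>
    intro x y hn h
    by_contra hy
    have hx0 : x ≠ 0 := by rintro rfl; apply hy; simpa using h
    have hx1 : x ≠ 1 := by rintro rfl; apply hy; simpa using h
    have hx81 : x ≠ 81 := by rintro rfl; apply hy; simpa using h
    have hx1' : x - 1 ≠ 0 := sub_ne_zero.mpr hx1
    have hx81' : x - 81 ≠ 0 := sub_ne_zero.mpr hx81
    obtain ⟨x1, hx1orb, ⟨s1, hs1⟩, ⟨s2, hs2⟩, ⟨s3, hs3⟩⟩ := hS x y hy h
    -- dup is constant on the orbit, and x1 ≠ 81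
    have hdup : dup x1 = dup x ∧ x1 - 81 ≠ 0 := by
      rcases hx1orb with rfl | rfl | rfl | rfl
      · exact ⟨rfl, hx81'⟩
      · refine ⟨dup_T1 hx0 hx1 hx81, ?_⟩
        intro hc
        apply hx1
        field_simp at hc
        linarith
      · refine ⟨dup_T2 hx0 hx1 hx81, ?_⟩
        intro hc
        apply hx0
        field_simp at hc
        linarith
      · refine ⟨dup_T3 hx0 hx1 hx81, ?_⟩
        intro hc
        field_simp at hc
        linarith
    obtain ⟨hdup, hx181⟩ := hdup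
    -- nonnegative square roots
    set r1 : ℚ := |s1| with hr1
    set r2 : ℚ := |s2| with hr2
    set r3 : ℚ := |s3| with hr3
    have e1 : x1 = r1 ^ 2 := by rw [hs1, hr1, sq_abs]; ring
    have e2 : x1 - 1 = r2 ^ 2 := by rw [hs2, hr2, sq_abs]; ring
    have e3 : x1 - 81 = r3 ^ 2 := by rw [hs3, hr3, sq_abs]; ring
    have h2 : r2 ^ 2 = r1 ^ 2 - 1 := by rw [← e2, e1]
    have h3 : r3 ^ 2 = r1 ^ 2 - 81 := by rw [← e3, e1]
    have hr3ne : r3 ≠ 0 := by
      intro hc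
      apply hx181
      rw [e3, hc]; norm_num
    have hr3pos : 0 < r3 := lt_of_le_of_ne (abs_nonneg s3) (Ne.symm hr3ne)
    have hr1nn : 0 ≤ r1 := abs_nonneg s1
    have hr2nn : 0 ≤ r2 := abs_nonneg s2
    have hr1pos : 0 < r1 := by
      rcases hr1nn.lt_or_eq with hlt | heq
      · exact hlt
      · exfalso
        rw [← heq] at h3
        nlinarith [sq_nonneg r3]
    have h12 : r1 + r2 ≠ 0 := by positivity
    have h13 : r1 + r3 ≠ 0 := by positivity
    have h23 : r2 + r3 ≠ 0 := by positivity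
    obtain ⟨f1, f2, f3⟩ := halving h2 h3 h12 h13 h23
    set x2 : ℚ := (r1 + r2) * (r1 + r3) with hx2
    set y2 : ℚ := (r1 + r2) * (r1 + r3) * (r2 + r3) with hy2
    have hy2ne : y2 ≠ 0 := mul_ne_zero (mul_ne_zero h12 h13) h23
    have hcurve : y2 ^ 2 = x2 * (x2 - 1) * (x2 - 81) := by
      rw [f1, f2, hx2, hy2]; ring
    have hlt : (dup x2).den < n := by
      rw [f3, ← hn, ← hdup, e1]
      exact den_lt_den_dup h2 h3 hr3ne
    exact hy2ne (ih _ hlt x2 y2 rfl hcurve)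

theorem no_points_Ebar_of_selmer (hS : SelmerProp) (x y : ℚ)
    (h : y ^ 2 = x * (x - 1) * (x - 81)) : y = 0 :=
  no_points_Ebar_aux hS _ x y rfl h

/-- Rational points of `y^2 = x(x+16)(x+25)` from those of `y^2 = x(x-1)(x-81)`. -/
theorem rat_points_15a_of (hE : ∀ x y : ℚ, y ^ 2 = x * (x - 1) * (x - 81) → y = 0)
    (x y : ℚ) (h : y ^ 2 = x * (x + 16) * (x + 25)) :
    y = 0 ∨ (x = 20 ∧ (y = 180 ∨ y = -180)) ∨ (x = -20 ∧ (y = 20 ∨ y = -20)) := by
  by_cases hx : x = 0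
  · left
    rw [hx] at h
    simpa using h
  have key := hE ((x + 16) * (x + 25) / x) (y * (400 - x ^ 2) / x ^ 2) (by
    rw [div_pow, mul_pow, h]
    field_simp
    ring)
  have hx2 : x ^ 2 ≠ 0 := pow_ne_zero 2 hx
  rw [div_eq_zero_iff] at key
  rcases key with key | key
  · rcases mul_eq_zero.mp key with hy | hxx
    · exact Or.inl hy
    · right
      have hfac : (x - 20) * (x + 20) = 0 := by linear_combination (-1 : ℚ) * hxx
      rcases mul_eq_zero.mp hfac with h20 | h20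
      · left
        have hx20 : x = 20 := by linarith
        refine ⟨hx20, ?_⟩
        rw [hx20] at h
        have : (y - 180) * (y + 180) = 0 := by linear_combination h
        rcases mul_eq_zero.mp this with h' | h'
        · left; linarith
        · right; linarith
      · right
        have hx20 : x = -20 := by linarith
        refine ⟨hx20, ?_⟩
        rw [hx20] at h
        have : (y - 20) * (y + 20) = 0 := by linear_combination h
        rcases mul_eq_zero.mp this with h' | h'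
        · left; linarith
        · right; linarith
  · exact absurd key hx2

end Fermat.Agent.S51.Descent
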