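import Fermat.Agent.S51.Five.Main

/-!
Mod 5 side of S51.  Main result:
`Fermat.Agent.S51.FiveX.exists_s_of_reducible_five`.
-/
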