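-- S51 helper: over an algebraically closed field of characteristic zero, a Weierstrass curve
-- with nonzero discriminant has a nonzero point killed by 5.
import Mathlib

set_option autoImplicit false

namespace Fermat.Agent.S51.FiveExists

open WeierstrassCurve

section Algebra

variable {K : Type*} [Field K] [CharZero K]

theorem delta_eq_zero_of_common_root (b2 b4 b6 b8 x : K) (hb8 : 4 * b8 = b2 * b6 - b4 ^ 2)
    (hM : 4 * x ^ 3 + b2 * x ^ 2 + 2 * b4 * x + b6 = 0)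
    (hN : x ^ 4 - b4 * x ^ 2 - 2 * b6 * x - b8 = 0) :
    -b2 ^ 2 * b8 - 8 * b4 ^ 3 - 27 * b6 ^ 2 + 9 * b2 * b4 * b6 = 0 := by
  have hM' : (12 * x ^ 2 + 2 * b2 * x + 2 * b4) ^ 2 = 0 := by
    linear_combination 16 * hN + (32 * x + 4 * b2) * hM + 4 * hb8
  have hM'' : 12 * x ^ 2 + 2 * b2 * x + 2 * b4 = 0 := pow_eq_zero_iff (two_ne_zero) |>.mp hM'
  have h4 : b4 = -6 * x ^ 2 - b2 * x := by linear_combination (1 / 2 : K) * hM''
  have h6 : b6 = 8 * x ^ 3 + b2 * x ^ 2 := by linear_combination hM - x * hM''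
  have h8 : b8 = (b2 * b6 - b4 ^ 2) / 4 := by linear_combination (1 / 4 : K) * hb8
  rw [h8, h6, h4]
  ring

theorem quad_identity (b2 b4 b6 b8 x : K) (hb8 : 4 * b8 = b2 * b6 - b4 ^ 2) :
    4 * (x ^ 4 - b4 * x ^ 2 - 2 * b6 * x - b8) ^ 3
      + b2 * (x ^ 4 - b4 * x ^ 2 - 2 * b6 * x - b8) ^ 2
        * (4 * x ^ 3 + b2 * x ^ 2 + 2 * b4 * x + b6)
      + 2 * b4 * (x ^ 4 - b4 * x ^ 2 - 2 * b6 * x - b8)
        * (4 * x ^ 3 + b2 * x ^ 2 + 2 * b4 * x + b6) ^ 2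
      + b6 * (4 * x ^ 3 + b2 * x ^ 2 + 2 * b4 * x + b6) ^ 3
    = (2 * x ^ 6 + b2 * x ^ 5 + 5 * b4 * x ^ 4 + 10 * b6 * x ^ 3 + 10 * b8 * x ^ 2 +
        (b2 * b8 - b4 * b6) * x + (b4 * b8 - b6 ^ 2)) ^ 2 := by
  have h8 : b8 = (b2 * b6 - b4 ^ 2) / 4 := by linear_combination (1 / 4 : K) * hb8
  subst h8
  ring

theorem quart_identity (b2 b4 b6 b8 x : K) (hb8 : 4 * b8 = b2 * b6 - b4 ^ 2) :
    (x ^ 4 - b4 * x ^ 2 - 2 * b6 * x - b8) ^ 4
      - b4 * (x ^ 4 - b4 * x ^ 2 - 2 * b6 * x - b8) ^ 2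
        * (4 * x ^ 3 + b2 * x ^ 2 + 2 * b4 * x + b6) ^ 2
      - 2 * b6 * (x ^ 4 - b4 * x ^ 2 - 2 * b6 * x - b8)
        * (4 * x ^ 3 + b2 * x ^ 2 + 2 * b4 * x + b6) ^ 3
      - b8 * (4 * x ^ 3 + b2 * x ^ 2 + 2 * b4 * x + b6) ^ 4
      - x * (4 * x ^ 3 + b2 * x ^ 2 + 2 * b4 * x + b6)
        * (2 * x ^ 6 + b2 * x ^ 5 + 5 * b4 * x ^ 4 + 10 * b6 * x ^ 3 + 10 * b8 * x ^ 2 +
          (b2 * b8 - b4 * b6) * x + (b4 * b8 - b6 ^ 2)) ^ 2
    = - (3 * x ^ 4 + b2 * x ^ 3 + 3 * b4 * x ^ 2 + 3 * b6 * x + b8)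
      * ((2 * x ^ 6 + b2 * x ^ 5 + 5 * b4 * x ^ 4 + 10 * b6 * x ^ 3 + 10 * b8 * x ^ 2 +
          (b2 * b8 - b4 * b6) * x + (b4 * b8 - b6 ^ 2))
          * (4 * x ^ 3 + b2 * x ^ 2 + 2 * b4 * x + b6) ^ 2
        - (3 * x ^ 4 + b2 * x ^ 3 + 3 * b4 * x ^ 2 + 3 * b6 * x + b8) ^ 3) := by
  have h8 : b8 = (b2 * b6 - b4 ^ 2) / 4 := by linear_combination (1 / 4 : K) * hb8
  subst h8
  ring

end Algebra

section Curve

variable {K : Type*} [Field K] (W : WeierstrassCurve.Affine K)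

def Mx (x : K) : K := 4 * x ^ 3 + W.b₂ * x ^ 2 + 2 * W.b₄ * x + W.b₆

def Nx (x : K) : K := x ^ 4 - W.b₄ * x ^ 2 - 2 * W.b₆ * x - W.b₈

def P3x (x : K) : K := 3 * x ^ 4 + W.b₂ * x ^ 3 + 3 * W.b₄ * x ^ 2 + 3 * W.b₆ * x + W.b₈

def P4x (x : K) : K :=
  2 * x ^ 6 + W.b₂ * x ^ 5 + 5 * W.b₄ * x ^ 4 + 10 * W.b₆ * x ^ 3 + 10 * W.b₈ * x ^ 2 +
    (W.b₂ * W.b₈ - W.b₄ * W.b₆) * x + (W.b₄ * W.b₈ - W.b₆ ^ 2)

theorem P3x_eq (x : K) : P3x W x = x * Mx W x - Nx W x := by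
  simp only [P3x, Mx, Nx]; ring

theorem psi2sq_eq {x y : K} (h : W.Equation x y) :
    (y - W.negY x y) ^ 2 = Mx W x := by
  rw [Affine.equation_iff] at h
  simp only [Mx, Affine.negY, b₂, b₄, b₆]
  linear_combination 4 * h

variable [DecidableEq K]

theorem dbl_x {x y : K} (h : W.Equation x y) (hy : y ≠ W.negY x y) :
    W.addX x x (W.slope x x y y) * Mx W x = Nx W x := by
  rw [Affine.slope_of_Y_ne rfl hy]
  have hne : y - W.negY x y ≠ 0 := sub_ne_zero.mpr hy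
  rw [← psi2sq_eq W h]
  rw [Affine.equation_iff] at h
  generalize hB : y - W.negY x y = B at hne ⊢
  have hB' : B = 2 * y + W.a₁ * x + W.a₃ := by rw [← hB, Affine.negY]; ring
  simp only [Affine.addX, Nx, b₄, b₆, b₈]
  field_simp
  rw [hB']
  linear_combination (-(W.a₁ ^ 2 + 4 * W.a₂ + 8 * x)) * h

omit [DecidableEq K] in
theorem quad_id [CharZero K] (x : K) :
    4 * Nx W x ^ 3 + W.b₂ * Nx W x ^ 2 * Mx W x + 2 * W.b₄ * Nx W x * Mx W x ^ 2
      + W.b₆ * Mx W x ^ 3 = P4x W x ^ 2 :=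
  quad_identity W.b₂ W.b₄ W.b₆ W.b₈ x W.b_relation

omit [DecidableEq K] in
theorem quart_id [CharZero K] (x : K) :
    Nx W x ^ 4 - W.b₄ * Nx W x ^ 2 * Mx W x ^ 2 - 2 * W.b₆ * Nx W x * Mx W x ^ 3
      - W.b₈ * Mx W x ^ 4 - x * Mx W x * P4x W x ^ 2
    = - P3x W x * (P4x W x * Mx W x ^ 2 - P3x W x ^ 3) :=
  quart_identity W.b₂ W.b₄ W.b₆ W.b₈ x W.b_relation

omit [DecidableEq K] in
/-- If `x2 = N(x1)/M(x1)` then `M(x1)^3 * M(x2) = P4(x1)^2`. -/
theorem Mx_double [CharZero K] {x1 x2 : K} (hx2 : x2 * Mx W x1 = Nx W x1) :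
    Mx W x1 ^ 3 * Mx W x2 = P4x W x1 ^ 2 := by
  rw [← quad_id W x1, ← hx2]
  simp only [Mx]
  ring

omit [DecidableEq K] in
/-- If `x2 = N(x1)/M(x1)` then `M(x1)^4 * (N(x2) - x1 * M(x2))` is minus the product of the
third and fifth division polynomials at `x1`. -/
theorem Nx_double [CharZero K] {x1 x2 : K} (hx2 : x2 * Mx W x1 = Nx W x1) :
    Mx W x1 ^ 4 * (Nx W x2 - x1 * Mx W x2)
      = - P3x W x1 * (P4x W x1 * Mx W x1 ^ 2 - P3x W x1 ^ 3) := by
  rw [← quart_id W x1, ← Mx_double W hx2, ← hx2]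
  simp only [Mx, Nx]
  ring

open Affine.Point in
theorem exists_double {x y : K} (h : W.Nonsingular x y) (hM : Mx W x ≠ 0) :
    ∃ (x' y' : K) (h' : W.Nonsingular x' y'),
      Affine.Point.some x y h + Affine.Point.some x y h = Affine.Point.some x' y' h' ∧
      x' * Mx W x = Nx W x := by
  have hy : y ≠ W.negY x y := by
    intro hy
    apply hM
    rw [← psi2sq_eq W h.1, ← hy, sub_self]
    ring
  exact ⟨_, _, _, add_self_of_Y_ne hy, dbl_x W h.1 hy⟩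

open Affine.Point in
theorem exists_five_torsion [IsAlgClosed K] [CharZero K] (hΔ : W.Δ ≠ 0) :
    ∃ (x y : K) (h : W.Nonsingular x y), (5 : ℤ) • Affine.Point.some x y h = 0 := by
  -- a root of the fifth division polynomial
  have h5 : ((5 : ℕ) : K) ≠ 0 := by exact_mod_cast (by norm_num : (5 : ℕ) ≠ 0)
  have hdeg : (W.preΨ' 5).degree ≠ 0 := by
    have := W.natDegree_preΨ'_pos (n := 5) (by norm_num) h5
    intro h0
    rw [Polynomial.natDegree_pos_iff_degree_pos, h0] at this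
    exact lt_irrefl _ this
  obtain ⟨x1, hx1⟩ := IsAlgClosed.exists_root (W.preΨ' 5) hdeg
  have hP5 : P4x W x1 * Mx W x1 ^ 2 - P3x W x1 ^ 3 = 0 := by
    have h := W.preΨ'_odd 0
    norm_num at h
    rw [Polynomial.IsRoot.def, h] at hx1
    simpa [Ψ₂Sq, Ψ₃, preΨ₄, P4x, Mx, P3x] using hx1
  have hrel := W.b_relation
  have hΔ' : -W.b₂ ^ 2 * W.b₈ - 8 * W.b₄ ^ 3 - 27 * W.b₆ ^ 2 + 9 * W.b₂ * W.b₄ * W.b₆ ≠ 0 := hΔ
  -- x1 is not a 2-torsion abscissa
  have hM1 : Mx W x1 ≠ 0 := by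
    intro hM
    have h3 : P3x W x1 = 0 := by
      have : P3x W x1 ^ 3 = 0 := by rw [hM] at hP5; linear_combination -hP5
      exact pow_eq_zero_iff (by norm_num) |>.mp this
    have hN : Nx W x1 = 0 := by
      rw [P3x_eq, hM] at h3; linear_combination -h3
    exact hΔ' (delta_eq_zero_of_common_root _ _ _ _ x1 hrel hM hN)
  have hquad := quad_identity W.b₂ W.b₄ W.b₆ W.b₈ x1 hrel
  have hquart := quart_identity W.b₂ W.b₄ W.b₆ W.b₈ x1 hrel
  -- x1 is not a 3-torsion abscissa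
  have h31 : P3x W x1 ≠ 0 := by
    intro h3
    have h4 : P4x W x1 = 0 := by
      rw [h3] at hP5
      have : P4x W x1 * Mx W x1 ^ 2 = 0 := by linear_combination hP5
      rcases mul_eq_zero.mp this with h | h
      · exact h
      · exact absurd (pow_eq_zero_iff (by norm_num) |>.mp h) hM1
    have hN : Nx W x1 = x1 * Mx W x1 := by
      rw [P3x_eq] at h3; linear_combination -h3
    have : Mx W x1 ^ 4 = 0 := by
      have h := hquad
      simp only [P4x, Mx, Nx] at h4 hN ⊢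
      rw [h4, hN] at h
      linear_combination h
    exact hM1 (pow_eq_zero_iff (by norm_num) |>.mp this)
  have h41 : P4x W x1 ≠ 0 := by
    intro h4
    apply h31
    have : P3x W x1 ^ 3 = 0 := by rw [h4] at hP5; linear_combination -hP5
    exact pow_eq_zero_iff (by norm_num) |>.mp this
  -- the point
  obtain ⟨s, hs⟩ := IsAlgClosed.exists_eq_mul_self (Mx W x1)
  set y1 : K := (s - W.a₁ * x1 - W.a₃) / 2 with hy1
  have heq : W.Equation x1 y1 := by
    rw [Affine.equation_iff]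
    simp only [Mx, b₂, b₄, b₆] at hs
    rw [hy1]
    field_simp
    linear_combination -hs
  have hns : W.Nonsingular x1 y1 := (W.equation_iff_nonsingular_of_Δ_ne_zero hΔ).mp heq
  obtain ⟨x2, y2, hns2, h2P, hx2⟩ := exists_double W hns hM1
  have hM2 : Mx W x2 ≠ 0 := by
    intro hM2
    apply h41
    have : P4x W x1 ^ 2 = 0 := by rw [← Mx_double W hx2, hM2, mul_zero]
    exact pow_eq_zero_iff (by norm_num) |>.mp this
  obtain ⟨x4, y4, hns4, h4P, hx4⟩ := exists_double W hns2 hM2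
  have hx41 : x4 = x1 := by
    have h := Nx_double W hx2
    rw [hP5, mul_zero] at h
    have h' : Nx W x2 - x1 * Mx W x2 = 0 := by
      rcases mul_eq_zero.mp h with h | h
      · exact absurd (pow_eq_zero_iff (by norm_num) |>.mp h) hM1
      · exact h
    have : x4 * Mx W x2 = x1 * Mx W x2 := by rw [hx4]; linear_combination h'
    exact mul_right_cancel₀ hM2 this
  refine ⟨x1, y1, hns, ?_⟩
  have h5P : (5 : ℤ) • Affine.Point.some x1 y1 hns
      = (Affine.Point.some x1 y1 hns + Affine.Point.some x1 y1 hns)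
        + (Affine.Point.some x1 y1 hns + Affine.Point.some x1 y1 hns)
        + Affine.Point.some x1 y1 hns := by
    rw [show (5 : ℤ) = 1 + 1 + 1 + 1 + 1 by norm_num]
    simp only [add_smul, one_smul]
    abel
  rw [h5P, h2P, h4P]
  rcases (Affine.Point.X_eq_iff (h₁ := hns4) (h₂ := hns)).mp hx41 with h | h
  · -- then the point would be killed by 3
    exfalso
    apply h31
    have h3 : Affine.Point.some x1 y1 hns + Affine.Point.some x1 y1 hns
        + Affine.Point.some x1 y1 hns = 0 := by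
      have h' := h4P
      rw [h, ← h2P, ← sub_eq_zero] at h'
      rw [← h']
      abel
    have hneg : Affine.Point.some x2 y2 hns2 = -Affine.Point.some x1 y1 hns := by
      rw [← h2P]
      exact eq_neg_of_add_eq_zero_left h3
    rw [Affine.Point.neg_some, Affine.Point.some.injEq] at hneg
    rw [P3x_eq, ← hx2, hneg.1]
    ring
  · rw [h]
    exact neg_add_cancel _

end Curve

end Fermat.Agent.S51.FiveExists
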