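/-
S51, descent part D1 (helper75): the Selmer-group computation for `y^2 = x(x-1)(x-81)`.
Every rational point with `y != 0` can be translated by a 2-torsion point so that
`x`, `x - 1`, `x - 81` are all squares.
-/
import Fermat.Agent.S51.Descent15

set_option autoImplicit false

namespace Fermat.Agent.S51.Descent

/-- Squarefree part of a positive integer `A` with `A * B` a square. -/
theorem sqfree_decomp {A B k : ℤ} (hA : 0 < A) (h : A * B = k ^ 2) :
    ∃ a s q : ℤ, 0 < a ∧ 0 < s ∧ Squarefree a ∧ A = a * s ^ 2 ∧ B = a * q ^ 2 := by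
  obtain ⟨a, s, ha, hs, has, hsq⟩ := Nat.sq_mul_squarefree_of_pos (n := A.toNat) (by omega)
  have hAcast : ((A.toNat : ℕ) : ℤ) = A := Int.toNat_of_nonneg hA.le
  have hA' : A = (a : ℤ) * (s : ℤ) ^ 2 := by
    rw [← hAcast, ← has]; push_cast; ring
  have hsqZ : Squarefree (a : ℤ) := Int.squarefree_natCast.mpr hsq
  have haZ : (0 : ℤ) < a := by exact_mod_cast ha
  have hsZ : (0 : ℤ) < s := by exact_mod_cast hs
  -- s ∣ k
  have hsk : (s : ℤ) ∣ k := by
    have : (s : ℤ) ^ 2 ∣ k ^ 2 := ⟨a * B, by rw [← h, hA']; ring⟩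
    exact (Int.pow_dvd_pow_iff (by norm_num)).mp this
  obtain ⟨k', rfl⟩ := hsk
  have h1 : (a : ℤ) * B = k' ^ 2 := by
    have : (s : ℤ) ^ 2 * ((a : ℤ) * B) = (s : ℤ) ^ 2 * k' ^ 2 := by
      rw [hA'] at h; linear_combination h
    exact mul_left_cancel₀ (pow_ne_zero 2 hsZ.ne') this
  have hak : (a : ℤ) ∣ k' := by
    have : (a : ℤ) ∣ k' ^ 2 := ⟨B, h1.symm⟩
    exact (hsqZ.dvd_pow_iff_dvd (by norm_num)).mp this
  obtain ⟨q, rfl⟩ := hak
  refine ⟨a, s, q, haZ, hsZ, hsqZ, hA', ?_⟩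
  have : (a : ℤ) * B = (a : ℤ) * (a * q ^ 2) := by rw [h1]; ring
  exact mul_left_cancel₀ haZ.ne' this

/-- If `d` is squarefree and `d * X` is a square then `X = d * q^2`. -/
theorem eq_mul_sq_of_sqfree {d X k : ℤ} (hd : Squarefree d) (hd0 : d ≠ 0) (h : d * X = k ^ 2) :
    ∃ q : ℤ, X = d * q ^ 2 := by
  have hdk : d ∣ k := (hd.dvd_pow_iff_dvd (by norm_num)).mp ⟨X, h.symm⟩
  obtain ⟨q, rfl⟩ := hdk
  refine ⟨q, ?_⟩
  have : d * X = d * (d * q ^ 2) := by rw [h]; ring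
  exact mul_left_cancel₀ hd0 this

/-- A squarefree divisor of `c ^ 4` divides `c`. -/
theorem dvd_of_sqfree_dvd_pow {a c N : ℤ} (ha : Squarefree a) (hN : N ∣ c ^ 4) (h : a ∣ N) :
    a ∣ c :=
  (ha.dvd_pow_iff_dvd (by norm_num)).mp (h.trans hN)

/-- Integer form of the Selmer computation, case `x > 81`. -/
theorem selmer_int {m n k : ℤ} (hn : 0 < n) (hm : 81 * n < m) (hcop : IsCoprime m n)
    (hk : n * (m * ((m - n) * (m - 81 * n))) = k ^ 2) :
    ∃ a b e s t w : ℤ, 0 < a ∧ 0 < b ∧ 0 < e ∧ a ∣ 3 ∧ b ∣ 10 ∧ n = e ^ 2 ∧ m = a * s ^ 2 ∧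
      m - n = b * t ^ 2 ∧ m - 81 * n = a * b * w ^ 2 := by
  have hm0 : 0 < m := by linarith
  have hB0 : 0 < m - n := by linarith
  have hC0 : 0 < m - 81 * n := by linarith
  -- coprimality facts
  have hcop1 : IsCoprime n m := hcop.symm
  have hcopB : IsCoprime n (m - n) := by
    have := hcop1.add_mul_left_right (-1)
    simpa [sub_eq_add_neg] using this
  have hcopC : IsCoprime n (m - 81 * n) := by
    have := hcop1.add_mul_left_right (-81)
    have e1 : m - 81 * n = m + n * (-81) := by ring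
    rw [e1]; exact this
  have hcopn : IsCoprime n (m * ((m - n) * (m - 81 * n))) :=
    hcop1.mul_right (hcopB.mul_right hcopC)
  -- n is a square
  obtain ⟨e0, he0⟩ := Int.sq_of_isCoprime hcopn hk
  have hne : n = e0 ^ 2 := by
    rcases he0 with h | h
    · exact h
    · exfalso; nlinarith [sq_nonneg e0]
  have he0ne : e0 ≠ 0 := by rintro rfl; simp at hne; omega
  set e := |e0| with he
  have hepos : 0 < e := abs_pos.mpr he0ne
  have hne' : n = e ^ 2 := by rw [hne, he, sq_abs]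
  -- remove n from the square
  have hek : e ∣ k := by
    have : e ^ 2 ∣ k ^ 2 := ⟨m * ((m - n) * (m - 81 * n)), by rw [← hk, hne']⟩
    exact (Int.pow_dvd_pow_iff (by norm_num)).mp this
  obtain ⟨k1, rfl⟩ := hek
  have hk1 : m * ((m - n) * (m - 81 * n)) = k1 ^ 2 := by
    have : e ^ 2 * (m * ((m - n) * (m - 81 * n))) = e ^ 2 * k1 ^ 2 := by
      have h7 : e ^ 2 * (m * ((m - n) * (m - 81 * n))) =
          n * (m * ((m - n) * (m - 81 * n))) := by rw [← hne']
      rw [h7, hk]; ring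
    exact mul_left_cancel₀ (pow_ne_zero 2 hepos.ne') this
  -- squarefree parts of m and m - n
  obtain ⟨a, s, q, ha, hs, hasq, hma, hqa⟩ := sqfree_decomp hm0 hk1
  have hk1' : (m - n) * (m * (m - 81 * n)) = k1 ^ 2 := by linear_combination hk1
  obtain ⟨b, t, q', hb, ht, hbsq, hmb, hqb⟩ := sqfree_decomp hB0 hk1'
  -- a ∣ 3
  have ham : a ∣ m := ⟨s ^ 2, hma⟩
  have hbm : b ∣ m - n := ⟨t ^ 2, hmb⟩
  have han : IsCoprime a n := IsCoprime.of_isCoprime_of_dvd_left hcop ham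
  have hbn : IsCoprime b n := IsCoprime.of_isCoprime_of_dvd_left hcopB.symm hbm
  have ha3 : a ∣ 3 := by
    have h1 : a ∣ 81 * n ^ 2 := by
      have h2 : a ∣ (m - n) * (m - 81 * n) := ⟨q ^ 2, hqa⟩
      have h3 : a ∣ m * (m - 82 * n) := Dvd.dvd.mul_right ham _
      have := dvd_sub h2 h3
      have e1 : (m - n) * (m - 81 * n) - m * (m - 82 * n) = 81 * n ^ 2 := by ring
      rwa [e1] at this
    have h4 : a ∣ 81 := (han.pow_right (n := 2)).dvd_of_dvd_mul_right h1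
    exact dvd_of_sqfree_dvd_pow hasq (N := 81) (by norm_num) h4
  have hb10 : b ∣ 10 := by
    have h1 : b ∣ 80 * n ^ 2 := by
      have h2 : b ∣ m * (m - 81 * n) := ⟨q' ^ 2, hqb⟩
      have h3 : b ∣ (m - n) * (m - 80 * n) := Dvd.dvd.mul_right hbm _
      have := dvd_sub h3 h2
      have e1 : (m - n) * (m - 80 * n) - m * (m - 81 * n) = 80 * n ^ 2 := by ring
      rwa [e1] at this
    have h4 : b ∣ 80 := (hbn.pow_right (n := 2)).dvd_of_dvd_mul_right h1
    exact dvd_of_sqfree_dvd_pow hbsq (N := 80) (c := 10) ⟨125, by norm_num⟩ h4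
  -- a * b squarefree
  have hab : IsCoprime a b := by
    have hmB : IsCoprime m (m - n) := by
      have := hcop.add_mul_left_right (-1)
      have e1 : n + m * (-1) = n - m := by ring
      rw [e1] at this
      simpa [neg_sub] using this.neg_right
    exact (IsCoprime.of_isCoprime_of_dvd_left hmB ham).of_isCoprime_of_dvd_right hbm
  have habsq : Squarefree (a * b) := squarefree_mul_iff.mpr ⟨hab.isRelPrime, hasq, hbsq⟩
  -- the third factor
  have hst : s * t ∣ k1 := by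
    have : (s * t) ^ 2 ∣ k1 ^ 2 := ⟨a * b * (m - 81 * n), by
      rw [← hk1]
      nth_rewrite 1 [hma]
      rw [hmb]
      ring⟩
    exact (Int.pow_dvd_pow_iff (by norm_num)).mp this
  obtain ⟨k2, rfl⟩ := hst
  have hk2 : a * b * (m - 81 * n) = k2 ^ 2 := by
    have hst0 : (s * t) ^ 2 ≠ 0 := pow_ne_zero 2 (mul_pos hs ht).ne'
    have : (s * t) ^ 2 * (a * b * (m - 81 * n)) = (s * t) ^ 2 * k2 ^ 2 := by
      have h5 : (s * t) ^ 2 * (a * b * (m - 81 * n)) =
          (a * s ^ 2) * ((b * t ^ 2) * (m - 81 * n)) := by ring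
      rw [h5, ← hma, ← hmb, hk1]; ring
    exact mul_left_cancel₀ hst0 this
  obtain ⟨w, hw⟩ := eq_mul_sq_of_sqfree habsq (mul_pos ha hb).ne' hk2
  exact ⟨a, b, e, s, t, w, ha, hb, hepos, ha3, hb10, hne', hma, hmb, hw⟩

theorem zmod3_b1 : ∀ s e t : ZMod 3, 3 * s ^ 2 - e ^ 2 = 1 * t ^ 2 → e = 0 := by decide
theorem zmod3_b10 : ∀ s e t : ZMod 3, 3 * s ^ 2 - e ^ 2 = 10 * t ^ 2 → e = 0 := by decide
theorem zmod5_b5 : ∀ s e t : ZMod 5, 3 * s ^ 2 - e ^ 2 = 5 * t ^ 2 → s = 0 ∧ e = 0 := by decide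
theorem zmod8_b2 : ∀ s e w : ZMod 8, 3 * s ^ 2 - 81 * e ^ 2 = 6 * w ^ 2 → 4 * s = 0 ∧ 4 * e = 0 := by
  decide
theorem zmod8_A2 : ∀ s e t : ZMod 8, s ^ 2 - e ^ 2 = 2 * t ^ 2 →
    (4 * s = 0 ∧ 4 * e = 0) ∨ (e ^ 2 = 1 ∧ 4 * t = 0) := by decide
theorem zmod8_A2' : ∀ s e w : ZMod 8, s ^ 2 - 81 * e ^ 2 = 2 * w ^ 2 →
    (4 * s = 0 ∧ 4 * e = 0) ∨ (e ^ 2 = 1 ∧ 4 * w = 0) := by decide
theorem zmod8_A10 : ∀ s e t : ZMod 8, s ^ 2 - e ^ 2 = 10 * t ^ 2 →
    (4 * s = 0 ∧ 4 * e = 0) ∨ (e ^ 2 = 1 ∧ 4 * t = 0) := by decide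
theorem zmod8_A10' : ∀ s e w : ZMod 8, s ^ 2 - 81 * e ^ 2 = 10 * w ^ 2 →
    (4 * s = 0 ∧ 4 * e = 0) ∨ (e ^ 2 = 1 ∧ 4 * w = 0) := by decide
theorem zmod8_B2 : ∀ e t w : ZMod 8, e ^ 2 = 1 → 10 * e ^ 2 = t ^ 2 - w ^ 2 → False := by decide
theorem zmod8_B10 : ∀ e t w : ZMod 8, e ^ 2 = 1 → 2 * e ^ 2 = t ^ 2 - w ^ 2 → False := by decide

theorem two_dvd_of_four_mul {x : ℤ} (h : (4 : ZMod 8) * (x : ZMod 8) = 0) : (2 : ℤ) ∣ x := by
  have h1 : ((4 * x : ℤ) : ZMod 8) = 0 := by push_cast; exact h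
  have h2 := (ZMod.intCast_zmod_eq_zero_iff_dvd (4 * x) 8).mp h1
  have h3 : ((8 : ℕ) : ℤ) = 8 := by norm_num
  rw [h3] at h2
  omega

theorem not_coprime_of_dvd {m n p : ℤ} (hcop : IsCoprime m n) (hm : p ∣ m) (hn : p ∣ n)
    (hp : 1 < p) : False := by
  have := hcop.isUnit_of_dvd' hm hn
  rcases Int.isUnit_iff.mp this with h | h <;> omega

/-- Elimination of the Selmer classes not coming from torsion (case `x > 81`). -/
theorem selmer_classes {m n a b e s t w : ℤ} (ha : 0 < a) (hb : 0 < b) (ha3 : a ∣ 3)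
    (hb10 : b ∣ 10) (hcop : IsCoprime m n) (hne : n = e ^ 2) (hma : m = a * s ^ 2)
    (hmb : m - n = b * t ^ 2) (hmc : m - 81 * n = a * b * w ^ 2) :
    a = 1 ∧ (b = 1 ∨ b = 5) := by
  have ha_le : a ≤ 3 := Int.le_of_dvd (by norm_num) ha3
  have hb_le : b ≤ 10 := Int.le_of_dvd (by norm_num) hb10
  have hI : a * s ^ 2 - e ^ 2 = b * t ^ 2 := by rw [← hma, ← hne]; exact hmb
  have hII : a * s ^ 2 - 81 * e ^ 2 = a * b * w ^ 2 := by rw [← hma, ← hne]; exact hmc
  have hen : e ∣ n := ⟨e, by rw [hne]; ring⟩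
  have hsm : s ∣ m := ⟨a * s, by rw [hma]; ring⟩
  interval_cases a
  · -- a = 1
    refine ⟨rfl, ?_⟩
    interval_cases b
    · left; rfl
    · -- b = 2
      exfalso
      have hIz := congrArg (Int.cast : ℤ → ZMod 8) hI
      have hIIz := congrArg (Int.cast : ℤ → ZMod 8) hII
      push_cast at hIz hIIz
      simp only [one_mul] at hIz hIIz
      rcases zmod8_A2 _ _ _ hIz with ⟨h1, h2⟩ | ⟨he1, ht⟩
      · exact not_coprime_of_dvd hcop ((two_dvd_of_four_mul h1).trans hsm)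
          ((two_dvd_of_four_mul h2).trans hen) (by norm_num)
      rcases zmod8_A2' _ _ _ hIIz with ⟨h1, h2⟩ | ⟨-, hw⟩
      · exact not_coprime_of_dvd hcop ((two_dvd_of_four_mul h1).trans hsm)
          ((two_dvd_of_four_mul h2).trans hen) (by norm_num)
      obtain ⟨t', rfl⟩ := two_dvd_of_four_mul ht
      obtain ⟨w', rfl⟩ := two_dvd_of_four_mul hw
      have h10 : 10 * e ^ 2 = t' ^ 2 - w' ^ 2 := by linarith
      have h10z := congrArg (Int.cast : ℤ → ZMod 8) h10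
      push_cast at h10z
      exact zmod8_B2 _ _ _ he1 h10z
    · omega
    · omega
    · right; rfl
    · omega
    · omega
    · omega
    · omega
    · -- b = 10
      exfalso
      have hIz := congrArg (Int.cast : ℤ → ZMod 8) hI
      have hIIz := congrArg (Int.cast : ℤ → ZMod 8) hII
      push_cast at hIz hIIz
      simp only [one_mul] at hIz hIIz
      rcases zmod8_A10 _ _ _ hIz with ⟨h1, h2⟩ | ⟨he1, ht⟩
      · exact not_coprime_of_dvd hcop ((two_dvd_of_four_mul h1).trans hsm)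
          ((two_dvd_of_four_mul h2).trans hen) (by norm_num)
      rcases zmod8_A10' _ _ _ hIIz with ⟨h1, h2⟩ | ⟨-, hw⟩
      · exact not_coprime_of_dvd hcop ((two_dvd_of_four_mul h1).trans hsm)
          ((two_dvd_of_four_mul h2).trans hen) (by norm_num)
      obtain ⟨t', rfl⟩ := two_dvd_of_four_mul ht
      obtain ⟨w', rfl⟩ := two_dvd_of_four_mul hw
      have h2 : 2 * e ^ 2 = t' ^ 2 - w' ^ 2 := by linarith
      have h2z := congrArg (Int.cast : ℤ → ZMod 8) h2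
      push_cast at h2z
      exact zmod8_B10 _ _ _ he1 h2z
  · omega
  · -- a = 3
    exfalso
    have h3m : (3 : ℤ) ∣ m := ⟨s ^ 2, hma⟩
    interval_cases b
    · -- b = 1
      have hIz := congrArg (Int.cast : ℤ → ZMod 3) hI
      push_cast at hIz
      have he0 := zmod3_b1 _ _ _ hIz
      have h3e : ((3 : ℕ) : ℤ) ∣ e := (ZMod.intCast_zmod_eq_zero_iff_dvd e 3).mp he0
      exact not_coprime_of_dvd hcop h3m (by exact_mod_cast h3e.trans hen) (by norm_num)
    · -- b = 2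
      have hIIz := congrArg (Int.cast : ℤ → ZMod 8) hII
      push_cast at hIIz
      have hIIz' : (3 : ZMod 8) * (s : ZMod 8) ^ 2 - 81 * (e : ZMod 8) ^ 2 = 6 * (w : ZMod 8) ^ 2 := by
        rw [hIIz]
      obtain ⟨h1, h2⟩ := zmod8_b2 _ _ _ hIIz'
      exact not_coprime_of_dvd hcop ((two_dvd_of_four_mul h1).trans hsm)
          ((two_dvd_of_four_mul h2).trans hen) (by norm_num)
    · omega
    · omega
    · -- b = 5
      have hIz := congrArg (Int.cast : ℤ → ZMod 5) hI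
      push_cast at hIz
      obtain ⟨hs0, he0⟩ := zmod5_b5 _ _ _ hIz
      have h5s : ((5 : ℕ) : ℤ) ∣ s := (ZMod.intCast_zmod_eq_zero_iff_dvd s 5).mp hs0
      have h5e : ((5 : ℕ) : ℤ) ∣ e := (ZMod.intCast_zmod_eq_zero_iff_dvd e 5).mp he0
      exact not_coprime_of_dvd hcop (by exact_mod_cast h5s.trans hsm)
        (by exact_mod_cast h5e.trans hen) (by norm_num)
    · omega
    · omega
    · omega
    · omega
    · -- b = 10
      have hIz := congrArg (Int.cast : ℤ → ZMod 3) hI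
      push_cast at hIz
      have he0 := zmod3_b10 _ _ _ hIz
      have h3e : ((3 : ℕ) : ℤ) ∣ e := (ZMod.intCast_zmod_eq_zero_iff_dvd e 3).mp he0
      exact not_coprime_of_dvd hcop h3m (by exact_mod_cast h3e.trans hen) (by norm_num)

/-- Selmer computation for `x > 81`, rational form. -/
theorem selmer_pos {x y : ℚ} (hx : 81 < x) (h : y ^ 2 = x * (x - 1) * (x - 81)) :
    IsSquare x ∧ ((IsSquare (x - 1) ∧ IsSquare (x - 81)) ∨
      (IsSquare (5 * (x - 1)) ∧ IsSquare (5 * (x - 81)))) := by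
  set m : ℤ := x.num with hm
  set n : ℤ := (x.den : ℤ) with hn
  have hnpos : 0 < n := by simp [hn, Rat.den_pos]
  have hnQ : (n : ℚ) ≠ 0 := by exact_mod_cast hnpos.ne'
  have hxn : x * (n : ℚ) = (m : ℚ) := by
    rw [hn, hm]; exact_mod_cast Rat.mul_den_eq_num x
  have hcop : IsCoprime m n := Rat.isCoprime_num_den x
  have hmn : 81 * n < m := by
    have : (81 : ℚ) * n < m := by
      rw [← hxn]; exact mul_lt_mul_of_pos_right hx (by exact_mod_cast hnpos)
    exact_mod_cast this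
  obtain ⟨k, hk⟩ : ∃ k : ℤ, y * (n : ℚ) ^ 2 = (k : ℚ) := by
    apply exists_int_of_sq_eq_int (n := n * (m * ((m - n) * (m - 81 * n))))
    push_cast
    rw [mul_pow, h, ← hxn]; ring
  have hkZ : n * (m * ((m - n) * (m - 81 * n))) = k ^ 2 := by
    have : ((n * (m * ((m - n) * (m - 81 * n))) : ℤ) : ℚ) = ((k ^ 2 : ℤ) : ℚ) := by
      push_cast
      rw [← hk, mul_pow, h, ← hxn]; ring
    exact_mod_cast this
  obtain ⟨a, b, e, s, t, w, ha, hb, he, ha3, hb10, hne, hma, hmb, hmc⟩ :=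
    selmer_int hnpos hmn hcop hkZ
  obtain ⟨rfl, hb15⟩ := selmer_classes ha hb ha3 hb10 hcop hne hma hmb hmc
  have heQ : (e : ℚ) ≠ 0 := by exact_mod_cast he.ne'
  have hx_eq : x = (m : ℚ) / (n : ℚ) := by rw [← hxn]; field_simp
  have hnQ' : (n : ℚ) = (e : ℚ) ^ 2 := by exact_mod_cast hne
  have hmQ : (m : ℚ) = (s : ℚ) ^ 2 := by
    have : m = s ^ 2 := by rw [hma]; ring
    exact_mod_cast this
  have hx1 : x = ((s : ℚ) / e) * ((s : ℚ) / e) := by
    rw [hx_eq, hmQ, hnQ']; field_simp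
  refine ⟨⟨(s : ℚ) / e, hx1⟩, ?_⟩
  rcases hb15 with rfl | rfl
  · left
    have hmbQ : (m : ℚ) - n = (t : ℚ) ^ 2 := by
      have : m - n = t ^ 2 := by rw [hmb]; ring
      exact_mod_cast this
    have hmcQ : (m : ℚ) - 81 * n = (w : ℚ) ^ 2 := by
      have : m - 81 * n = w ^ 2 := by rw [hmc]; ring
      exact_mod_cast this
    constructor
    · refine ⟨(t : ℚ) / e, ?_⟩
      have : x - 1 = ((m : ℚ) - n) / n := by rw [hx_eq]; field_simp
      rw [this, hmbQ, hnQ']; field_simp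
    · refine ⟨(w : ℚ) / e, ?_⟩
      have : x - 81 = ((m : ℚ) - 81 * n) / n := by rw [hx_eq]; field_simp
      rw [this, hmcQ, hnQ']; field_simp
  · right
    have hmbQ : (m : ℚ) - n = 5 * (t : ℚ) ^ 2 := by
      have : m - n = 5 * t ^ 2 := by rw [hmb]
      exact_mod_cast this
    have hmcQ : (m : ℚ) - 81 * n = 5 * (w : ℚ) ^ 2 := by
      have : m - 81 * n = 5 * w ^ 2 := by rw [hmc]; ring
      exact_mod_cast this
    constructor
    · refine ⟨5 * (t : ℚ) / e, ?_⟩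
      have : x - 1 = ((m : ℚ) - n) / n := by rw [hx_eq]; field_simp
      rw [this, hmbQ, hnQ']; field_simp
    · refine ⟨5 * (w : ℚ) / e, ?_⟩
      have : x - 81 = ((m : ℚ) - 81 * n) / n := by rw [hx_eq]; field_simp
      rw [this, hmcQ, hnQ']; field_simp

/-- From the class `(1,5,5)` to the trivial class by translation by the point `(81,0)`. -/
theorem class_five {x : ℚ} (hx : 81 < x) (h1 : IsSquare x) (h2 : IsSquare (5 * (x - 1)))
    (h3 : IsSquare (5 * (x - 81))) :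
    IsSquare (81 * (x - 1) / (x - 81)) ∧ IsSquare (81 * (x - 1) / (x - 81) - 1) ∧
      IsSquare (81 * (x - 1) / (x - 81) - 81) := by
  obtain ⟨r, hr⟩ := h1
  obtain ⟨p, hp⟩ := h2
  obtain ⟨q, hq⟩ := h3
  have hx81 : x - 81 ≠ 0 := by linarith
  have hq0 : q ≠ 0 := by
    rintro rfl
    apply hx81
    have : 5 * (x - 81) = 0 := by rw [hq]; ring
    linarith
  have hq' : x - 81 = q * q / 5 := by rw [← hq]; ring
  have hp' : x - 1 = p * p / 5 := by rw [← hp]; ring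
  refine ⟨⟨9 * p / q, ?_⟩, ⟨20 * r / q, ?_⟩, ⟨180 / q, ?_⟩⟩
  · rw [hp', hq']; field_simp; ring
  · have : 81 * (x - 1) / (x - 81) - 1 = 80 * x / (x - 81) := by field_simp; ring
    rw [this, hq', hr]; field_simp; ring
  · have : 81 * (x - 1) / (x - 81) - 81 = 6480 / (x - 81) := by field_simp; ring
    rw [this, hq']; field_simp; ring

theorem selmerProp : SelmerProp := by
  intro x y hy h
  have hpos : 0 < x * (x - 1) * (x - 81) := by rw [← h]; positivity
  by_cases hx : 81 < x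
  · obtain ⟨h1, ⟨h2, h3⟩ | ⟨h2, h3⟩⟩ := selmer_pos hx h
    · exact ⟨x, Or.inl rfl, h1, h2, h3⟩
    · obtain ⟨g1, g2, g3⟩ := class_five hx h1 h2 h3
      exact ⟨81 * (x - 1) / (x - 81), Or.inr (Or.inr (Or.inr rfl)), g1, g2, g3⟩
  · -- then 0 < x < 1; move to 81 / x
    have hx' : x ≤ 81 := not_lt.mp hx
    have hx01 : 0 < x ∧ x < 1 := by
      rcases pos_and_pos_or_neg_and_neg_of_mul_pos hpos with ⟨_, h81⟩ | ⟨hneg, _⟩
      · exfalso; linarith
      · rcases mul_neg_iff.mp hneg with ⟨h0, h1⟩ | ⟨h0, h1⟩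
        · exact ⟨h0, by linarith⟩
        · exfalso; linarith
    obtain ⟨hx0, hx1⟩ := hx01
    have hxne : x ≠ 0 := hx0.ne'
    have hX : 81 < 81 / x := by
      rw [lt_div_iff₀ hx0]; nlinarith
    have hcurve : (81 * y / x ^ 2) ^ 2 = (81 / x) * (81 / x - 1) * (81 / x - 81) := by
      rw [div_pow, mul_pow, h]; field_simp; ring
    obtain ⟨h1, ⟨h2, h3⟩ | ⟨h2, h3⟩⟩ := selmer_pos hX hcurve
    · exact ⟨81 / x, Or.inr (Or.inl rfl), h1, h2, h3⟩
    · obtain ⟨g1, g2, g3⟩ := class_five hX h1 h2 h3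
      have hx1' : x - 1 ≠ 0 := by linarith
      have hx81' : x - 81 ≠ 0 := by linarith
      have e1 : 81 * (81 / x - 1) / (81 / x - 81) = (x - 81) / (x - 1) := by
        have h1x : (1 : ℚ) - x ≠ 0 := by linarith
        have a1 : 81 / x - 1 = (81 - x) / x := by field_simp
        have a2 : 81 / x - 81 = 81 * (1 - x) / x := by field_simp
        rw [a1, a2]
        field_simp
        ring
      rw [e1] at g1 g2 g3
      exact ⟨(x - 81) / (x - 1), Or.inr (Or.inr (Or.inl rfl)), g1, g2, g3⟩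

end Fermat.Agent.S51.Descent
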