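/-
S51, descent (helper75): rational points of `y^2 = x(x-1)(x-81)` and of 15a1 `y^2 = x(x+16)(x+25)`.
-/
import Fermat.Agent.S51.Descent15
import Fermat.Agent.S51.Selmer15

set_option autoImplicit false

namespace Fermat.Agent.S51.Descent

/-- The only rational points of `y^2 = x(x-1)(x-81)` are the 2-torsion points. -/
theorem no_points_Ebar (x y : ℚ) (h : y ^ 2 = x * (x - 1) * (x - 81)) : y = 0 :=
  no_points_Ebar_of_selmer selmerProp x y h

/-- The rational points of 15a1 : `y^2 = x(x+16)(x+25)`. -/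
theorem rat_points_15a (x y : ℚ) (h : y ^ 2 = x * (x + 16) * (x + 25)) :
    y = 0 ∨ (x = 20 ∧ (y = 180 ∨ y = -180)) ∨ (x = -20 ∧ (y = 20 ∨ y = -20)) :=
  rat_points_15a_of no_points_Ebar x y h

end Fermat.Agent.S51.Descent
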