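import Mathlib

set_option autoImplicit false

namespace Fermat.Agent.S51.Three

open WeierstrassCurve WeierstrassCurve.Affine WeierstrassCurve.Affine.Point Polynomial

variable {F : Type*} [Field F]

section Alg

variable (W : Affine F)

lemma eval_Psi2Sq (x : F) :
    W.Ψ₂Sq.eval x = 4 * x ^ 3 + W.b₂ * x ^ 2 + 2 * W.b₄ * x + W.b₆ := by
  simp [WeierstrassCurve.Ψ₂Sq]

lemma eval_Psi3 (x : F) :
    W.Ψ₃.eval x = 3 * x ^ 4 + W.b₂ * x ^ 3 + 3 * W.b₄ * x ^ 2 + 3 * W.b₆ * x + W.b₈ := by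
  simp [WeierstrassCurve.Ψ₃]

/-- `ψ₂² = Ψ₂Sq` on the curve. -/
lemma psi2_sq_eq {x y : F} (h : W.Equation x y) :
    (y - W.negY x y) ^ 2 = W.Ψ₂Sq.eval x := by
  rw [eval_Psi2Sq, negY]
  rw [equation_iff] at h
  simp only [b₂, b₄, b₆]
  linear_combination 4 * h

/-- If `Ψ₃` and `Ψ₂Sq` vanish simultaneously then `Δ = 0`. -/
lemma Delta_eq_zero_of_eval_eq_zero [CharZero F] {x : F} (h3 : W.Ψ₃.eval x = 0)
    (h2 : W.Ψ₂Sq.eval x = 0) : W.Δ = 0 := by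
  rw [eval_Psi3] at h3
  rw [eval_Psi2Sq] at h2
  have h8 : 4 * W.b₈ = W.b₂ * W.b₆ - W.b₄ ^ 2 := W.b_relation
  -- derivative vanishes
  have hd : (12 * x ^ 2 + 2 * W.b₂ * x + 2 * W.b₄) ^ 2 = 0 := by
    linear_combination (2 * (24 * x + 2 * W.b₂)) * h2 - 16 * h3 + 4 * h8
  have hd' : 12 * x ^ 2 + 2 * W.b₂ * x + 2 * W.b₄ = 0 := by
    exact pow_eq_zero_iff (two_ne_zero) |>.mp hd
  have h16 : 16 * W.Δ = 0 := by
    have hΔ : W.Δ = -W.b₂ ^ 2 * W.b₈ - 8 * W.b₄ ^ 3 - 27 * W.b₆ ^ 2 + 9 * W.b₂ * W.b₄ * W.b₆ := rfl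
    rw [hΔ]
    linear_combination
      (-24*x*W.b₂^2 + 576*x*W.b₄ - 4*W.b₂^3 + 120*W.b₂*W.b₄ - 432*W.b₆) * h2
      + (8*x^2*W.b₂^2 - 192*x^2*W.b₄ + 2*x*W.b₂^3 - 56*x*W.b₂*W.b₄ + 144*x*W.b₆
          + 2*W.b₂^2*W.b₄ + 12*W.b₂*W.b₆ - 64*W.b₄^2) * hd' - 4 * W.b₂ ^ 2 * h8
  have : (16 : F) ≠ 0 := by norm_num
  exact (mul_eq_zero.mp h16).resolve_left this

end Alg

section Pts

variable [DecidableEq F] (W : Affine F)

omit [DecidableEq F] in
lemma dbl_aux (x y a₁ a₂ a₃ a₄ a₆ ℓ ψ : F) (hψ : ψ = 2 * y + a₁ * x + a₃)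
    (hℓ : ℓ * ψ = 3 * x ^ 2 + 2 * a₂ * x + a₄ - a₁ * y)
    (h : y ^ 2 + a₁ * x * y + a₃ * y = x ^ 3 + a₂ * x ^ 2 + a₄ * x + a₆) :
    (ℓ ^ 2 + a₁ * ℓ - a₂ - x - x) * ψ ^ 2 =
      x ^ 4 - (2 * a₄ + a₁ * a₃) * x ^ 2 - 2 * (a₃ ^ 2 + 4 * a₆) * x -
        (a₁ ^ 2 * a₆ + 4 * a₂ * a₆ - a₁ * a₃ * a₄ + a₂ * a₃ ^ 2 - a₄ ^ 2) := by
  subst hψ
  linear_combination (ℓ * (2 * y + a₁ * x + a₃) + (3 * x ^ 2 + 2 * a₂ * x + a₄ - a₁ * y)
    + a₁ * (2 * y + a₁ * x + a₃)) * hℓ + (-8 * x - a₁ ^ 2 - 4 * a₂) * h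

lemma dbl_addX {x y : F} (h : W.Equation x y) (hy : y ≠ W.negY x y) :
    W.addX x x (W.slope x x y y) * W.Ψ₂Sq.eval x =
      x ^ 4 - W.b₄ * x ^ 2 - 2 * W.b₆ * x - W.b₈ := by
  rw [slope_of_Y_ne rfl hy, ← psi2_sq_eq W h]
  have hne : y - W.negY x y ≠ 0 := sub_ne_zero.mpr hy
  rw [equation_iff] at h
  simp only [addX, b₄, b₆, b₈]
  exact dbl_aux x y W.a₁ W.a₂ W.a₃ W.a₄ W.a₆ _ _ (by rw [negY]; ring) (div_mul_cancel₀ _ hne) h

lemma three_zsmul (P : W.Point) : (3 : ℤ) • P = P + P + P := by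
  rw [show (3 : ℤ) = 1 + 1 + 1 by norm_num, add_smul, add_smul, one_smul]

lemma three_zsmul_some_eq_zero_iff [CharZero F] (hΔ : W.Δ ≠ 0) {x y : F} (h : W.Nonsingular x y) :
    (3 : ℤ) • (some x y h) = 0 ↔ W.Ψ₃.eval x = 0 := by
  rw [three_zsmul, add_eq_zero_iff_eq_neg]
  by_cases hy : y = W.negY x y
  · rw [add_self_of_Y_eq hy]
    constructor
    · intro h0
      exact absurd (neg_eq_zero.mp h0.symm) (some_ne_zero h)
    · intro h3
      exfalso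
      have h2 : W.Ψ₂Sq.eval x = 0 := by
        rw [← psi2_sq_eq W h.1, sub_eq_zero.mpr hy]; ring
      exact hΔ (Delta_eq_zero_of_eval_eq_zero W h3 h2)
  · have hne : y - W.negY x y ≠ 0 := sub_ne_zero.mpr hy
    have h2 : W.Ψ₂Sq.eval x ≠ 0 := by
      rw [← psi2_sq_eq W h.1]; exact pow_ne_zero 2 hne
    have hx := dbl_addX W h.1 hy
    have key : (W.addX x x (W.slope x x y y) - x) * W.Ψ₂Sq.eval x = - W.Ψ₃.eval x := by
      rw [sub_mul, hx, eval_Psi3, eval_Psi2Sq]; ring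
    rw [add_self_of_Y_ne hy]
    constructor
    · intro h0
      rw [neg_some] at h0
      have hx' : W.addX x x (W.slope x x y y) = x := by
        injection h0
      rw [hx', sub_self, zero_mul] at key
      exact neg_eq_zero.mp key.symm
    · intro h3
      rw [h3, _root_.neg_zero] at key
      have hx' : W.addX x x (W.slope x x y y) = x :=
        sub_eq_zero.mp ((mul_eq_zero.mp key).resolve_right h2)
      rcases (X_eq_iff (h₁ := nonsingular_add h h fun hxy => hy hxy.right) (h₂ := h)).mp hx'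
        with h1 | h1
      · exfalso
        have : some x y h + some x y h = some x y h := by
          rw [add_self_of_Y_ne hy]; exact h1
        have h0 : some x y h = 0 := by
          have := add_eq_right.mp this  -- a + b = b → a = 0
          exact this
        exact some_ne_zero h h0
      · exact h1


/-- The quadratic in `Y` cut out by the curve at a fixed `x`. -/
noncomputable def yPoly (x : F) : F[X] :=
  X ^ 2 + C (W.a₁ * x + W.a₃) * X - C (x ^ 3 + W.a₂ * x ^ 2 + W.a₄ * x + W.a₆)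

omit [DecidableEq F] in
lemma yPoly_monic (x : F) : (yPoly W x).Monic := by
  unfold yPoly
  monicity!

omit [DecidableEq F] in
lemma yPoly_natDegree (x : F) : (yPoly W x).natDegree = 2 := by
  unfold yPoly
  compute_degree!

omit [DecidableEq F] in
lemma yPoly_eval (x y : F) : (yPoly W x).eval y = 0 ↔ W.Equation x y := by
  rw [equation_iff]
  simp only [yPoly, eval_sub, eval_add, eval_pow, eval_X, eval_mul, eval_C]
  constructor <;> intro h <;> linear_combination h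

def pairOf : W.Point → Option (F × F)
  | .zero => none
  | .some x y _ => Option.some (x, y)

omit [DecidableEq F] in
lemma pairOf_injective : Function.Injective (pairOf W) := by
  rintro (_ | ⟨x₁, y₁, h₁⟩) (_ | ⟨x₂, y₂, h₂⟩) h <;>
    simp only [pairOf, Option.some.injEq, Prod.mk.injEq, reduceCtorEq] at h
  · rfl
  · obtain ⟨rfl, rfl⟩ := h; rfl

/-- Candidate finite set containing all nonzero 3-torsion points. -/
noncomputable def cand3 : Finset (Option (F × F)) :=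
  insert none ((W.Ψ₃.roots.toFinset.biUnion fun x =>
    (yPoly W x).roots.toFinset.image fun y => (x, y)).image Option.some)

lemma card_cand3_le [CharZero F] : (cand3 W).card ≤ 9 := by
  unfold cand3
  refine (Finset.card_insert_le _ _).trans ?_
  have h1 : (W.Ψ₃.roots.toFinset.biUnion fun x =>
      (yPoly W x).roots.toFinset.image fun y => (x, y)).card ≤ 4 * 2 := by
    refine (Finset.card_biUnion_le).trans ?_
    have hroots : W.Ψ₃.roots.toFinset.card ≤ 4 :=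
      (Multiset.toFinset_card_le _).trans ((card_roots' _).trans W.natDegree_Ψ₃_le)
    calc ∑ x ∈ W.Ψ₃.roots.toFinset, ((yPoly W x).roots.toFinset.image fun y => (x, y)).card
        ≤ ∑ _x ∈ W.Ψ₃.roots.toFinset, 2 := by
          refine Finset.sum_le_sum fun x _ => ?_
          refine Finset.card_image_le.trans ?_
          refine (Multiset.toFinset_card_le _).trans ((card_roots' _).trans ?_)
          rw [yPoly_natDegree]
      _ = W.Ψ₃.roots.toFinset.card * 2 := by rw [Finset.sum_const, smul_eq_mul]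
      _ ≤ 4 * 2 := Nat.mul_le_mul_right 2 hroots
  have h2 := Finset.card_image_le (s := W.Ψ₃.roots.toFinset.biUnion fun x =>
      (yPoly W x).roots.toFinset.image fun y => (x, y)) (f := Option.some)
  omega


end Pts

lemma exists_t_of_root [CharZero F] (E : WeierstrassCurve F) (hΔ : E.Δ ≠ 0) {x : F}
    (h3 : E.Ψ₃.eval x = 0) :
    ∃ t : F, t ≠ 0 ∧ E.c₄ ^ 3 * t = E.Δ * (t + 27) * (t + 3) ^ 3 := by
  have hv : E.Ψ₂Sq.eval x ≠ 0 := fun h2 => hΔ (Delta_eq_zero_of_eval_eq_zero E.toAffine h3 h2)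
  rw [eval_Psi3] at h3
  rw [eval_Psi2Sq] at hv
  have h8 : 4 * E.b₈ = E.b₂ * E.b₆ - E.b₄ ^ 2 := E.b_relation
  obtain ⟨v, hvdef⟩ : ∃ v, v = 4 * x ^ 3 + E.b₂ * x ^ 2 + 2 * E.b₄ * x + E.b₆ := ⟨_, rfl⟩
  obtain ⟨u, hudef⟩ : ∃ u, u = 6 * x ^ 2 + E.b₂ * x + E.b₄ := ⟨_, rfl⟩
  rw [← hvdef] at hv
  have R1 : (E.b₂ + 12 * x) * v = u ^ 2 := by
    rw [hvdef, hudef]; linear_combination 4 * h3 - h8
  have R2 : E.c₄ = (E.b₂ + 12 * x) ^ 2 - 24 * u := by
    rw [hudef, c₄]; ring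
  have R3 : E.Δ = u ^ 3 - 27 * v ^ 2 := by
    have hΔ' : E.Δ = -E.b₂ ^ 2 * E.b₈ - 8 * E.b₄ ^ 3 - 27 * E.b₆ ^ 2 + 9 * E.b₂ * E.b₄ * E.b₆ := rfl
    rw [hΔ', hvdef, hudef]
    linear_combination (72*x^2 + 12*x*E.b₂ - E.b₂^2 + 36*E.b₄) * h3
      + (-18*x^2 - 3*x*E.b₂ - 9*E.b₄) * h8
  have R4 : E.c₄ * v ^ 2 = u * (u ^ 3 - 24 * v ^ 2) := by
    rw [R2]; linear_combination ((E.b₂ + 12 * x) * v + u ^ 2) * R1
  refine ⟨E.Δ / v ^ 2, div_ne_zero hΔ (pow_ne_zero 2 hv), ?_⟩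
  have hv2 : v ^ 2 ≠ 0 := pow_ne_zero 2 hv
  have e1 : E.Δ / v ^ 2 + 27 = u ^ 3 / v ^ 2 := by
    rw [R3]; field_simp; ring
  have e2 : E.Δ / v ^ 2 + 3 = (u ^ 3 - 24 * v ^ 2) / v ^ 2 := by
    rw [R3]; field_simp; ring
  have e3 : E.c₄ = u * (u ^ 3 - 24 * v ^ 2) / v ^ 2 := by
    rw [eq_div_iff hv2, R4]
  rw [e1, e2, e3]
  field_simp


end Fermat.Agent.S51.Three
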