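import Fermat.Agent.S51.ThreeAlg

set_option autoImplicit false

namespace Fermat.Agent.S51.Three

open WeierstrassCurve WeierstrassCurve.Affine WeierstrassCurve.Affine.Point Polynomial

variable {K : Type*} [Field K] [DecidableEq K] [CharZero K] (W : Affine K)

/-- The `3`-torsion submodule in the shape used by the frozen definitions. -/
abbrev T3 : Submodule ℤ W.Point := Submodule.torsionBy ℤ W.Point ((3 : ℕ) : ℤ)

omit [CharZero K] in
lemma mem_T3_iff (P : W.Point) : P ∈ T3 W ↔ (3 : ℤ) • P = 0 := by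
  rw [Submodule.mem_torsionBy_iff]
  norm_num

lemma pairOf_mem_cand3 (hΔ : W.Δ ≠ 0) {P : W.Point} (hP : P ∈ T3 W) : pairOf W P ∈ cand3 W := by
  rw [mem_T3_iff] at hP
  rcases P with _ | ⟨x, y, h⟩
  · exact Finset.mem_insert_self _ _
  · have h3 : W.Ψ₃.eval x = 0 := (three_zsmul_some_eq_zero_iff W hΔ h).mp hP
    have h3ne : W.Ψ₃ ≠ 0 := W.Ψ₃_ne_zero (by norm_num)
    refine Finset.mem_insert_of_mem (Finset.mem_image.mpr ⟨(x, y), ?_, rfl⟩)
    refine Finset.mem_biUnion.mpr ⟨x, ?_, Finset.mem_image.mpr ⟨y, ?_, rfl⟩⟩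
    · rw [Multiset.mem_toFinset, mem_roots h3ne]; exact h3
    · rw [Multiset.mem_toFinset, mem_roots (yPoly_monic W x).ne_zero, IsRoot.def, yPoly_eval]
      exact h.1

/-- The injection of the `3`-torsion into the finite candidate set. -/
noncomputable def toCand (hΔ : W.Δ ≠ 0) : T3 W → {z // z ∈ cand3 W} :=
  fun P => ⟨pairOf W P.1, pairOf_mem_cand3 W hΔ P.2⟩

lemma toCand_injective (hΔ : W.Δ ≠ 0) : Function.Injective (toCand W hΔ) := by
  intro P Q h
  apply Subtype.ext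
  apply pairOf_injective W
  exact congrArg Subtype.val h

lemma finite_T3 (hΔ : W.Δ ≠ 0) : Finite (T3 W) :=
  Finite.of_injective _ (toCand_injective W hΔ)

lemma card_T3_le (hΔ : W.Δ ≠ 0) : Nat.card (T3 W) ≤ 9 := by
  have h := Nat.card_le_card_of_injective _ (toCand_injective W hΔ)
  have h2 : Nat.card {z // z ∈ cand3 W} = (cand3 W).card := by
    rw [Nat.card_eq_fintype_card, Fintype.card_coe]
  rw [h2] at h
  exact h.trans (card_cand3_le W)

lemma exists_ne_zero_mem_T3 [IsAlgClosed K] (hΔ : W.Δ ≠ 0) : ∃ P : W.Point, P ∈ T3 W ∧ P ≠ 0 := by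
  have hdeg : W.Ψ₃.degree ≠ 0 := by
    rw [degree_eq_natDegree (W.Ψ₃_ne_zero (by norm_num)), W.natDegree_Ψ₃ (by norm_num)]
    norm_num
  obtain ⟨x, hx⟩ := IsAlgClosed.exists_root W.Ψ₃ hdeg
  have hdeg2 : (yPoly W x).degree ≠ 0 := by
    rw [degree_eq_natDegree (yPoly_monic W x).ne_zero, yPoly_natDegree]
    norm_num
  obtain ⟨y, hy⟩ := IsAlgClosed.exists_root (yPoly W x) hdeg2
  have heq : W.Equation x y := (yPoly_eval W x y).mp hy
  have hns : W.Nonsingular x y := (equation_iff_nonsingular_of_Δ_ne_zero hΔ).mp heq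
  refine ⟨some x y hns, ?_, some_ne_zero hns⟩
  rw [mem_T3_iff]
  exact (three_zsmul_some_eq_zero_iff W hΔ hns).mpr hx

end Fermat.Agent.S51.Three
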