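import Mathlib

set_option autoImplicit false

/-!
Rational points of the plane model `(t+27)(t+3)^3 s = (s^2+10s+5)^3 t` of the modular curve of
level fifteen, assuming the rational points of `y^2 = x(x+16)(x+25)` are known.
Route: `(t,s) ↦ h` (the generator of the function field of the Atkin-Lehner quotient),
then the quartic model `w^2 = h^4 - 10h^3 - 13h^2 + 10h + 1`, then the Weierstrass cubic.
-/

namespace Fermat.Agent.S51.X015Quartic

/-- numerator of `h` as a function of `(t,s)` -/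
def Nh (t s : ℚ) : ℚ :=
  (-3125 - 225*s + 9*s^2 - 25*s^3 - 54*s^4 - 15*s^5 - s^6)
    + (6750*s + 6063*s^2 + 1740*s^3 + 210*s^4 + 9*s^5) * t
    + (900*s + 254*s^2 + 25*s^3 + s^4) * t^2
    + (25*s + 3*s^2) * t^3

/-- denominator of `h` as a function of `s` -/
def Dh (s : ℚ) : ℚ := s * (s^2 + 4*s - 1) * (s^2 + 10*s + 5)^2

theorem not_sq_five (r : ℚ) : r ^ 2 ≠ 5 := by
  intro h
  have h5 : IsSquare (5 : ℚ) := ⟨r, by rw [← h]; ring⟩
  have : IsSquare ((5 : ℕ) : ℚ) := by exact_mod_cast h5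
  rw [Rat.isSquare_natCast_iff] at this
  obtain ⟨k, hk⟩ := this
  have hk3 : k < 3 := by nlinarith
  interval_cases k <;> omega

theorem Dh_ne_zero (s : ℚ) (hs : s ≠ 0) : Dh s ≠ 0 := by
  unfold Dh
  have h1 : s^2 + 4*s - 1 ≠ 0 := by
    intro h
    exact not_sq_five (s + 2) (by linear_combination h)
  have h2 : s^2 + 10*s + 5 ≠ 0 := by
    intro h
    exact not_sq_five ((s + 5) / 2) (by linear_combination (1/4 : ℚ) * h)
  exact mul_ne_zero (mul_ne_zero hs h1) (pow_ne_zero 2 h2)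

/-- The key polynomial identity: the numerator of `G_s(h(t,s), s)` is a multiple of the
defining relation. -/
theorem key_num (t s : ℚ) (hF : (t+27)*(t+3)^3*s = (s^2+10*s+5)^3*t) :
    Nh t s * Dh s ^ 3 * s^2
      - (Nh t s ^ 4 - 9 * Nh t s ^ 3 * Dh s - 9 * Nh t s * Dh s ^ 3 - Dh s ^ 4) * s
      + 125 * Nh t s ^ 3 * Dh s = 0 := by
  unfold Nh Dh
  linear_combination
    (-81*t^8*s^8 - 2700*t^8*s^7 - 33750*t^8*s^6 - 187500*t^8*s^5
       - 390625*t^8*s^4 - 108*t^7*s^10 - 5400*t^7*s^9 - 114516*t^7*s^8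
       - 1310800*t^7*s^7 - 8492500*t^7*s^6 - 29375000*t^7*s^5 - 42187500*t^7*s^4
       - 54*t^6*s^12 - 4572*t^6*s^11 - 153024*t^6*s^10 - 2753220*t^6*s^9
       - 29708472*t^6*s^8 - 199084500*t^6*s^7 - 814455000*t^6*s^6 - 1866187500*t^6*s^5
       - 1835156250*t^6*s^4 - 12*t^5*s^14 - 1810*t^5*s^13 - 90120*t^5*s^12
       - 2356734*t^5*s^11 - 37800484*t^5*s^10 - 396324940*t^5*s^9 - 2770717908*t^5*s^8
       - 12763347500*t^5*s^7 - 36932290000*t^5*s^6 - 60068531250*t^5*s^5 - 40964062500*t^5*s^4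
       + 97656250*t^5*s^3 - t^4*s^16 - 289*t^4*s^15 - 24368*t^4*s^14
       - 973909*t^4*s^13 - 22715177*t^4*s^12 - 341833758*t^4*s^11 - 3492073552*t^4*s^10
       - 24747676230*t^4*s^9 - 121557571985*t^4*s^8 - 403728263225*t^4*s^7 - 854710662500*t^4*s^6
       - 1016716578125*t^4*s^5 - 490744140625*t^4*s^4 + 7031250000*t^4*s^3 - 9*t^3*s^17
       - 2595*t^3*s^16 - 174150*t^3*s^15 - 5923026*t^3*s^14 - 125120715*t^3*s^13
       - 1789788105*t^3*s^12 - 18058310028*t^3*s^11 - 130644081744*t^3*s^10 - 677253125655*t^3*s^9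
       - 2474075926593*t^3*s^8 - 6139810975350*t^3*s^7 - 9664614978750*t^3*s^6 - 8432665453125*t^3*s^5
       - 2874882421875*t^3*s^4 + 179296875000*t^3*s^3 - 3*t^2*s^19 - 178*t^2*s^18
       - 10968*t^2*s^17 - 560238*t^2*s^16 - 17882555*t^2*s^15 - 366326707*t^2*s^14
       - 5105506788*t^2*s^13 - 50394984062*t^2*s^12 - 360175008605*t^2*s^11 - 1877770650957*t^2*s^10
       - 7099409502100*t^2*s^9 - 19071976858478*t^2*s^8 - 34972104745125*t^2*s^7 - 40596781508125*t^2*s^6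
       - 25252099000000*t^2*s^5 - 4191180468750*t^2*s^4 + 1896093750000*t^2*s^3 - 6103515625*t^2*s^2
       - t*s^21 - 76*t*s^20 - 2627*t*s^19 - 52094*t*s^18
       - 590805*t*s^17 - 2375699*t*s^16 + 36901580*t*s^15 + 762595796*t*s^14
       + 7158556845*t*s^13 + 42354567715*t*s^12 + 168277838106*t*s^11 + 454809527882*t*s^10
       + 872734155385*t*s^9 + 1583392143799*t*s^8 + 4204920065100*t*s^7 + 11501374562500*t*s^6
       + 20668662500000*t*s^5 + 19652551953125*t*s^4 + 6963525390625*t*s^3 - 219726562500*t*s^2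
       - 9*s^22 - 669*s^21 - 22332*s^20 - 442176*s^19
       - 5777511*s^18 - 52427682*s^17 - 338543835*s^16 - 1567254306*s^15
       - 5170505709*s^14 - 11924288379*s^13 - 18598403589*s^12 - 19259675469*s^11
       - 18913945179*s^10 - 47711730840*s^9 - 136701520134*s^8 - 225064883700*s^7
       - 222004320000*s^6 - 511625156250*s^5 - 1812168750000*s^4 - 3196728515625*s^3
       - 1647949218750*s^2) * hF

/-- Existence of a rational value of `h`. -/
theorem exists_h (t s : ℚ) (hs : s ≠ 0) (hF : (t+27)*(t+3)^3*s = (s^2+10*s+5)^3*t) :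
    ∃ h : ℚ, h * s^2 - (h^4 - 9*h^3 - 9*h - 1) * s + 125 * h^3 = 0 := by
  have hD := Dh_ne_zero s hs
  refine ⟨Nh t s / Dh s, ?_⟩
  have key := key_num t s hF
  have : (Nh t s / Dh s * s^2 - ((Nh t s / Dh s)^4 - 9*(Nh t s / Dh s)^3 - 9*(Nh t s / Dh s) - 1) * s
      + 125 * (Nh t s / Dh s)^3) * Dh s ^ 4 = Nh t s * Dh s ^ 3 * s^2
      - (Nh t s ^ 4 - 9 * Nh t s ^ 3 * Dh s - 9 * Nh t s * Dh s ^ 3 - Dh s ^ 4) * s
      + 125 * Nh t s ^ 3 * Dh s := by
    field_simp
  rw [key] at this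
  rcases mul_eq_zero.mp this with h | h
  · exact h
  · exact absurd h (pow_ne_zero 4 hD)


/-- The rational points of `y^2 = x(x+16)(x+25)` (statement form used as a hypothesis). -/
def RatPoints15 : Prop :=
  ∀ x y : ℚ, y^2 = x*(x+16)*(x+25) →
    y = 0 ∨ (x = 20 ∧ (y = 180 ∨ y = -180)) ∨ (x = -20 ∧ (y = 20 ∨ y = -20))

/-- Rational points of the quartic model `w^2 = h^4 - 10h^3 - 13h^2 + 10h + 1`. -/
theorem quartic_points (H15 : RatPoints15) (h w : ℚ)
    (hw : w^2 = h^4 - 10*h^3 - 13*h^2 + 10*h + 1) :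
    (h = -2 ∧ (w = 5 ∨ w = -5)) ∨ (h = 0 ∧ (w = 1 ∨ w = -1)) ∨
      (h = 1/2 ∧ (w = 5/4 ∨ w = -5/4)) := by
  set ξ : ℚ := w + h^2 - 5*h - 19 with hξ
  have hE : (ξ * (4*h - 10) - 180)^2 = (2*ξ + 20) * ((2*ξ + 20) + 16) * ((2*ξ + 20) + 25) := by
    rw [hξ]
    linear_combination (-8*h^2 + 40*h - 8*w + 152) * hw
  have hwξ : w = ξ - (h^2 - 5*h - 19) := by rw [hξ]; ring
  rcases H15 _ _ hE with h0 | ⟨hx, hy⟩ | ⟨hx, hy⟩
  · -- y = 0 : x ∈ {0, -16, -25}
    rw [h0] at hE
    have hx : (2*ξ + 20) * ((2*ξ + 20) + 16) * ((2*ξ + 20) + 25) = 0 := by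
      rw [← hE]; ring
    rcases mul_eq_zero.mp hx with hx | hx
    · rcases mul_eq_zero.mp hx with hx | hx
      · -- ξ = -10
        have hξv : ξ = -10 := by linarith
        rw [hξv] at h0 hwξ
        have hh : h = -2 := by linarith
        left
        refine ⟨hh, Or.inr ?_⟩
        rw [hwξ, hh]; norm_num
      · -- ξ = -18
        have hξv : ξ = -18 := by linarith
        rw [hξv] at h0 hwξ
        have hh : h = 0 := by linarith
        right; left
        refine ⟨hh, Or.inl ?_⟩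
        rw [hwξ, hh]; norm_num
    · -- ξ = -45/2
      have hξv : ξ = -45/2 := by linarith
      rw [hξv] at h0 hwξ
      have hh : h = 1/2 := by linarith
      right; right
      refine ⟨hh, Or.inr ?_⟩
      rw [hwξ, hh]; norm_num
  · -- x = 20 : ξ = 0
    have hξv : ξ = 0 := by linarith
    rw [hξv] at hy hwξ
    rcases hy with hy | hy
    · norm_num at hy
    · -- then w = -(h^2-5h-19) and w^2 = ... gives h = -2
      have hh : h = -2 := by
        have h1 : (h^2 - 5*h - 19)^2 = h^4 - 10*h^3 - 13*h^2 + 10*h + 1 := by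
          rw [← hw, hwξ]; ring
        linarith
      left
      refine ⟨hh, Or.inl ?_⟩
      rw [hwξ, hh]; norm_num
  · -- x = -20 : ξ = -20
    have hξv : ξ = -20 := by linarith
    rw [hξv] at hy hwξ
    rcases hy with hy | hy
    · have hh : h = 0 := by linarith
      right; left
      refine ⟨hh, Or.inr ?_⟩
      rw [hwξ, hh]; norm_num
    · have hh : h = 1/2 := by linarith
      right; right
      refine ⟨hh, Or.inl ?_⟩
      rw [hwξ, hh]; norm_num

/-- From the relation between `h` and `s` to the list of values of `s`. -/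
theorem s_values_of_h (H15 : RatPoints15) (h s : ℚ) (hs : s ≠ 0)
    (hG : h * s^2 - (h^4 - 9*h^3 - 9*h - 1) * s + 125 * h^3 = 0) :
    s = -10 ∨ s = -25/2 ∨ s = -25/8 ∨ s = -40 := by
  have hB : h^2 - 4*h - 1 ≠ 0 := by
    intro hB
    exact not_sq_five (h - 2) (by linear_combination hB)
  set w : ℚ := (2*h*s - (h^4 - 9*h^3 - 9*h - 1)) / (h^2 - 4*h - 1) with hwdef
  have hwB : w * (h^2 - 4*h - 1) = 2*h*s - (h^4 - 9*h^3 - 9*h - 1) := by
    rw [hwdef]; exact div_mul_cancel₀ _ hB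
  have hw : w^2 = h^4 - 10*h^3 - 13*h^2 + 10*h + 1 := by
    have h1 : (w * (h^2 - 4*h - 1))^2
        = (h^4 - 10*h^3 - 13*h^2 + 10*h + 1) * (h^2 - 4*h - 1)^2 := by
      rw [hwB]
      linear_combination (4*h) * hG
    have h2 : (h^2 - 4*h - 1)^2 ≠ 0 := pow_ne_zero 2 hB
    have h3 : w^2 * (h^2 - 4*h - 1)^2
        = (h^4 - 10*h^3 - 13*h^2 + 10*h + 1) * (h^2 - 4*h - 1)^2 := by
      rw [← h1]; ring
    exact mul_right_cancel₀ h2 h3
  rcases quartic_points H15 h w hw with ⟨hh, hw'⟩ | ⟨hh, hw'⟩ | ⟨hh, hw'⟩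
  · -- h = -2
    rw [hh] at hwB
    rcases hw' with hw' | hw'
    · rw [hw'] at hwB
      right; right; right; linarith
    · rw [hw'] at hwB
      right; left; linarith
  · -- h = 0 : forces s = 0
    rw [hh] at hG
    exfalso; apply hs; linarith
  · -- h = 1/2
    rw [hh] at hwB
    rcases hw' with hw' | hw'
    · rw [hw'] at hwB
      left; linarith
    · rw [hw'] at hwB
      right; right; left; linarith

/-- Rational points of the plane model of the modular curve of level fifteen, assuming the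
rational points of `y^2 = x(x+16)(x+25)`. -/
theorem x015_rational_of (H15 : RatPoints15) (t s : ℚ) (hs : s ≠ 0)
    (hF : (t+27)*(t+3)^3*s = (s^2+10*s+5)^3*t) :
    s = -10 ∨ s = -25/2 ∨ s = -25/8 ∨ s = -40 := by
  obtain ⟨h, hG⟩ := exists_h t s hs hF
  exact s_values_of_h H15 h s hs hG

end Fermat.Agent.S51.X015Quartic
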