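import Mathlib

set_option autoImplicit false

namespace Fermat.Agent.S51.Alt43

/-- Hypothesis form of the rank-zero statement for `y^2 = x(x+16)(x+25)`. -/
def RatPoints15a : Prop :=
  ∀ x y : ℚ, y ^ 2 = x * (x + 16) * (x + 25) →
    y = 0 ∨ (x = 20 ∧ (y = 180 ∨ y = -180)) ∨ (x = -20 ∧ (y = 20 ∨ y = -20))

theorem sq_ne_five (r : ℚ) : r ^ 2 ≠ 5 := by
  intro h
  have h5 : Irrational (Real.sqrt 5) := by
    have := Nat.prime_five.irrational_sqrt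
    simpa using this
  apply h5
  refine ⟨|r|, ?_⟩
  have h' : ((r : ℝ)) ^ 2 = 5 := by exact_mod_cast h
  rw [← h', Real.sqrt_sq_eq_abs]
  simp

theorem sq_ne_twenty (r : ℚ) : r ^ 2 ≠ 20 := by
  intro h
  apply sq_ne_five (r / 2)
  rw [div_pow, h]
  norm_num

/-- Rational points of the plane cubic model `v^2 w - v w^2 + 5 v w + v + 9 w = 0` of `X_0(15)`. -/
theorem cubic_points (h15 : RatPoints15a) (v w : ℚ)
    (hG : v ^ 2 * w - v * w ^ 2 + 5 * v * w + v + 9 * w = 0) :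
    (v = 0 ∧ w = 0) ∨ (v = -9 / 2 ∧ w = -2) ∨ (v = -2 ∧ w = 1 / 2) ∨ (v = -2 ∧ w = -2) ∨
      (v = -9 / 2 ∧ w = 1 / 2) := by
  have hE : (8 * (9 - v * w) * w + 20 * (v * w)) ^ 2 =
      (4 * (v * w) - 16) * ((4 * (v * w) - 16) + 16) * ((4 * (v * w) - 16) + 25) := by
    linear_combination (-64 * v * w ^ 2 + 576 * w) * hG
  -- the cubic is linear in `v, w` once `V = v w` is known
  have hlin : (v * w + 1) * v + (9 - v * w) * w + 5 * (v * w) = 0 := by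
    linear_combination hG
  rcases h15 _ _ hE with hY | ⟨hX, _⟩ | ⟨hX, hY⟩
  · -- `Y = 0`
    rw [hY] at hE
    have h0 : (4 * (v * w) - 16) * ((4 * (v * w) - 16) + 16) * ((4 * (v * w) - 16) + 25) = 0 := by
      rw [← hE]; norm_num
    rcases mul_eq_zero.mp h0 with h1 | h1
    · rcases mul_eq_zero.mp h1 with h2 | h2
      · -- `v w = 4`
        have hV : v * w = 4 := by linarith
        rw [hV] at hY hlin
        have hw : w = -2 := by linarith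
        have hv : v = -2 := by rw [hw] at hlin; linarith
        exact Or.inr (Or.inr (Or.inr (Or.inl ⟨hv, hw⟩)))
      · -- `v w = 0`
        have hV : v * w = 0 := by linarith
        rw [hV] at hY hlin
        have hw : w = 0 := by linarith
        have hv : v = 0 := by rw [hw] at hlin; linarith
        exact Or.inl ⟨hv, hw⟩
    · -- `v w = -9/4`
      have hV : v * w = -9 / 4 := by linarith
      rw [hV] at hY hlin
      have hw : w = 1 / 2 := by linarith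
      have hv : v = -9 / 2 := by rw [hw] at hlin; linarith
      exact Or.inr (Or.inr (Or.inr (Or.inr ⟨hv, hw⟩)))
  · -- `X = 20`, `v w = 9`
    have hV : v * w = 9 := by linarith
    rw [hV] at hlin
    have hv : v = -9 / 2 := by linarith
    have hw : w = -2 := by
      rw [hv] at hV; linarith
    exact Or.inr (Or.inl ⟨hv, hw⟩)
  · -- `X = -20`, `v w = -1`
    have hV : v * w = -1 := by linarith
    rw [hV] at hlin
    have hw : w = 1 / 2 := by linarith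
    have hv : v = -2 := by
      rw [hw] at hV; linarith
    exact Or.inr (Or.inr (Or.inl ⟨hv, hw⟩))

/-- The homogenised relation between `s` and `w = P / Q`. -/
theorem homog_identity (s w Q : ℚ) :
    (w * Q) * (s * Q ^ 3 - ((w * Q) ^ 3 - 9 * (w * Q) ^ 2 * Q + 9 * (w * Q) * Q ^ 2)) ^ 2
      - ((w * Q) ^ 2 - 5 * (w * Q) * Q - Q ^ 2)
          * (s * Q ^ 3 - ((w * Q) ^ 3 - 9 * (w * Q) ^ 2 * Q + 9 * (w * Q) * Q ^ 2))
          * (Q ^ 2 + 4 * (w * Q) * Q - (w * Q) ^ 2)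
      + 9 * (w * Q) * (Q ^ 2 + 4 * (w * Q) * Q - (w * Q) ^ 2) ^ 2 * Q ^ 2
    = Q ^ 7 * (w * (s - (w ^ 3 - 9 * w ^ 2 + 9 * w)) ^ 2
        - (w ^ 2 - 5 * w - 1) * (s - (w ^ 3 - 9 * w ^ 2 + 9 * w)) * (1 + 4 * w - w ^ 2)
        + 9 * w * (1 + 4 * w - w ^ 2) ^ 2) := by
  ring

theorem key_identity (t s : ℚ) (h : (t + 27) * (t + 3) ^ 3 * s = (s ^ 2 + 10 * s + 5) ^ 3 * t)
    (P Q : ℚ) (hP : P = (t + 3) * (s ^ 2 + 4 * s - 1))
    (hQ : Q = t ^ 2 + 18 * t - 3 * s ^ 3 - 39 * s ^ 2 - 105 * s) :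
    P * (s * Q ^ 3 - (P ^ 3 - 9 * P ^ 2 * Q + 9 * P * Q ^ 2)) ^ 2
      - (P ^ 2 - 5 * P * Q - Q ^ 2)
          * (s * Q ^ 3 - (P ^ 3 - 9 * P ^ 2 * Q + 9 * P * Q ^ 2))
          * (Q ^ 2 + 4 * P * Q - P ^ 2)
      + 9 * P * (Q ^ 2 + 4 * P * Q - P ^ 2) ^ 2 * Q ^ 2 = 0 := by
  subst hP hQ
  linear_combination
    (-729*s^16 - 27*t^3*s^12 + 729*t^2*s^13 - 44469*s^15 + 27*t^5*s^9 - 243*t^4*s^10 - 1404*t^3*s^11
      + 34749*t^2*s^12 + 18954*t*s^13 - 1202121*s^14 - 9*t^7*s^6 + 27*t^6*s^7 + 1053*t^5*s^8 -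
      7803*t^4*s^9 - 45738*t^3*s^10 + 709074*t^2*s^11 + 909063*t*s^12 - 18994824*s^13 + t^9*s^3 -
      234*t^7*s^5 + 216*t^6*s^6 + 19926*t^5*s^7 - 94122*t^4*s^8 - 890622*t^3*s^9 + 7923744*t^2*s^10 +
      18726552*t*s^11 - 194828166*s^12 + 13*t^9*s^2 + 54*t^8*s^3 - 2367*t^7*s^4 - 4995*t^6*s^5 +
      203013*t^5*s^6 - 392931*t^4*s^7 - 10005471*t^3*s^8 + 50641929*t^2*s^9 + 217295946*t*s^10 -
      1361549655*s^11 + t^10 + 35*t^9*s + 702*t^8*s^2 - 9216*t^7*s^3 - 83538*t^6*s^4 +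
      1060938*t^5*s^5 + 1580364*t^4*s^6 - 65179620*t^3*s^7 + 163620891*t^2*s^8 + 1565105409*t*s^9 -
      6612060618*s^10 + 81*t^9 + 1890*t^8*s - 4923*t^7*s^2 - 413451*t^6*s^3 + 2262897*t^5*s^4 +
      21993201*t^4*s^5 - 239137083*t^3*s^6 + 27059265*t^2*s^7 + 7257106062*t*s^8 - 22283323317*s^9 +
      2619*t^8 + 26298*t^7*s - 723924*t^6*s^2 - 928044*t^5*s^3 + 82170612*t^4*s^4 - 424068102*t^3*s^5
      - 1794132180*t^2*s^6 + 21634111638*t*s^7 - 50881033224*s^8 + 42795*t^7 - 226989*t^6*s -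
      9598743*t^5*s^2 + 120126591*t^4*s^3 - 68900490*t^3*s^4 - 6438939642*t^2*s^5 + 39734179263*t*s^6
      - 74155629600*s^7 + 369360*t^6 - 8276823*t^5*s + 24781383*t^4*s^2 + 830039400*t^3*s^3 -
      9535906359*t^2*s^4 + 39790298412*t*s^5 - 59725840779*s^6 + 1627128*t^5 - 59219586*t^4*s +
      783034209*t^3*s^2 - 4833989523*t^2*s^3 + 14061532284*t*s^4 - 15384805065*s^5 + 3464208*t^4 -
      90620532*t^3*s + 876234672*t^2*s^2 - 3722408865*t*s^3 + 5874318450*s^4 + 2834352*t^3 -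
      49601160*t^2*s + 289340100*t*s^2 - 562605750*s^3) * h

theorem denominator_ne_zero (t s : ℚ) (hs : s ≠ 0)
    (h : (t + 27) * (t + 3) ^ 3 * s = (s ^ 2 + 10 * s + 5) ^ 3 * t) :
    t ^ 2 + 18 * t - 3 * s ^ 3 - 39 * s ^ 2 - 105 * s ≠ 0 := by
  intro hQ
  have hres : s * (s ^ 2 + 10 * s + 5) ^ 3 * (s ^ 2 + 4 * s - 1) ^ 4 = 0 := by
    linear_combination
      (-(1/3)*s^12 + t*s^10 - 11*s^11 + (1/3)*t^3*s^7 + 3*t^2*s^8 + 43*t*s^9 - 141*s^10 + 10*t^3*s^6 +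
      90*t^2*s^7 + 794*t*s^8 - (2654/3)*s^9 + 105*t^3*s^5 + 1077*t^2*s^6 + 7939*t*s^7 - 2786*s^8 +
      (1300/3)*t^3*s^4 + 6456*t^2*s^5 + 45106*t*s^6 - 3806*s^7 + 525*t^3*s^3 + 18573*t^2*s^4 +
      141515*t*s^5 - (2363/3)*s^6 - 326*t^3*s^2 + 17010*t^2*s^3 + 213050*t*s^4 + 446*s^5 +
      (125/3)*t^3*s - 11493*t^2*s^2 + 75125*t*s^3 - 10592*s^4 + 1500*t^2*s - 79271*t*s^2 -
      (153145/3)*s^3 + 11250*t*s - 67578*s^2 + 41000*s - (15625/3)) * hQ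
      - ((1/3)*t*s^6 + 3*s^7 + 10*t*s^5 + 84*s^6 + 105*t*s^4 + 897*s^5 + (1300/3)*t*s^3 + 4566*s^4 +
      525*t*s^2 + 10773*s^3 - 326*t*s + 7560*s^2 + (125/3)*t - 5625*s + 750) * h
  rcases mul_eq_zero.mp hres with h1 | h1
  · rcases mul_eq_zero.mp h1 with h2 | h2
    · exact hs h2
    · have h3 : s ^ 2 + 10 * s + 5 = 0 := by
        exact pow_eq_zero_iff (by norm_num) |>.mp h2
      apply sq_ne_twenty (s + 5)
      linear_combination h3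
  · have h3 : s ^ 2 + 4 * s - 1 = 0 := by
      exact pow_eq_zero_iff (by norm_num) |>.mp h1
    apply sq_ne_five (s + 2)
    linear_combination h3

/-- From a rational root `w` of the `(s, w)`-relation to the list of `s`-values. -/
theorem s_values_of_relation (h15 : RatPoints15a) (s w : ℚ) (hs : s ≠ 0)
    (hH : w * (s - (w ^ 3 - 9 * w ^ 2 + 9 * w)) ^ 2
        - (w ^ 2 - 5 * w - 1) * (s - (w ^ 3 - 9 * w ^ 2 + 9 * w)) * (1 + 4 * w - w ^ 2)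
        + 9 * w * (1 + 4 * w - w ^ 2) ^ 2 = 0) :
    s = -10 ∨ s = -25 / 2 ∨ s = -25 / 8 ∨ s = -40 := by
  have hb : 1 + 4 * w - w ^ 2 ≠ 0 := by
    intro hb
    apply sq_ne_five (w - 2)
    linear_combination -hb
  obtain ⟨v, hvb⟩ : ∃ v : ℚ, v * (1 + 4 * w - w ^ 2) = s - (w ^ 3 - 9 * w ^ 2 + 9 * w) :=
    ⟨(s - (w ^ 3 - 9 * w ^ 2 + 9 * w)) / (1 + 4 * w - w ^ 2), div_mul_cancel₀ _ hb⟩
  have hG : v ^ 2 * w - v * w ^ 2 + 5 * v * w + v + 9 * w = 0 := by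
    have h2 : (v ^ 2 * w - v * w ^ 2 + 5 * v * w + v + 9 * w) * (1 + 4 * w - w ^ 2) ^ 2 = 0 := by
      rw [← hvb] at hH
      linear_combination hH
    rcases mul_eq_zero.mp h2 with h3 | h3
    · exact h3
    · exact absurd (pow_eq_zero_iff (by norm_num) |>.mp h3) hb
  have hs_eq : s = v * (1 + 4 * w - w ^ 2) + (w ^ 3 - 9 * w ^ 2 + 9 * w) := by
    linear_combination -hvb
  rcases cubic_points h15 v w hG with ⟨hv, hw⟩ | ⟨hv, hw⟩ | ⟨hv, hw⟩ | ⟨hv, hw⟩ | ⟨hv, hw⟩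
  · exfalso
    apply hs
    rw [hs_eq, hv, hw]; norm_num
  · right; left
    rw [hs_eq, hv, hw]; norm_num
  · right; right; left
    rw [hs_eq, hv, hw]; norm_num
  · right; right; right
    rw [hs_eq, hv, hw]; norm_num
  · left
    rw [hs_eq, hv, hw]; norm_num

/-- Rational points of the (singular) plane model of `X_0(15)` in the Hauptmoduln `t` of `X_0(3)`
and `s` of `X_0(5)`. -/
theorem x015_rational (h15 : RatPoints15a) (t s : ℚ) (_ht : t ≠ 0) (hs : s ≠ 0)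
    (h : (t + 27) * (t + 3) ^ 3 * s = (s ^ 2 + 10 * s + 5) ^ 3 * t) :
    s = -10 ∨ s = -25 / 2 ∨ s = -25 / 8 ∨ s = -40 := by
  have hQ := denominator_ne_zero t s hs h
  obtain ⟨Q, hQdef⟩ : ∃ Q : ℚ, Q = t ^ 2 + 18 * t - 3 * s ^ 3 - 39 * s ^ 2 - 105 * s := ⟨_, rfl⟩
  obtain ⟨P, hPdef⟩ : ∃ P : ℚ, P = (t + 3) * (s ^ 2 + 4 * s - 1) := ⟨_, rfl⟩
  rw [← hQdef] at hQ
  obtain ⟨w, hwQ⟩ : ∃ w : ℚ, w * Q = P := ⟨P / Q, div_mul_cancel₀ _ hQ⟩
  have hkey := key_identity t s h P Q hPdef hQdef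
  rw [← hwQ, homog_identity] at hkey
  have hH : w * (s - (w ^ 3 - 9 * w ^ 2 + 9 * w)) ^ 2
        - (w ^ 2 - 5 * w - 1) * (s - (w ^ 3 - 9 * w ^ 2 + 9 * w)) * (1 + 4 * w - w ^ 2)
        + 9 * w * (1 + 4 * w - w ^ 2) ^ 2 = 0 := by
    rcases mul_eq_zero.mp hkey with h1 | h1
    · exact absurd (pow_eq_zero_iff (by norm_num) |>.mp h1) hQ
    · exact h1
  exact s_values_of_relation h15 s w hs hH

end Fermat.Agent.S51.Alt43
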